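import Fermat.Agent.S18

/-!
# Injectivity of reduction on torsion
-/

set_option autoImplicit false

namespace Fermat.Agent.EichlerShimura

/-- Reduction is injective on torsion of order prime to the residue characteristic. -/
theorem injectiveOnTorsion_all (N : ℕ) [NeZero N] : InjectiveOnTorsion N :=
  fun {_} _ hℓN A hA h m hm z hmz hz => Fermat.Agent.S18.result N hℓN A hA h m hm z hmz hz

end Fermat.Agent.EichlerShimura
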