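import Fermat.Agent.EichlerShimura.Ramified
import Mathlib.Tactic.ComputeDegree

/-!
# Covers of the `j`-line absorbing the elliptic ramification and the cusps
-/

set_option autoImplicit false

noncomputable section

open Polynomial IsLocalRing AlgebraicCurve

namespace Fermat.Agent.EichlerShimura

open Fermat.Agent.FF

theorem isCoprime_of_no_root {k : Type*} [Field k] [IsAlgClosed k] {p q : k[X]}
    (h : ∀ a, p.eval a = 0 → q.eval a ≠ 0) : IsCoprime p q := by
  rw [Polynomial.isCoprime_iff_aeval_ne_zero_of_isAlgClosed k k]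
  intro a
  simp only [coe_aeval_eq_eval]
  exact or_iff_not_imp_left.mpr fun ha => h a (not_not.mp ha)

theorem dvd_rootMultiplicity_pow {k : Type*} [Field k] (p : k[X]) (n : ℕ) (a : k) :
    n ∣ (p ^ n).rootMultiplicity a := by
  classical
  rw [← count_roots, roots_pow, Multiset.count_nsmul]
  exact dvd_mul_right _ _

variable {L : Type*} [Field L] {A : ValuationSubring L} [IsAlgClosed (Kappa A)]

/-- `j = (μ²+192)³/(μ²-64)²`. -/
def coverLambda (h2 : (2 : Kappa A) ≠ 0) : CoverData A where
  num := (X ^ 2 + 192) ^ 3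
  den := (X ^ 2 - 64) ^ 2
  monic := by monicity!
  deg_lt := by
    refine lt_of_le_of_lt (b := ((4 : ℕ) : WithBot ℕ)) (by compute_degree; norm_num) ?_
    rw [show ((X ^ 2 + 192 : A[X]) ^ 3).degree = ((6 : ℕ) : WithBot ℕ) by compute_degree!]
    norm_num
  cop := by
    refine isCoprime_of_no_root fun a ha => ?_
    simp [polyBar, Polynomial.map_ofNat] at ha ⊢
    intro hb
    refine pow_ne_zero 8 h2 ?_
    linear_combination ha - hb
  pos := by
    rw [show ((X ^ 2 + 192 : A[X]) ^ 3).natDegree = 6 by compute_degree!]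
    norm_num

/-- `j = u³(u³+216)³/(u³-27)³`. -/
def coverHesse (h3 : (3 : Kappa A) ≠ 0) : CoverData A where
  num := (X * (X ^ 3 + 216)) ^ 3
  den := (X ^ 3 - 27) ^ 3
  monic := by monicity!
  deg_lt := by
    refine lt_of_le_of_lt (b := ((9 : ℕ) : WithBot ℕ)) (by compute_degree; norm_num) ?_
    rw [show ((X * (X ^ 3 + 216) : A[X]) ^ 3).degree = ((12 : ℕ) : WithBot ℕ) by compute_degree!]
    norm_num
  cop := by
    refine isCoprime_of_no_root fun a ha => ?_
    simp [polyBar, Polynomial.map_ofNat] at ha ⊢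
    intro hb
    rcases ha with ha | ha
    · refine pow_ne_zero 3 h3 ?_
      linear_combination a ^ 2 * ha - hb
    · refine pow_ne_zero 5 h3 ?_
      linear_combination ha - hb
  pos := by
    rw [show ((X * (X ^ 3 + 216) : A[X]) ^ 3).natDegree = 12 by compute_degree!]
    norm_num

/-- `1/j = t^N`. -/
def coverPow (N : ℕ) (hN : N ≠ 0) : CoverData A where
  num := X ^ N
  den := 1
  monic := monic_X_pow N
  deg_lt := by
    rw [degree_one, degree_X_pow]
    exact_mod_cast Nat.pos_of_ne_zero hN
  cop := by rw [map_one]; exact isCoprime_one_right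
  pos := by rw [natDegree_X_pow]; exact Nat.pos_of_ne_zero hN

variable [IsAlgClosed L] [CharZero L]

omit [CharZero L] [IsAlgClosed (Kappa A)] in
theorem den_eval_ne_zero {c : CoverData A} {d : A}
    (h : (polyBar A c.den).eval (residue A d) ≠ 0) : c.gen.den.eval (d : L) ≠ 0 := fun h0 => by
  refine h ?_
  rw [← residue_eval, show c.den.eval d = 0 from Subtype.ext (by rw [coe_eval]; exact h0), map_zero]

omit [CharZero L] in
theorem exists_cover_dvd :
    ∃ c : CoverData A, ∀ (d : L), c.gen.den.eval d ≠ 0 →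
      (c.gen.num.eval d / c.gen.den.eval d = 0 →
        3 ∣ (c.gen.num - C (c.gen.num.eval d / c.gen.den.eval d) * c.gen.den).rootMultiplicity d) ∧
      (c.gen.num.eval d / c.gen.den.eval d = 1728 →
        2 ∣ (c.gen.num - C (c.gen.num.eval d / c.gen.den.eval d) * c.gen.den).rootMultiplicity d) := by
  have h23 : (2 : Kappa A) ≠ 0 ∨ (3 : Kappa A) ≠ 0 := by
    by_contra h
    simp only [not_or, not_not] at h
    exact one_ne_zero (show (1 : Kappa A) = 0 by linear_combination h.2 - h.1)
  rcases h23 with h | h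
  · refine ⟨coverLambda h, fun d _ => ⟨fun h0 => ?_, fun h1 => ?_⟩⟩
    · rw [h0, C_0, zero_mul, sub_zero,
        show (coverLambda h).gen.num = (X ^ 2 + 192) ^ 3 by
          simp [CoverData.gen, coverLambda, polyIncl, Polynomial.map_ofNat]]
      exact dvd_rootMultiplicity_pow _ 3 d
    · rw [h1, show (coverLambda h).gen.num - C 1728 * (coverLambda h).gen.den =
          (X * (X ^ 2 - 576)) ^ 2 by
            simp [CoverData.gen, coverLambda, polyIncl, Polynomial.map_ofNat, map_ofNat]; ring]
      exact dvd_rootMultiplicity_pow _ 2 d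
  · refine ⟨coverHesse h, fun d _ => ⟨fun h0 => ?_, fun h1 => ?_⟩⟩
    · rw [h0, C_0, zero_mul, sub_zero,
        show (coverHesse h).gen.num = (X * (X ^ 3 + 216)) ^ 3 by
          simp [CoverData.gen, coverHesse, polyIncl, Polynomial.map_ofNat]]
      exact dvd_rootMultiplicity_pow _ 3 d
    · rw [h1, show (coverHesse h).gen.num - C 1728 * (coverHesse h).gen.den =
          (X ^ 6 - 540 * X ^ 3 - 5832) ^ 2 by
            simp [CoverData.gen, coverHesse, polyIncl, Polynomial.map_ofNat, map_ofNat]; ring]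
      exact dvd_rootMultiplicity_pow _ 2 d

variable {E : Type*} [Field E] [Algebra (RatFunc L) E] [Algebra L E] [IsScalarTower L (RatFunc L) E]
  [FiniteDimensional (RatFunc L) E] [IsFunctionField L E]
variable {ι : Type*} [Fintype ι] [DecidableEq ι]

omit [FiniteDimensional (RatFunc L) E] [IsAlgClosed L] [CharZero L] [IsFunctionField L E] in
theorem algebraMap_unifAt (a : L) : algebraMap (RatFunc L) E (unifAt a) =
    algebraMap (RatFunc L) E RatFunc.X - algebraMap L E a := by
  rw [unifAt_eq, map_sub, IsScalarTower.algebraMap_apply L (RatFunc L) E]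
  rfl

omit [IsAlgClosed L] [CharZero L] [IsScalarTower L (RatFunc L) E]
    [FiniteDimensional (RatFunc L) E] [IsFunctionField L E] in
theorem pos_ord_of_mem_ordGe_one {a : L} {P : Place L E}
    (hP : algebraMap (RatFunc L) E (unifAt a) ∈ ordGe P 1) :
    0 < P.ord (algebraMap (RatFunc L) E (unifAt a)) := by
  have := le_ord_of_mem_ordGe P ((_root_.map_ne_zero _).mpr (unifAt_ne_zero a)) hP
  omega

/-- A cover over the finite part of the `j`-line making the algebra unramified. -/
theorem exists_cover_finite (b : Module.Basis ι (RatFunc L) E) {x : E}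
    (hx : algebraMap (RatFunc L) E RatFunc.X = x)
    (h0 : ∀ P : Place L E, 0 < P.ord x → P.ord x ∣ 3)
    (h1728 : ∀ P : Place L E, 0 < P.ord (x - algebraMap L E 1728) →
      P.ord (x - algebraMap L E 1728) ∣ 2)
    (hgen : ∀ (a : L), a ≠ 0 → a ≠ 1728 → ∀ P : Place L E, 0 < P.ord (x - algebraMap L E a) →
      P.ord (x - algebraMap L E a) ∣ 1) :
    ∃ c : CoverData A, ∀ (T : Set (Kappa A)) (d : A), residue A d ∈ c.pre T →
      UnramAt ι (c.gen.BC E) (d : L) := by
  obtain ⟨c, hc⟩ := exists_cover_dvd (A := A)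
  refine ⟨c, fun T d hd => unramAt_baseChange c.gen b (den_eval_ne_zero hd.1) fun P hP => ?_⟩
  obtain ⟨hc0, hc1⟩ := hc (d : L) (den_eval_ne_zero hd.1)
  have hpos := pos_ord_of_mem_ordGe_one hP
  rw [algebraMap_unifAt, hx] at hpos ⊢
  set a := c.gen.num.eval (d : L) / c.gen.den.eval (d : L)
  by_cases ha : a = 0
  · rw [ha, map_zero, sub_zero] at hpos ⊢
    have := hc0 ha
    rw [ha] at this
    exact (h0 P hpos).trans (by exact_mod_cast this)
  by_cases ha' : a = 1728
  · rw [ha'] at hpos ⊢
    have := hc1 ha'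
    rw [ha'] at this
    exact (h1728 P hpos).trans (by exact_mod_cast this)
  exact (hgen a ha ha' P hpos).trans (one_dvd _)

omit [IsAlgClosed (Kappa A)] in
/-- The cover `x = t^N` over the residue disc of `0`. -/
theorem exists_cover_cusp (b : Module.Basis ι (RatFunc L) E) {N : ℕ} (hN : N ≠ 0) {x : E}
    (hx : algebraMap (RatFunc L) E RatFunc.X = x)
    (h0 : ∀ P : Place L E, 0 < P.ord x → P.ord x ∣ (N : ℤ))
    (hgen : ∀ (a : A), residue A a = 0 → (a : L) ≠ 0 → ∀ P : Place L E,
      0 < P.ord (x - algebraMap L E a) → P.ord (x - algebraMap L E a) ∣ 1) :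
    ∃ c : CoverData A, ∀ d : A, residue A d ∈ c.pre {0} → UnramAt ι (c.gen.BC E) (d : L) := by
  refine ⟨coverPow N hN, fun d hd => unramAt_baseChange (coverPow N hN).gen b (den_eval_ne_zero hd.1)
    fun P hP => ?_⟩
  have hnum : (coverPow (A := A) N hN).gen.num = X ^ N := by
    simp [CoverData.gen, coverPow, polyIncl]
  have hden : (coverPow (A := A) N hN).gen.den = 1 := by
    simp [CoverData.gen, coverPow, polyIncl]
  have hres : residue A (d ^ N) = 0 := by
    have h : residue A d ^ N = 0 := by simpa [coverPow, polyBar] using hd.2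
    rw [map_pow, h]
  have hpos := pos_ord_of_mem_ordGe_one hP
  rw [algebraMap_unifAt, hx] at hpos ⊢
  simp only [hnum, hden, eval_pow, eval_X, eval_one, _root_.div_one, mul_one] at hpos ⊢
  by_cases hd0 : (d : L) = 0
  · rw [hd0, zero_pow hN, map_zero, sub_zero] at hpos
    simp only [hd0, zero_pow hN, map_zero, sub_zero]
    rw [show (X ^ N : L[X]) = (X - C 0) ^ N by simp, rootMultiplicity_X_sub_C_pow]
    exact h0 P hpos
  · have h := hgen (d ^ N) hres (by simpa using pow_ne_zero N hd0) P (by simpa using hpos)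
    exact (by simpa using h : P.ord (x - algebraMap L E ((d : L) ^ N)) ∣ 1).trans (one_dvd _)

end Fermat.Agent.EichlerShimura
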