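import Fermat.Agent.EichlerShimura.ChartRed
import Fermat.Agent.EichlerShimura.Covers
import Fermat.Agent.EichlerShimura.Flip
import Fermat.Agent.EichlerShimura.NormLift

/-!
# Reduction of points in the two charts of the line
-/

set_option autoImplicit false
set_option linter.unusedSectionVars false

noncomputable section

open scoped Classical
open Polynomial IsLocalRing AlgebraicCurve

namespace Fermat.Agent.EichlerShimura

open Fermat.Agent.FF

variable {L : Type*} [Field L] [IsAlgClosed L] {A : ValuationSubring L} [IsAlgClosed (Kappa A)]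
variable {ι : Type*} [Fintype ι] [DecidableEq ι]
variable {E : Type*} [Field E] [Algebra (RatFunc L) E] [Algebra L E] [IsScalarTower L (RatFunc L) E]
  [FiniteDimensional (RatFunc L) E] [IsFunctionField L E]
variable {Eb : Type*} [Field Eb] [Algebra (RatFunc (Kappa A)) Eb] [Algebra (Kappa A) Eb]
  [IsScalarTower (Kappa A) (RatFunc (Kappa A)) Eb] [FiniteDimensional (RatFunc (Kappa A)) Eb]
  [IsFunctionField (Kappa A) Eb]

/-- A cover without branching over `t` gives the lifting property at `t`. -/
theorem Model.hasPowLift_of_cover (M : Model A ι E Eb) (c : CoverData A) {t : Kappa A}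
    (hU : ∀ d : A, residue A d ∈ c.pre {t} → UnramAt ι (c.gen.BC E) (d : L)) : HasPowLift M t :=
  ⟨c.num.natDegree, c.pos, fun _ hh => M.exists_pow_lift c (Set.finite_singleton t)
    (Set.singleton_nonempty t) hU fun a ha => by
      rw [Set.mem_singleton_iff.mp ha]; exact hh⟩

section Generic

variable {K F : Type*} [Field K] [Field F] [Algebra K F] [IsFunctionField K F] {A : ValuationSubring K}

/-- The two charts cover every point. -/
theorem exists_disc_or_inv [IsAlgClosed K] (P : Place K F) (x : F) :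
    (∃ c : A, x - algebraMap K F (c : K) ∈ ordGe P 1) ∨
      ∃ c : A, residue A c = 0 ∧ x⁻¹ - algebraMap K F (c : K) ∈ ordGe P 1 := by
  by_cases hx : x ∈ P.toValuationSubring
  · have h := sub_valAtP_mem P hx
    set a := valAtP P ⟨x, hx⟩
    by_cases ha : a ∈ A
    · exact Or.inl ⟨⟨a, ha⟩, h⟩
    · have ha0 : a ≠ 0 := fun h0 => ha (h0 ▸ zero_mem A)
      have hai : a⁻¹ ∈ A := (A.mem_or_inv_mem a).resolve_left ha
      refine Or.inr ⟨⟨a⁻¹, hai⟩, ?_, ?_⟩
      · by_contra hu
        refine ha ?_
        obtain ⟨b, hb⟩ := ((residue_ne_zero_iff_isUnit _).mp hu).exists_right_inv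
        have hb' : a⁻¹ * (b : K) = 1 := congrArg Subtype.val hb
        rw [inv_mul_eq_one₀ ha0] at hb'
        exact hb' ▸ b.2
      · obtain ⟨hx0, hord⟩ := ord_add_eq_left P (f := algebraMap K F a)
          ((_root_.map_ne_zero _).mpr ha0) (((mem_ordGe P).mp h).imp_right fun h => by
            rw [ord_algebraMap]; omega)
        rw [add_sub_cancel] at hx0 hord
        rw [ord_algebraMap] at hord
        have hxi : x⁻¹ ∈ ordGe P 0 := mem_ordGe_of_le P (by rw [P.ord_inv, hord]; omega)
        have ha' : algebraMap K F a⁻¹ ∈ ordGe P 0 := mem_ordGe_of_le P (le_of_eq (ord_algebraMap P _).symm)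
        show x⁻¹ - algebraMap K F a⁻¹ ∈ ordGe P 1
        rw [show x⁻¹ - algebraMap K F a⁻¹ =
            -((x - algebraMap K F a) * (x⁻¹ * algebraMap K F a⁻¹)) from ?_]
        · exact neg_mem (by simpa using mul_mem_ordGe P h (mul_mem_ordGe P hxi ha'))
        · have : algebraMap K F a ≠ 0 := (_root_.map_ne_zero _).mpr ha0
          rw [map_inv₀]; field_simp; ring
  · refine Or.inr ⟨0, map_zero _, ?_⟩
    rw [ZeroMemClass.coe_zero, map_zero, sub_zero]
    have hx0 : x ≠ 0 := fun h => hx (h ▸ zero_mem _)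
    refine mem_ordGe_of_le P ?_
    rw [P.ord_inv]
    have := mt (mem_iff P).mpr hx
    simp only [not_or, not_le] at this
    omega

omit [IsFunctionField K F] in
/-- A constant vanishing at a place is zero. -/
theorem const_eq_zero_of_mem
    {P : Place K F} {a : K} (h : algebraMap K F a ∈ ordGe P 1) : a = 0 := by
  by_contra ha
  have := le_ord_of_mem_ordGe P ((_root_.map_ne_zero _).mpr ha) h
  rw [ord_algebraMap] at this
  omega

theorem disc_center_unique
    {P : Place K F} {x : F} {a b : K} (ha : x - algebraMap K F a ∈ ordGe P 1)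
    (hb : x - algebraMap K F b ∈ ordGe P 1) : a = b := by
  have := sub_mem hb ha
  rw [sub_sub_sub_cancel_left, ← map_sub] at this
  exact sub_eq_zero.mp (const_eq_zero_of_mem this)

theorem not_disc_and_inv {P : Place K F} {x : F} (hx : x ≠ 0) {c d : A} (hd : residue A d = 0)
    (h1 : x - algebraMap K F (c : K) ∈ ordGe P 1) :
    ¬ x⁻¹ - algebraMap K F (d : K) ∈ ordGe P 1 := fun h2 => by
  have hxc : algebraMap K F (c : K) ∈ ordGe P 0 :=
    mem_ordGe_of_le P (le_of_eq (ord_algebraMap P _).symm)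
  have hxd : algebraMap K F (d : K) ∈ ordGe P 0 :=
    mem_ordGe_of_le P (le_of_eq (ord_algebraMap P _).symm)
  have hxi : x⁻¹ ∈ ordGe P 0 := by
    have := add_mem (ordGe_anti P zero_le_one h2) hxd
    rwa [sub_add_cancel] at this
  have h : algebraMap K F (1 - (c : K) * d) ∈ ordGe P 1 := by
    rw [show algebraMap K F (1 - (c : K) * d) = (x - algebraMap K F (c : K)) * x⁻¹ +
      algebraMap K F (c : K) * (x⁻¹ - algebraMap K F (d : K)) by
        rw [map_sub, map_one, map_mul, sub_mul, mul_inv_cancel₀ hx]; ring]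
    exact add_mem (by simpa using mul_mem_ordGe P h1 hxi) (by simpa using mul_mem_ordGe P hxc h2)
  have h' : (c * d : A) = 1 := Subtype.ext (sub_eq_zero.mp (const_eq_zero_of_mem h)).symm
  have := congrArg (residue A) h'
  rw [map_mul, hd, mul_zero, map_one] at this
  exact zero_ne_one this

end Generic

variable [CharZero L]

/-- The reduction of the points near infinity. -/
theorem Model.exists_chartRed_inv (M : Model A ι E Eb) {x : E} {xb : Eb}
    (hx : algebraMap (RatFunc L) E RatFunc.X = x)
    (hxb : algebraMap (RatFunc (Kappa A)) Eb RatFunc.X = xb)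
    {N : ℕ} (hN : N ≠ 0) (hpole : ∀ P : Place L E, P.ord x < 0 → P.ord x ∣ (N : ℤ))
    (hgen : ∀ a : L, a ≠ 0 → a ≠ 1728 → ∀ P : Place L E, 0 < P.ord (x - algebraMap L E a) →
      P.ord (x - algebraMap L E a) ∣ 1) :
    ∃ r : Place L E → Option (Place (Kappa A) Eb),
      (∀ P, (∃ c : A, residue A c = 0 ∧ x⁻¹ - algebraMap L E (c : L) ∈ ordGe P 1) →
        ∃ Q, r P = some Q ∧ xb⁻¹ ∈ ordGe Q 1) ∧
      (∀ P Q, r P = some Q →
        ∃ c : A, residue A c = 0 ∧ x⁻¹ - algebraMap L E (c : L) ∈ ordGe P 1) ∧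
      ∀ (y : M.S), M.red y ≠ 0 → ∀ Q : Place (Kappa A) Eb, xb⁻¹ ∈ ordGe Q 1 →
          Q.ord (M.red y) = ∑ P ∈ (suppFin (y : E)).filter (fun P : Place L E => r P = some Q),
            P.ord (y : E) := by
  have hx0 : x ≠ 0 := by rw [← hx, _root_.map_ne_zero]; exact RatFunc.X_ne_zero
  let _ : Algebra L (Flipped E) := (inferInstance : Algebra L E)
  let _ : Algebra (Kappa A) (Flipped Eb) := (inferInstance : Algebra (Kappa A) Eb)
  have : IsScalarTower L (RatFunc L) (Flipped E) := IsScalarTower.of_algebraMap_eq fun c => by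
    show algebraMap L E c = algebraMap (RatFunc L) E (invX L (algebraMap L (RatFunc L) c))
    rw [RatFunc.algebraMap_eq_C, invX_apply, invXHom_C, ← RatFunc.algebraMap_eq_C,
      ← IsScalarTower.algebraMap_apply L (RatFunc L) E]
  have : IsScalarTower (Kappa A) (RatFunc (Kappa A)) (Flipped Eb) :=
    IsScalarTower.of_algebraMap_eq fun c => by
      show algebraMap (Kappa A) Eb c =
        algebraMap (RatFunc (Kappa A)) Eb (invX (Kappa A) (algebraMap (Kappa A) (RatFunc (Kappa A)) c))
      rw [RatFunc.algebraMap_eq_C, invX_apply, invXHom_C, ← RatFunc.algebraMap_eq_C,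
        ← IsScalarTower.algebraMap_apply (Kappa A) (RatFunc (Kappa A)) Eb]
  have : FiniteDimensional (RatFunc L) (Flipped E) := Module.Finite.of_basis (flipBasis M.b)
  have : FiniteDimensional (RatFunc (Kappa A)) (Flipped Eb) :=
    Module.Finite.of_basis (flipBasis M.bb)
  have : IsFunctionField L (Flipped E) := ‹IsFunctionField L E›
  have : IsFunctionField (Kappa A) (Flipped Eb) := ‹IsFunctionField (Kappa A) Eb›
  have hx' : algebraMap (RatFunc L) (Flipped E) RatFunc.X = (flipRing E x⁻¹) := by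
    rw [algebraMap_flipped, invX_apply, invXHom_X, map_inv₀, hx]
  have hxb' : algebraMap (RatFunc (Kappa A)) (Flipped Eb) RatFunc.X = (flipRing Eb xb⁻¹) := by
    rw [algebraMap_flipped, invX_apply, invXHom_X, map_inv₀, hxb]
  obtain ⟨c, hc⟩ := exists_cover_cusp (A := A) M.flip.b hN hx'
    (fun P hP => by
      let P' : Place L E := P
      have hP' : 0 < P'.ord x⁻¹ := hP
      show P'.ord x⁻¹ ∣ _
      rw [P'.ord_inv] at hP' ⊢
      exact (Int.neg_dvd).mpr (hpole P' (by omega)))
    (fun a ha ha0 P hP => by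
      let P' : Place L E := P
      have hP' : 0 < P'.ord (x⁻¹ - algebraMap L E (a : L)) := hP
      show P'.ord (x⁻¹ - algebraMap L E (a : L)) ∣ 1
      have h1728 : ((a : L))⁻¹ ≠ 1728 := fun h => by
        have : (a * 1728 : A) = 1 := Subtype.ext (by
          show (a : L) * ((1728 : A) : L) = 1
          rw [show ((1728 : A) : L) = 1728 from map_ofNat A.subtype 1728, ← h, mul_inv_cancel₀ ha0])
        have := congrArg (residue A) this
        rw [map_mul, ha, zero_mul, map_one] at this
        exact zero_ne_one this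
      have hane : algebraMap L E (a : L) ≠ 0 := (_root_.map_ne_zero _).mpr ha0
      have hne : x⁻¹ - algebraMap L E (a : L) ≠ 0 := fun h => by
        rw [h, P'.ord_zero] at hP'; omega
      have hxo : P'.ord x⁻¹ = 0 := by
        obtain ⟨-, h3⟩ := ord_add_eq_left P' (f := algebraMap L E (a : L))
          (g := x⁻¹ - algebraMap L E (a : L)) hane (Or.inr (by rw [ord_algebraMap]; omega))
        rwa [add_sub_cancel, ord_algebraMap] at h3
      have he : x⁻¹ - algebraMap L E (a : L) =
          algebraMap L E (-(a : L)) * x⁻¹ * (x - algebraMap L E (a : L)⁻¹) := by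
        rw [map_neg, map_inv₀]; field_simp; ring
      have hna : algebraMap L E (-(a : L)) ≠ 0 := (_root_.map_ne_zero _).mpr (neg_ne_zero.mpr ha0)
      have hne' : x - algebraMap L E (a : L)⁻¹ ≠ 0 := fun h => hne (by rw [he, h, mul_zero])
      rw [he, P'.ord_mul (mul_ne_zero hna (inv_ne_zero hx0)) hne', P'.ord_mul hna (inv_ne_zero hx0),
        ord_algebraMap, hxo, zero_add, zero_add] at hP' ⊢
      exact hgen _ (inv_ne_zero ha0) h1728 P' hP')
  obtain ⟨r, h1, h2, h3⟩ := M.flip.exists_chartRed hx' hxb' (M.flip.hasPowLift_of_cover c hc)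
  refine ⟨r, fun P hP => ?_, h2, fun y hy Q hQ => ?_⟩
  · obtain ⟨Q, hQ, hQ'⟩ := h1 P hP
    rw [map_zero, sub_zero] at hQ'
    exact ⟨Q, hQ, hQ'⟩
  · have hy' : M.flip.red ⟨flipRing E (y : E), M.mem_flip_S y.2⟩ ≠ 0 := by
      rw [M.flip_red]; exact hy
    have h := h3 _ hy' Q (by rw [map_zero, sub_zero]; exact hQ)
    rw [M.flip_red] at h
    exact h

/-- The reduction of the points over a finite `t`. -/
theorem Model.exists_chartRed_fin (M : Model A ι E Eb) {x : E} {xb : Eb}
    (hx : algebraMap (RatFunc L) E RatFunc.X = x)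
    (hxb : algebraMap (RatFunc (Kappa A)) Eb RatFunc.X = xb)
    (h0 : ∀ P : Place L E, 0 < P.ord x → P.ord x ∣ 3)
    (h1728 : ∀ P : Place L E, 0 < P.ord (x - algebraMap L E 1728) →
      P.ord (x - algebraMap L E 1728) ∣ 2)
    (hgen : ∀ a : L, a ≠ 0 → a ≠ 1728 → ∀ P : Place L E, 0 < P.ord (x - algebraMap L E a) →
      P.ord (x - algebraMap L E a) ∣ 1) (t : Kappa A) :
    ∃ r : Place L E → Option (Place (Kappa A) Eb),
      (∀ P, (∃ c : A, residue A c = t ∧ x - algebraMap L E (c : L) ∈ ordGe P 1) →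
        ∃ Q, r P = some Q ∧ xb - algebraMap (Kappa A) Eb t ∈ ordGe Q 1) ∧
      (∀ P Q, r P = some Q → ∃ c : A, residue A c = t ∧ x - algebraMap L E (c : L) ∈ ordGe P 1) ∧
      ∀ (y : M.S), M.red y ≠ 0 → ∀ Q : Place (Kappa A) Eb,
        xb - algebraMap (Kappa A) Eb t ∈ ordGe Q 1 →
          Q.ord (M.red y) = ∑ P ∈ (suppFin (y : E)).filter (fun P : Place L E => r P = some Q),
            P.ord (y : E) := by
  obtain ⟨c, hc⟩ := exists_cover_finite (A := A) M.b hx h0 h1728 hgen
  exact M.exists_chartRed hx hxb (M.hasPowLift_of_cover c (hc {t}))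

end Fermat.Agent.EichlerShimura
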