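import Fermat.Agent.ModFun.AtkinLehner
import Fermat.Agent.FF.Along
import Fermat.Agent.EichlerShimura.SeriesFrob
import Mathlib.RingTheory.Norm.Transitivity
import Mathlib.FieldTheory.PrimitiveElement

/-!
# The norm of the Hecke correspondence on functions

`N(f)(q) = f(q^ℓ) · ∏ᵢ f(ζⁱ q^(1/ℓ))`, hence its reduction in characteristic `ℓ` is
`Φ f̄ · (Φ⁻¹ f̄)^ℓ`.
-/

set_option autoImplicit false

noncomputable section

open scoped IntermediateField
open AlgebraicCurve ModularCurve

namespace Fermat.Agent.EichlerShimura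

local notation "Qb" => AlgebraicClosure ℚ

variable (N l : ℕ) [NeZero N] [NeZero l]

/-- The degree of the degeneracy map. -/
theorem finrankAlong_alpha (hl : l.Prime) (hN : ¬ l ∣ N) :
    finrankAlong Qb (heckeAlphaBar Qb N l) = l + 1 := by
  let := algebraAlong (heckeAlphaBar Qb N l)
  have := isScalarTower_along (heckeAlphaBar Qb N l)
  have : Module.Finite (modularFunctionFieldBar N) (modularFunctionFieldBar (N * l)) :=
    FF.finiteAlong (heckeAlphaBar Qb N l)
  have h := (FF.finite_and_finrank_adjoin_algebraMap (F' := modularFunctionFieldBar (N * l))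
    (ModFun.transcendental_jBase N Qb)).2
  have hj : algebraMap (modularFunctionFieldBar N) (modularFunctionFieldBar (N * l))
      (ModFun.jBase N Qb) = ModFun.jBase (N * l) Qb :=
    Subtype.ext (by
      show (heckeAlphaBar Qb N l (ModFun.jBase N Qb) : LaurentSeries Qb) = _
      rw [coe_heckeAlphaBar, ModFun.coe_jBase, ModFun.coe_jBase])
  have hψ : dedekindPsi (N * l) = dedekindPsi N * (l + 1) := by
    rw [mul_comm N l, Gamma0.dedekindPsi_mul_of_not_dvd hl hN, mul_comm]
  rw [hj, (ModFun.finrank_baseChange (N * l) Qb).2, (ModFun.finrank_baseChange N Qb).2, hψ] at h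
  have hpos : 0 < dedekindPsi N := by
    rw [← ModFun.natCard_coset N]; exact Nat.card_pos
  exact (mul_left_cancel₀ hpos.ne' h).symm

theorem twist_qExpand {K : Type*} [Field K] (u : Kˣ) (hu : u ^ l = 1) (f : LaurentSeries K) :
    ModFun.twist u (qExpand K l f) = qExpand K l f := by
  ext k
  rw [ModFun.coeff_twist]
  by_cases hk : (l : ℤ) ∣ k
  · obtain ⟨m, rfl⟩ := hk
    rw [zpow_mul, zpow_natCast, hu, one_zpow, Units.val_one, one_mul]
  · rw [qExpand_coeff_of_not_dvd l _ hk, mul_zero]

variable {N l}

theorem norm_series (hl : l.Prime) (hN : ¬ l ∣ N) {ζ : Qbˣ} (hζ : IsPrimitiveRoot ζ l)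
    (f : modularFunctionFieldBar N) :
    letI := algebraAlong (heckeAlphaBar Qb N l)
    qExpand Qb l ((Algebra.norm (modularFunctionFieldBar N) (heckeBetaBar Qb N l f) :
        modularFunctionFieldBar N) : LaurentSeries Qb) =
      qExpand Qb l (qExpand Qb l (f : LaurentSeries Qb)) *
        ∏ i : Fin l, ModFun.twist (ζ ^ (i : ℕ)) (f : LaurentSeries Qb) := by
  classical
  let := algebraAlong (heckeAlphaBar Qb N l)
  have := isScalarTower_along (heckeAlphaBar Qb N l)
  have : Module.Finite (modularFunctionFieldBar N) (modularFunctionFieldBar (N * l)) :=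
    FF.finiteAlong (heckeAlphaBar Qb N l)
  obtain ⟨w, hwa, hwb, -⟩ := ModFun.exists_alEquiv N l hl hN
  let ι : LaurentSeries Qb →+* AlgebraicClosure (LaurentSeries Qb) := algebraMap _ _
  let e : modularFunctionFieldBar N →+* LaurentSeries Qb :=
    (qExpand Qb l).comp (modularFunctionFieldBar N).subtype
  let : Algebra (modularFunctionFieldBar N) (AlgebraicClosure (LaurentSeries Qb)) :=
    (ι.comp e).toAlgebra
  have : CharZero (modularFunctionFieldBar N) :=
    charZero_of_injective_algebraMap (algebraMap Qb (modularFunctionFieldBar N)).injective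
  let base : Option (Fin l) → (modularFunctionFieldBar (N * l) →+* LaurentSeries Qb) := fun o =>
    match o with
    | none => (qExpand Qb l).comp (modularFunctionFieldBar (N * l)).subtype
    | some i => ((ModFun.twist (ζ ^ (i : ℕ))).comp
        (modularFunctionFieldBar (N * l)).subtype).comp w.toAlgHom.toRingHom
  have hroot : ∀ i : ℕ, (ζ ^ i) ^ l = 1 := fun i => by
    rw [← pow_mul, mul_comm, pow_mul, hζ.pow_eq_one, one_pow]
  have hbase : ∀ o x, base o (heckeAlphaBar Qb N l x) = e x := by
    rintro (_ | i) x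
    · show qExpand Qb l (heckeAlphaBar Qb N l x : LaurentSeries Qb) = _
      rw [coe_heckeAlphaBar]
      rfl
    · show ModFun.twist _ ((w (heckeAlphaBar Qb N l x) :
        modularFunctionFieldBar (N * l)) : LaurentSeries Qb) = _
      rw [hwa, coe_heckeBetaBar, twist_qExpand l _ (hroot i)]
      rfl
  let σ : Option (Fin l) → (modularFunctionFieldBar (N * l) →ₐ[modularFunctionFieldBar N]
      AlgebraicClosure (LaurentSeries Qb)) := fun o =>
    { ι.comp (base o) with commutes' := fun x => congrArg ι (hbase o x) }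
  have hval : ∀ o x, σ o x = ι (base o x) := fun o x => rfl
  have hbeta : ∀ o (g : modularFunctionFieldBar N), base o (heckeBetaBar Qb N l g) =
      o.elim (qExpand Qb l (qExpand Qb l (g : LaurentSeries Qb)))
        (fun i => ModFun.twist (ζ ^ (i : ℕ)) (g : LaurentSeries Qb)) := by
    rintro (_ | i) g
    · rfl
    · show ModFun.twist _ ((w (heckeBetaBar Qb N l g) :
        modularFunctionFieldBar (N * l)) : LaurentSeries Qb) = _
      rw [hwb, coe_heckeAlphaBar]
      rfl
  -- the embeddings are distinguished by the leading coefficient of `j`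
  set D : Option (Fin l) → Qb := fun o =>
    (base o (heckeBetaBar Qb N l (ModFun.jBase N Qb))).coeff (-1) with hD
  have hDn : D none = 0 := by
    simp only [hD, hbeta, Option.elim, ModFun.coe_jBase]
    refine qExpand_coeff_of_not_dvd l _ fun h => ?_
    have := Int.eq_one_of_dvd_one (Int.natCast_nonneg l) (by simpa using h)
    exact hl.ne_one (by exact_mod_cast this)
  have hDs : ∀ i : Fin l, D (some i) = ((((ζ ^ (i : ℕ)) ^ (-1 : ℤ) : Qbˣ)) : Qb) := fun i => by
    simp only [hD, hbeta, Option.elim, ModFun.coe_jBase, ModFun.coeff_twist, coeff_jqModC_neg_one,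
      mul_one]
  have hDinj : Function.Injective D := by
    rintro (_ | i) (_ | j) h
    · rfl
    · rw [hDn, hDs] at h; exact absurd h.symm (Units.ne_zero _)
    · rw [hDn, hDs] at h; exact absurd h (Units.ne_zero _)
    · rw [hDs, hDs, Units.val_inj, zpow_neg_one, zpow_neg_one, inv_inj] at h
      rw [Fin.ext (hζ.pow_inj i.2 j.2 h)]
  have hσinj : Function.Injective σ := fun o o' h => hDinj (by
    have h1 := DFunLike.congr_fun h (heckeBetaBar Qb N l (ModFun.jBase N Qb))
    rw [hval, hval] at h1
    simp only [hD, ι.injective h1])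
  have hcard : Fintype.card (modularFunctionFieldBar (N * l) →ₐ[modularFunctionFieldBar N]
      AlgebraicClosure (LaurentSeries Qb)) = Fintype.card (Option (Fin l)) := by
    rw [AlgHom.card, Fintype.card_option, Fintype.card_fin]
    exact finrankAlong_alpha N l hl hN
  have hσbij : Function.Bijective σ :=
    (Fintype.bijective_iff_injective_and_card σ).mpr ⟨hσinj, hcard.symm⟩
  apply ι.injective
  have hn := Algebra.norm_eq_prod_embeddings (modularFunctionFieldBar N)
    (AlgebraicClosure (LaurentSeries Qb)) (heckeBetaBar Qb N l f)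
  refine Eq.trans hn ?_
  rw [← Equiv.prod_comp (Equiv.ofBijective σ hσbij), map_mul, map_prod, Fintype.prod_option]
  simp only [Equiv.ofBijective_apply, hval, hbeta, Option.elim]

/-- Twisting by a root of unity congruent to one does not change the reduction. -/
theorem exists_twist_lift {A : ValuationSubring Qb} {k : Type*} [Field k] (π : A →+* k)
    [CharP k l] (hl : l.Prime) (u : Qbˣ) (hu : u ^ l = 1) (y : LaurentSeries A) :
    ∃ z : LaurentSeries A, coeffMap A.subtype z = ModFun.twist u (coeffMap A.subtype y) ∧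
      coeffMap π z = coeffMap π y := by
  have := Fact.mk hl
  have hmem : ∀ k : ℤ, ((u ^ k : Qbˣ) : Qb) ∈ A := fun k => by
    have h : (((u ^ k : Qbˣ) : Qb)) ^ l = 1 := by
      rw [← Units.val_pow_eq_pow_val, ← zpow_natCast, ← zpow_mul, mul_comm, zpow_mul, zpow_natCast,
        hu, one_zpow, Units.val_one]
    rw [← A.valuation_le_one_iff]
    refine (pow_le_one_iff (n := l) (NeZero.ne l)).mp ?_
    rw [← map_pow, h, map_one]
  have hone : ∀ k : ℤ, π ⟨_, hmem k⟩ = 1 := fun k => by
    have h : (⟨_, hmem k⟩ : A) ^ l = 1 := Subtype.ext (by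
      show (((u ^ k : Qbˣ) : Qb)) ^ l = 1
      rw [← Units.val_pow_eq_pow_val, ← zpow_natCast, ← zpow_mul, mul_comm, zpow_mul, zpow_natCast,
        hu, one_zpow, Units.val_one])
    have h2 : (π ⟨_, hmem k⟩ - 1) ^ l = 0 := by
      rw [sub_pow_char, one_pow, ← map_pow, h, map_one, sub_self]
    exact sub_eq_zero.mp ((pow_eq_zero_iff (NeZero.ne l)).mp h2)
  refine ⟨⟨fun k => ⟨_, hmem k⟩ * y.coeff k, y.isPWO_support.mono fun k hk => ?_⟩, ?_, ?_⟩
  · simp only [Function.mem_support, HahnSeries.mem_support, ne_eq] at hk ⊢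
    exact fun h => hk (by rw [h, mul_zero])
  · ext k
    rw [coeffMap_coeff, ModFun.coeff_twist, coeffMap_coeff]
    rfl
  · ext k
    rw [coeffMap_coeff, coeffMap_coeff, map_mul, hone, one_mul]

/-- The reduction of the norm: `Φ f̄ · f̄(q^ℓ)`. -/
theorem norm_series_red {A : ValuationSubring Qb} {k : Type*} [Field k] (π : A →+* k)
    [CharP k l] [Fact l.Prime] (hl : l.Prime) (hN : ¬ l ∣ N) (f : modularFunctionFieldBar N)
    (y : LaurentSeries A) (hy : coeffMap A.subtype y = (f : LaurentSeries Qb)) :
    letI := algebraAlong (heckeAlphaBar Qb N l)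
    ∃ Y : LaurentSeries A,
      coeffMap A.subtype Y = ((Algebra.norm (modularFunctionFieldBar N) (heckeBetaBar Qb N l f) :
          modularFunctionFieldBar N) : LaurentSeries Qb) ∧
        coeffMap π Y = qExpand k l (coeffMap π y) * coeffMap (frobenius k l) (coeffMap π y) := by
  let := algebraAlong (heckeAlphaBar Qb N l)
  obtain ⟨ζ₀, hζ₀⟩ := HasEnoughRootsOfUnity.exists_primitiveRoot Qb l
  set ζ : Qbˣ := (hζ₀.isUnit (NeZero.ne l)).unit with hζdef
  have hζ : IsPrimitiveRoot ζ l := IsPrimitiveRoot.coe_units_iff.mp (by simpa [hζdef] using hζ₀)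
  have hroot : ∀ i : ℕ, (ζ ^ i) ^ l = 1 := fun i => by
    rw [← pow_mul, mul_comm, pow_mul, hζ.pow_eq_one, one_pow]
  choose z hz hzπ using fun i : Fin l => exists_twist_lift π hl (ζ ^ (i : ℕ)) (hroot i) y
  set P : LaurentSeries A := qExpand A l (qExpand A l y) * ∏ i : Fin l, z i with hP
  have hPL : coeffMap A.subtype P = qExpand Qb l ((Algebra.norm (modularFunctionFieldBar N)
      (heckeBetaBar Qb N l f) : modularFunctionFieldBar N) : LaurentSeries Qb) := by
    rw [norm_series hl hN hζ f, hP, map_mul, map_prod, coeffMap_qExpand, coeffMap_qExpand, hy]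
    congr 1
    exact Finset.prod_congr rfl fun i _ => by rw [hz, hy]
  set Nf : LaurentSeries Qb := ((Algebra.norm (modularFunctionFieldBar N)
    (heckeBetaBar Qb N l f) : modularFunctionFieldBar N) : LaurentSeries Qb) with hNf
  have hmem : ∀ n, Nf.coeff n ∈ A := fun n => by
    rw [← qExpand_coeff_mul l Nf n, ← hPL, coeffMap_coeff]
    exact (P.coeff _).2
  let Y : LaurentSeries A := ⟨fun n => ⟨_, hmem n⟩, Nf.isPWO_support.mono fun n hn => by
    simp only [Function.mem_support, HahnSeries.mem_support, ne_eq] at hn ⊢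
    exact fun h => hn (Subtype.ext h)⟩
  have hY : coeffMap A.subtype Y = Nf := by ext n; rfl
  refine ⟨Y, hY, qExpand_injective l ?_⟩
  have hPY : qExpand A l Y = P := by
    refine HahnSeries.ext (funext fun n => Subtype.ext ?_)
    have h1 := congrArg (fun s : LaurentSeries Qb => s.coeff n)
      ((coeffMap_qExpand A.subtype l Y).trans ((congrArg _ hY).trans hPL.symm))
    simpa using h1
  rw [← coeffMap_qExpand, hPY, hP, map_mul, map_prod, coeffMap_qExpand, coeffMap_qExpand,
    Finset.prod_congr rfl fun i _ => hzπ i, Finset.prod_const, Finset.card_univ, Fintype.card_fin,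
    map_mul, pow_eq_qExpand_frobenius]

end Fermat.Agent.EichlerShimura
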