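import Fermat.Agent.EichlerShimura.Subst
import Mathlib.RingTheory.Norm.Basic
import Mathlib.RingTheory.Discriminant

/-!
# Base change of an algebra over `K₀(x)` along `x = num t / den t`
-/

set_option autoImplicit false

noncomputable section

open Polynomial

namespace Fermat.Agent.EichlerShimura

section Generic

variable {R S : Type*} [CommRing R] [CommRing S]

/-- Norms commute with a change of base ring. -/
theorem norm_mk_map [Nontrivial S] (σ : R →+* S) {f : R[X]} (hf : f.Monic) (w : R[X]) :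
    Algebra.norm S (AdjoinRoot.mk (f.map σ) (w.map σ)) =
      σ (Algebra.norm R (AdjoinRoot.mk f w)) := by
  let b := (AdjoinRoot.powerBasis' hf).basis
  let b' := (AdjoinRoot.powerBasis' (hf.map σ)).basis.reindex (finCongr (hf.natDegree_map σ))
  rw [Algebra.norm_eq_matrix_det b, Algebra.norm_eq_matrix_det b', RingHom.map_det]
  congr 1
  ext i j
  rw [RingHom.mapMatrix_apply, Matrix.map_apply, Algebra.leftMulMatrix_eq_repr_mul,
    Algebra.leftMulMatrix_eq_repr_mul]
  have hb : ∀ j, b j = AdjoinRoot.mk f (X ^ (j : ℕ)) := fun j => by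
    simp only [b, PowerBasis.coe_basis, AdjoinRoot.powerBasis'_gen, map_pow, AdjoinRoot.mk_X]
  have hb' : ∀ j, b' j = AdjoinRoot.mk (f.map σ) ((X ^ (j : ℕ)).map σ) := fun j => by
    simp only [b', Module.Basis.reindex_apply, PowerBasis.coe_basis, AdjoinRoot.powerBasis'_gen,
      Polynomial.map_pow, map_X, map_pow, AdjoinRoot.mk_X]
    rfl
  rw [hb, hb', ← map_mul, ← map_mul, ← Polynomial.map_mul]
  simp only [b, b', Module.Basis.repr_reindex, Finsupp.mapDomain_equiv_apply]
  simp only [AdjoinRoot.powerBasis']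
  erw [AdjoinRoot.powerBasisAux'_repr_apply_to_fun, AdjoinRoot.powerBasisAux'_repr_apply_to_fun,
    AdjoinRoot.modByMonicHom_mk, AdjoinRoot.modByMonicHom_mk]
  rw [← map_modByMonic σ hf, coeff_map]
  rfl

end Generic

namespace RatCover

variable {K₀ : Type*} [Field K₀] (C₀ : RatCover K₀) (E : Type*) [CommRing E]
  [Algebra (RatFunc K₀) E]

/-- The equation over `E`. -/
def eqnIn : E[X] := C₀.eqn.map (algebraMap (RatFunc K₀) E)

theorem eqnIn_monic : (C₀.eqnIn E).Monic := C₀.eqn_monic.map _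

theorem natDegree_eqnIn [Nontrivial E] : (C₀.eqnIn E).natDegree = C₀.m := by
  rw [eqnIn, C₀.eqn_monic.natDegree_map, C₀.natDegree_eqn]

/-- The base change. -/
def BC : Type _ := AdjoinRoot (C₀.eqnIn E)

instance : CommRing (BC C₀ E) := inferInstanceAs (CommRing (AdjoinRoot (C₀.eqnIn E)))

instance : Algebra E (BC C₀ E) := inferInstanceAs (Algebra E (AdjoinRoot (C₀.eqnIn E)))

/-- The class of a polynomial. -/
def bcMk : E[X] →+* BC C₀ E := AdjoinRoot.mk _

/-- `K₀(t)` maps to the base change. -/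
def toBC : RatFunc K₀ →+* BC C₀ E :=
  (AdjoinRoot.map (algebraMap (RatFunc K₀) E) C₀.eqn (C₀.eqnIn E) (dvd_refl _)).comp C₀.toRoot

instance : Algebra (RatFunc K₀) (BC C₀ E) := (C₀.toBC E).toAlgebra

theorem algebraMap_BC (e : E) : algebraMap E (BC C₀ E) e = C₀.bcMk E (C e) := rfl

theorem toBC_hom (f : RatFunc K₀) :
    C₀.toBC E (C₀.hom f) = C₀.bcMk E (C (algebraMap (RatFunc K₀) E f)) := by
  unfold toBC
  erw [RingHom.comp_apply, C₀.toRoot_hom, AdjoinRoot.map_of]
  rfl

theorem toBC_X : C₀.toBC E RatFunc.X = C₀.bcMk E X := by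
  unfold toBC
  erw [RingHom.comp_apply, C₀.toRoot_X, AdjoinRoot.map_root]
  rfl

theorem bcMk_surjective : Function.Surjective (C₀.bcMk E) := AdjoinRoot.mk_surjective

theorem bcMk_eqnIn : C₀.bcMk E (C₀.eqnIn E) = 0 := AdjoinRoot.mk_self

/-- Evaluation of a polynomial at `t`. -/
theorem toBC_eval₂ (p : (RatFunc K₀)[X]) :
    C₀.toBC E (p.eval₂ C₀.hom RatFunc.X) =
      C₀.bcMk E (p.map (algebraMap (RatFunc K₀) E)) := by
  induction p using Polynomial.induction_on' with
  | add p q hp hq => rw [eval₂_add, map_add, hp, hq, Polynomial.map_add, map_add]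
  | monomial n a =>
    rw [eval₂_monomial, map_mul, map_pow, C₀.toBC_hom, C₀.toBC_X, ← map_pow, ← map_mul,
      Polynomial.map_monomial, C_mul_X_pow_eq_monomial]

variable {ι : Type*} [Fintype ι]

theorem bc_linearIndependent (b : Module.Basis ι (RatFunc K₀) E) :
    LinearIndependent (RatFunc K₀) fun l => algebraMap E (BC C₀ E) (b l) := by
  rcases subsingleton_or_nontrivial E with hE | hE
  · have : IsEmpty ι := ⟨fun l => b.ne_zero l (Subsingleton.elim _ _)⟩
    exact linearIndependent_empty_type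
  rw [Fintype.linearIndependent_iff]
  intro f hf l
  choose c hc using fun l => C₀.exists_coords (f l)
  set P : E[X] := ∑ i : Fin C₀.m, monomial (i : ℕ) (∑ l, c l i • b l) with hP
  have h0 : C₀.bcMk E P = 0 := by
    rw [← hf, hP]
    simp only [map_sum, hc]
    rw [Finset.sum_comm]
    refine Finset.sum_congr rfl fun l _ => ?_
    rw [Finset.sum_smul]
    refine Finset.sum_congr rfl fun i _ => ?_
    rw [← C_mul_X_pow_eq_monomial, Algebra.smul_def, Algebra.smul_def]
    show _ = C₀.toBC E _ * _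
    simp only [map_mul, map_pow, C₀.toBC_hom, C₀.toBC_X, C₀.algebraMap_BC]
    ring
  have hdeg : P.degree < (C₀.eqnIn E).degree := by
    rw [degree_eq_natDegree (C₀.eqnIn_monic E).ne_zero, C₀.natDegree_eqnIn E]
    refine lt_of_le_of_lt (degree_sum_le _ _) ((Finset.sup_lt_iff (WithBot.bot_lt_coe _)).mpr
      fun i _ => lt_of_le_of_lt (degree_monomial_le _ _) ?_)
    exact WithBot.coe_lt_coe.mpr i.2
  have hP0 : P = 0 := by
    have h1 : C₀.eqnIn E ∣ P := AdjoinRoot.mk_eq_zero.mp h0
    rw [← modByMonic_eq_zero_iff_dvd (C₀.eqnIn_monic E),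
      (modByMonic_eq_self_iff (C₀.eqnIn_monic E)).mpr hdeg] at h1
    exact h1
  have hcz : ∀ i, c l i = 0 := fun i => by
    have := congrArg (fun q => b.repr (q.coeff (i : ℕ)) l) hP0
    simp only [hP, finsetSum_coeff, coeff_monomial, Fin.val_inj, Finset.sum_ite_eq', Finset.mem_univ,
      if_true, b.repr_sum_self, coeff_zero, map_zero, Finsupp.zero_apply] at this
    exact this
  rw [hc l]
  simp [hcz]

theorem bc_span (b : Module.Basis ι (RatFunc K₀) E) :
    ⊤ ≤ Submodule.span (RatFunc K₀) (Set.range fun l => algebraMap E (BC C₀ E) (b l)) := by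
  rintro y -
  obtain ⟨p, rfl⟩ := C₀.bcMk_surjective E y
  induction p using Polynomial.induction_on' with
  | add p q hp hq => rw [map_add]; exact add_mem hp hq
  | monomial n a =>
    rw [← b.sum_repr a, map_sum, map_sum]
    refine Submodule.sum_mem _ fun l _ => ?_
    rw [show C₀.bcMk E (monomial n (b.repr a l • b l)) =
      (C₀.hom (b.repr a l) * RatFunc.X ^ n) • algebraMap E (BC C₀ E) (b l) from ?_]
    · exact Submodule.smul_mem _ _ (Submodule.subset_span ⟨l, rfl⟩)
    rw [← C_mul_X_pow_eq_monomial, Algebra.smul_def, Algebra.smul_def]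
    show _ = C₀.toBC E _ * _
    simp only [map_mul, map_pow, C₀.toBC_hom, C₀.toBC_X, C₀.algebraMap_BC]
    ring

/-- The basis of the base change. -/
def bcBasis (b : Module.Basis ι (RatFunc K₀) E) : Module.Basis ι (RatFunc K₀) (BC C₀ E) :=
  Module.Basis.mk (C₀.bc_linearIndependent E b) (C₀.bc_span E b)

theorem bcBasis_apply (b : Module.Basis ι (RatFunc K₀) E) (l : ι) :
    C₀.bcBasis E b l = algebraMap E (BC C₀ E) (b l) := by
  rw [bcBasis, Module.Basis.coe_mk]

theorem algebraMap_eq_sum (b : Module.Basis ι (RatFunc K₀) E) (e : E) :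
    algebraMap E (BC C₀ E) e = ∑ l, C₀.hom (b.repr e l) • C₀.bcBasis E b l := by
  conv_lhs => rw [← b.sum_repr e, map_sum]
  refine Finset.sum_congr rfl fun l _ => ?_
  rw [C₀.bcBasis_apply, Algebra.smul_def, Algebra.smul_def, map_mul]
  show _ = C₀.toBC E _ * _
  rw [C₀.toBC_hom, C₀.algebraMap_BC, C₀.algebraMap_BC]

theorem bcBasis_repr (b : Module.Basis ι (RatFunc K₀) E) (e : E) (l : ι) :
    (C₀.bcBasis E b).repr (algebraMap E (BC C₀ E) e) l = C₀.hom (b.repr e l) := by
  rw [C₀.algebraMap_eq_sum E b, Module.Basis.repr_sum_self]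

theorem bcBasis_repr_mul (b : Module.Basis ι (RatFunc K₀) E) (i j l : ι) :
    (C₀.bcBasis E b).repr (C₀.bcBasis E b i * C₀.bcBasis E b j) l =
      C₀.hom (b.repr (b i * b j) l) := by
  rw [C₀.bcBasis_apply, C₀.bcBasis_apply, ← map_mul, C₀.bcBasis_repr]

theorem bcBasis_repr_one (b : Module.Basis ι (RatFunc K₀) E) (l : ι) :
    (C₀.bcBasis E b).repr 1 l = C₀.hom (b.repr 1 l) := by
  rw [← map_one (algebraMap E (BC C₀ E)), C₀.bcBasis_repr]

variable [DecidableEq ι]

theorem trace_algebraMap_BC (b : Module.Basis ι (RatFunc K₀) E) (e : E) :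
    Algebra.trace (RatFunc K₀) (BC C₀ E) (algebraMap E (BC C₀ E) e) =
      C₀.hom (Algebra.trace (RatFunc K₀) E e) := by
  rw [Algebra.trace_eq_matrix_trace (C₀.bcBasis E b), Algebra.trace_eq_matrix_trace b,
    Matrix.trace, Matrix.trace, map_sum]
  refine Finset.sum_congr rfl fun i _ => ?_
  rw [Matrix.diag_apply, Matrix.diag_apply, Algebra.leftMulMatrix_eq_repr_mul,
    Algebra.leftMulMatrix_eq_repr_mul, C₀.bcBasis_apply, ← map_mul, C₀.bcBasis_repr]

theorem discr_bcBasis (b : Module.Basis ι (RatFunc K₀) E) :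
    Algebra.discr (RatFunc K₀) (C₀.bcBasis E b) = C₀.hom (Algebra.discr (RatFunc K₀) b) := by
  rw [Algebra.discr_def, Algebra.discr_def, RingHom.map_det]
  congr 1
  ext i j
  rw [RingHom.mapMatrix_apply, Matrix.map_apply, Algebra.traceMatrix_apply,
    Algebra.traceMatrix_apply, Algebra.traceForm_apply, Algebra.traceForm_apply,
    C₀.bcBasis_apply, C₀.bcBasis_apply, ← map_mul, C₀.trace_algebraMap_BC E b]

theorem norm_algebraMap_BC [Nontrivial E] (e : E) :
    Algebra.norm E (algebraMap E (BC C₀ E) e) = e ^ C₀.m := by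
  show Algebra.norm E (algebraMap E (AdjoinRoot (C₀.eqnIn E)) e) = _
  rw [Algebra.norm_algebraMap_of_basis (AdjoinRoot.powerBasis' (C₀.eqnIn_monic E)).basis,
    Fintype.card_fin]
  exact congrArg (e ^ ·) (C₀.natDegree_eqnIn E)

end RatCover

end Fermat.Agent.EichlerShimura
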