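import Fermat.Agent.EichlerShimura.Equivariance
import Fermat.Agent.EichlerShimura.HeckeNorm
import Fermat.Agent.FF.HeckeInputs
import Fermat.Prelude.Def_ModularCurve_HeckeModule

/-!
# The Eichler–Shimura congruence

On `J₀(N)` reduced at `ℓ ∤ N`, the Hecke operator `T_ℓ` is `Φ + ℓ Φ⁻¹`.
-/

set_option autoImplicit false

noncomputable section

open IsLocalRing AlgebraicCurve ModularCurve

namespace Fermat.Agent.EichlerShimura

open Fermat.Agent.FF

local notation "Qb" => AlgebraicClosure ℚ

-- The algebra structures of the function fields are found much faster this way.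
attribute [local instance 2000] SubalgebraClass.toAlgebra
attribute [-instance] IsLocalRing.ResidueField.algebraOfIsIntegral

variable {N ℓ : ℕ} [NeZero N] [NeZero ℓ]

/-- The Hecke correspondence on a principal divisor is the divisor of a norm. -/
theorem heckeDivBar_div [FF.IsFunctionField Qb (modularFunctionFieldBar N)]
    [FF.IsFunctionField Qb (modularFunctionFieldBar (N * ℓ))]
    (f : modularFunctionFieldBar N) (hf : f ≠ 0) :
    letI := algebraAlong (heckeAlphaBar Qb N ℓ)
    Divisor.correspondence (heckeBetaBar Qb N ℓ) (heckeAlphaBar Qb N ℓ)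
        (FF.isIntegralAlong _) (FF.isIntegralAlong _) (FF.div Qb f) =
      FF.div Qb (Algebra.norm (modularFunctionFieldBar N) (heckeBetaBar Qb N ℓ f) :
        modularFunctionFieldBar N) := by
  let _ := algebraAlong (heckeAlphaBar Qb N ℓ)
  rw [Divisor.correspondence_apply]
  refine Finsupp.ext fun v => ?_
  have h1 : Divisor.pullbackAlong (heckeBetaBar Qb N ℓ) (FF.isIntegralAlong _) (FF.div Qb f) =
      FF.div Qb (heckeBetaBar Qb N ℓ f) := by
    ext w
    rw [Divisor.pullbackAlong_apply, FF.div_apply, FF.div_apply, Place.ord_restrictAlong]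
  rw [h1, FF.div_apply]
  exact normFormulaAlong (heckeAlphaBar Qb N ℓ) (FF.finiteAlong _) _
    ((_root_.map_ne_zero _).mpr hf) _ (fun w => rfl) v

variable {A : ValuationSubring (AlgebraicClosure ℚ)}

/-- `T_ℓ = Φ + ℓ Φ⁻¹` after reduction. -/
theorem reductionModL_hecke [Fact ℓ.Prime] [CharP (Kappa A) ℓ] [IsAlgClosed (Kappa A)]
    (hNA : (N : Kappa A) ≠ 0) (hℓN : ¬ ℓ ∣ N) (x : JZero N) :
    reductionModL A N (heckeOperatorBar N ⟨ℓ, Fact.out⟩ x) =
      coeffAut N (frobRing A ℓ) • reductionModL A N x +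
        ℓ • ((coeffAut N (frobRing A ℓ))⁻¹ • reductionModL A N x) := by
  have hℓ : ℓ.Prime := Fact.out
  have : NeZero (N * ℓ) := ⟨mul_ne_zero (NeZero.ne N) (NeZero.ne ℓ)⟩
  have h := reductionInputsModL (A := A) hNA
  have := isFunctionField_bar (N := N)
  have := isFunctionField_bar (N := N * ℓ)
  have := RedTorsion.isFunctionField_full (K := Kappa A) (N := N)
    (F := modularFunctionFieldFullC (Kappa A) N) rfl hNA
  set r := placeReductionModL h with hrdef
  have hr := isPlaceReductionModL_placeReductionModL h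
  set Φ := coeffAut N (frobRing A ℓ) with hΦ
  let T := Divisor.correspondence (heckeBetaBar Qb N ℓ) (heckeAlphaBar Qb N ℓ)
    (FF.isIntegralAlong _) (FF.isIntegralAlong _)
  let R : Divisor Qb (modularFunctionFieldBar N) →+
      Divisor (Kappa A) (modularFunctionFieldFullC (Kappa A) N) :=
    Finsupp.mapDomain.addMonoidHom r
  let δ := R.comp T - ((DistribSMul.toAddMonoidHom _ Φ).comp R +
    ℓ • (DistribSMul.toAddMonoidHom _ Φ⁻¹).comp R)
  have hδ : ∀ D ∈ integralPrincipalDivisors A (residue A) N, δ D = 0 := by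
    intro D hD
    obtain ⟨y, hy, hyk, hne, rfl⟩ := exists_eq_div hD
    set f : modularFunctionFieldBar N := ⟨coeffMap A.subtype y, hy⟩ with hfdef
    set g : modularFunctionFieldFullC (Kappa A) N := ⟨coeffMap (residue A) y, hyk⟩ with hgdef
    have hg0 : g ≠ 0 := fun h => hne (congrArg Subtype.val h)
    have hf0 : f ≠ 0 := fun h => by
      have hy0 : y = 0 := by
        ext n
        have h' : coeffMap A.subtype y = 0 := congrArg Subtype.val h
        simpa using congrArg (fun s => HahnSeries.coeff s n) h'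
      exact hne (by rw [hy0, map_zero])
    have h1 := (smul_ne_zero_iff_ne Φ).mpr hg0
    have h2 := pow_ne_zero ℓ ((smul_ne_zero_iff_ne Φ⁻¹).mpr hg0)
    have e := mapDomain_div hr y f g rfl rfl hg0
    refine sub_eq_zero.mpr ((congrArg (Finsupp.mapDomain r) (heckeDivBar_div f hf0)).trans
      (Eq.trans ?_ ((congrArg₂ (fun a b => a + ℓ • b) ((congrArg (Φ • ·) e).trans (smul_div Φ g))
        ((congrArg (Φ⁻¹ • ·) e).trans (smul_div Φ⁻¹ g))).trans
          ((congrArg (_ + ·) (div_pow _ ℓ).symm).trans (FF.div_mul h1 h2).symm)).symm))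
    obtain ⟨Y, hY, hY'⟩ := norm_series_red (residue A) hℓ hℓN f y rfl
    refine mapDomain_div hr Y _ _ hY ?_ (mul_ne_zero h1 h2)
    rw [hY', mul_comm (qExpand (Kappa A) ℓ _), MulMemClass.coe_mul, SubmonoidClass.coe_pow]
    refine congrArg₂ (· * ·) rfl ?_
    rw [pow_eq_qExpand_frobenius]
    refine congrArg _ ?_
    have := congrArg (fun z : modularFunctionFieldFullC (Kappa A) N =>
      (z : LaurentSeries (Kappa A))) (smul_inv_smul Φ g)
    simp only [hΦ, coe_coeffAut_smul] at this
    exact this.symm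
  obtain ⟨D, rfl⟩ := Pic0.mk_surjective x
  have hop : heckeOperatorBar N ⟨ℓ, Fact.out⟩ (Pic0.mk D) = Pic0.mk (Pic0.degZeroCorrespondence
      (heckeBetaBar Qb N ℓ) (heckeAlphaBar Qb N ℓ) (FF.isIntegralAlong _) (FF.isIntegralAlong _)
      (FF.fundamentalIdentityAlong _ _) D) := by
    rw [heckeOperatorBar_apply]
    exact DFunLike.congr_fun (heckeOperatorAlong_eq (L := Qb) (N := N) (ℓ := ℓ) (FF.isIntegralAlong _)
      (FF.isIntegralAlong _) (FF.fundamentalIdentityAlong _ _) (FF.finiteAlong _)
      (normFormulaAlong _ _)) _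
  refine ((congrArg (reductionModL A N) hop).trans (reductionModL_mk h _)).trans ?_
  refine Eq.trans ?_ (congrArg (fun z => Φ • z + ℓ • (Φ⁻¹ • z)) (reductionModL_mk h D)).symm
  exact congrArg Pic0.mk (Subtype.ext (sub_eq_zero.mp (eq_zero_of_degree_zero hNA δ hδ D D.2)))

end Fermat.Agent.EichlerShimura
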