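import Fermat.Agent.EichlerShimura.Gauss
import Mathlib.FieldTheory.RatFunc.AsPolynomial
import Mathlib.RingTheory.Valuation.LocalSubring

/-!
# Residue discs of the affine line

Root lifting for polynomials with nonzero reduction, the local rings `Loc c`, and the description
of `Lam A T` as the elements of `Og A` regular at all points of the residue discs over `T`.
-/

set_option autoImplicit false

noncomputable section

open Polynomial IsLocalRing

namespace Fermat.Agent.EichlerShimura

variable {L : Type*} [Field L] {A : ValuationSubring L}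

theorem coe_eval (q : A[X]) (c : A) : ((q.eval c : A) : L) = (polyIncl A q).eval (c : L) := by
  rw [polyIncl, coe_mapRingHom, eval_map]
  exact (hom_eval₂ q (RingHom.id A) A.subtype c).trans (by simp)

theorem residue_eval (q : A[X]) (c : A) :
    residue A (q.eval c) = (polyBar A q).eval (residue A c) := by
  rw [polyBar, coe_mapRingHom, eval_map]
  exact (hom_eval₂ q (RingHom.id A) (residue A) c).trans (by simp)

open scoped Classical in
/-- The factorisation of the reduction of a primitive polynomial through its integral roots. -/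
theorem bar_eq_prod [IsAlgClosed L] (q : A[X]) (hq : polyBar A q ≠ 0) :
    ∃ a : A, polyBar A q = C (residue A a) *
      (((polyIncl A q).roots.filter fun r => r ∈ A).map fun r => X - C (res A r)).prod := by
  induction hn : (polyIncl A q).natDegree using Nat.strong_induction_on generalizing q with
  | _ n ih =>
  rcases Nat.eq_zero_or_pos n with rfl | hpos
  · have h : polyIncl A q = C ((polyIncl A q).coeff 0) := eq_C_of_natDegree_eq_zero hn
    refine ⟨q.coeff 0, ?_⟩
    rw [h, roots_C]
    have : q = C (q.coeff 0) := polyIncl_injective (by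
      rw [h, coeff_polyIncl]; simp [polyIncl])
    conv_lhs => rw [this]
    simp [polyBar]
  · have hne : polyIncl A q ≠ 0 := fun h => by simp [h] at hn; omega
    obtain ⟨r, hr⟩ := IsAlgClosed.exists_root (polyIncl A q) (by
      rw [degree_eq_natDegree hne, hn]; exact_mod_cast hpos.ne')
    by_cases hrA : r ∈ A
    · obtain ⟨q₁, rfl⟩ : X - C (⟨r, hrA⟩ : A) ∣ q := dvd_iff_isRoot.mpr <| by
        refine Subtype.ext ?_
        rw [coe_eval]; exact hr
      rw [map_mul (polyIncl A)] at hne hn ⊢
      rw [map_mul (polyBar A)] at hq ⊢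
      have h1 : polyIncl A (X - C (⟨r, hrA⟩ : A)) = X - C r := by simp [polyIncl]
      have h2 : polyBar A (X - C (⟨r, hrA⟩ : A)) = X - C (res A r) := by
        simp [polyBar, res_of_mem hrA]
      rw [h1] at hne hn ⊢
      rw [h2] at hq ⊢
      have hq₁ := right_ne_zero_of_mul hq
      have hi₁ := right_ne_zero_of_mul hne
      obtain ⟨a, ha⟩ := ih _ (by
        rw [← hn, natDegree_mul (X_sub_C_ne_zero r) hi₁, natDegree_X_sub_C]; omega) q₁ hq₁ rfl
      refine ⟨a, ?_⟩
      rw [roots_mul hne, roots_X_sub_C, Multiset.singleton_add, Multiset.filter_cons_of_pos _ hrA,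
        Multiset.map_cons, Multiset.prod_cons, ha]
      ring
    · have hr0 : r ≠ 0 := fun h => hrA (h ▸ A.zero_mem)
      have hri : r⁻¹ ∈ A := (A.mem_or_inv_mem r).resolve_left hrA
      have hres : residue A ⟨r⁻¹, hri⟩ = 0 :=
        (residue_eq_zero_iff_inv (inv_ne_zero hr0)).mpr (by simpa using hrA)
      obtain ⟨u, hu⟩ : X - C r ∣ polyIncl A q := dvd_iff_isRoot.mpr hr
      have hu0 : u ≠ 0 := fun h => hne (by rw [hu, h, mul_zero])
      obtain ⟨c, hc, q₁, hcq, hq₁⟩ := exists_scale (A := A) hu0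
      set l : A[X] := 1 - C (⟨r⁻¹, hri⟩ : A) * X with hl
      have h1 : polyIncl A l = C (-r⁻¹) * (X - C r) := by
        rw [hl, map_sub, map_one, map_mul, polyIncl, coe_mapRingHom, map_C, map_X, mul_sub,
          ← C_mul, neg_mul, inv_mul_cancel₀ hr0, map_neg, map_neg, C_1]
        show 1 - C (r⁻¹) * X = _
        ring
      have h2 : polyBar A l = 1 := by simp [hl, polyBar, hres]
      have hprod : polyIncl A q = C (-r * c) * polyIncl A (l * q₁) := by
        have e : (C (-r * c) * (C (-r⁻¹) * (X - C r) * polyIncl A q₁) : L[X]) =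
            C (-r * c * -r⁻¹) * ((X - C r) * polyIncl A q₁) := by simp only [C_mul]; ring
        rw [map_mul (polyIncl A) l q₁, h1, e, hu, hcq, show -r * c * -r⁻¹ = c by field_simp]
        ring
      have hlq : polyBar A (l * q₁) ≠ 0 := by rwa [map_mul, h2, one_mul]
      have hcA : -r * c ∈ A := scalar_mem_of_bar_ne_zero hprod hlq
      have hq' : q = C (⟨_, hcA⟩ : A) * (l * q₁) := polyIncl_injective (by
        rw [map_mul, hprod]; simp [polyIncl])
      have hbar : polyBar A q = C (residue A ⟨_, hcA⟩) * polyBar A q₁ := by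
        rw [hq', map_mul, map_mul, h2, one_mul]; simp [polyBar]
      obtain ⟨a, ha⟩ := ih _ (by
        have : u.natDegree = (polyIncl A q₁).natDegree := by rw [hcq, natDegree_C_mul hc]
        rw [← this, ← hn, hu, natDegree_mul (X_sub_C_ne_zero r) hu0, natDegree_X_sub_C]
        omega) q₁ hq₁ rfl
      refine ⟨⟨_, hcA⟩ * a, ?_⟩
      rw [hbar, ha, hu, roots_mul (mul_ne_zero (X_sub_C_ne_zero r) hu0), roots_X_sub_C,
        Multiset.singleton_add, Multiset.filter_cons_of_neg _ hrA, hcq, roots_C_mul _ hc,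
        map_mul, C_mul, mul_assoc]

open scoped Classical in
/-- The number of roots in a residue disc is the multiplicity of the reduced root. -/
theorem card_filter_roots_eq [IsAlgClosed L] [DecidableEq (Kappa A)] (q : A[X])
    (hq : polyBar A q ≠ 0) (t : Kappa A) :
    ((polyIncl A q).roots.filter fun r => r ∈ A ∧ res A r = t).card
      = (polyBar A q).rootMultiplicity t := by
  classical
  obtain ⟨a, ha⟩ := bar_eq_prod q hq
  have ha0 : residue A a ≠ 0 := fun h => hq (by rw [ha, h, C_0, zero_mul])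
  rw [← count_roots, ha, roots_C_mul _ ha0]
  have := (roots_multiset_prod_X_sub_C
    (((polyIncl A q).roots.filter fun r => r ∈ A).map (res A)))
  rw [Multiset.map_map] at this
  rw [show (fun r => X - C (res A r)) = (fun t => X - C t) ∘ res A from rfl, this,
    Multiset.count_map, Multiset.filter_filter]
  congr 1
  refine Multiset.filter_congr fun r _ => ?_
  exact ⟨fun h => ⟨h.2.symm, h.1⟩, fun h => ⟨h.2, h.1.symm⟩⟩

theorem exists_root_residue_eq [IsAlgClosed L] {q : A[X]} (hq : polyBar A q ≠ 0) {t : Kappa A}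
    (ht : (polyBar A q).eval t = 0) :
    ∃ c : A, residue A c = t ∧ (polyIncl A q).eval (c : L) = 0 := by
  classical
  obtain ⟨r, hr⟩ := Multiset.card_pos_iff_exists_mem.mp
    (by rw [card_filter_roots_eq q hq t]; exact (rootMultiplicity_pos hq).mpr ht)
  rw [Multiset.mem_filter, mem_roots'] at hr
  exact ⟨⟨r, hr.2.1⟩, by rw [← res_of_mem hr.2.1]; exact hr.2.2, hr.1.2⟩

/-- Roots of monic polynomials over `A` lie in `A`. -/
theorem mem_of_monic_root {p : A[X]} (hp : p.Monic) {r : L}
    (hr : (polyIncl A p).eval r = 0) : r ∈ A := by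
  obtain ⟨y, hy⟩ := IsIntegrallyClosed.isIntegral_iff.mp
    (⟨p, hp, by rwa [polyIncl, coe_mapRingHom, eval_map] at hr⟩ : IsIntegral A r)
  exact hy ▸ y.2

section Local

variable {K₀ : Type*} [Field K₀]

/-- Polynomials not vanishing at `c`. -/
def nonVanish (c : K₀) : Submonoid K₀[X] where
  carrier := {q | q.eval c ≠ 0}
  one_mem' := by simp
  mul_mem' {a b} ha hb := by
    simp only [Set.mem_ofPred_eq] at ha hb ⊢
    rw [eval_mul]; exact mul_ne_zero ha hb

/-- The local ring of the affine line at `c`. -/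
def Loc (c : K₀) : ValuationSubring (RatFunc K₀) :=
  { fracPart (algebraMap K₀[X] (RatFunc K₀)) (nonVanish c) with
    mem_or_inv_mem' := fun f => by
      have key : f * algebraMap K₀[X] (RatFunc K₀) f.denom = algebraMap K₀[X] (RatFunc K₀) f.num := by
        conv_lhs => arg 1; rw [← RatFunc.num_div_denom f]
        rw [div_mul_cancel₀ _
          ((map_ne_zero_iff _ (RatFunc.algebraMap_injective K₀)).mpr (RatFunc.denom_ne_zero f))]
      by_cases h : f.denom.eval c = 0
      · rcases eq_or_ne f 0 with rfl | hf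
        · exact Or.inl ⟨0, 1, (nonVanish c).one_mem, by simp⟩
        refine Or.inr ⟨f.denom, f.num, ?_, ?_⟩
        · intro hn
          have := (RatFunc.isCoprime_num_denom f).isUnit_of_dvd' (dvd_iff_isRoot.mpr hn)
            (dvd_iff_isRoot.mpr h)
          exact not_isUnit_X_sub_C c this
        · rw [← key, inv_mul_cancel_left₀ hf]
      · exact Or.inl ⟨_, _, h, key⟩ }

theorem mem_Loc {c : K₀} {f : RatFunc K₀} : f ∈ Loc c ↔
    ∃ p, ∃ q : K₀[X], q.eval c ≠ 0 ∧
      f * algebraMap K₀[X] (RatFunc K₀) q = algebraMap K₀[X] (RatFunc K₀) p := Iff.rfl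

theorem denom_eval_ne_zero {c : K₀} {f : RatFunc K₀} (hf : f ∈ Loc c) : f.denom.eval c ≠ 0 := by
  obtain ⟨p, q, hq, h⟩ := mem_Loc.mp hf
  have hq0 : q ≠ 0 := fun h0 => hq (by simp [h0])
  have hd : f.denom ∣ q := (RatFunc.denom_dvd hq0).mpr ⟨p, by
    rw [eq_div_iff ((map_ne_zero_iff _ (RatFunc.algebraMap_injective K₀)).mpr hq0)]; exact h⟩
  obtain ⟨u, rfl⟩ := hd
  rw [eval_mul] at hq
  exact left_ne_zero_of_mul hq

/-- Evaluation at `c`. -/
def evalLoc (c : K₀) : Loc c →+* K₀ :=
  fracLift (ι := algebraMap K₀[X] (RatFunc K₀)) (Q := nonVanish c) (RatFunc.algebraMap_injective K₀)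
    (evalRingHom c) (fun _ hq => hq)

theorem evalLoc_eq {c : K₀} (f : Loc c) {p q : K₀[X]} (hq : q.eval c ≠ 0)
    (h : (f : RatFunc K₀) * algebraMap K₀[X] (RatFunc K₀) q = algebraMap K₀[X] (RatFunc K₀) p) :
    evalLoc c f = p.eval c / q.eval c :=
  fracLift_eq (ι := algebraMap K₀[X] (RatFunc K₀)) (Q := nonVanish c)
    (RatFunc.algebraMap_injective K₀) (evalRingHom c) (fun _ hq => hq) f hq h

theorem algebraMap_mem_Loc (c : K₀) (p : K₀[X]) : algebraMap K₀[X] (RatFunc K₀) p ∈ Loc c :=
  apply_mem_fracPart p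

theorem C_mem_Loc (c a : K₀) : RatFunc.C a ∈ Loc c := by
  rw [← RatFunc.algebraMap_C]; exact algebraMap_mem_Loc c _

end Local

/-- Membership of `Lam A T` in a single disc point. -/
theorem Lam_le_Loc {T : Set (Kappa A)} {c : A} (hc : residue A c ∈ T) :
    Lam A T ≤ (Loc (c : L)).toSubring := by
  rintro f ⟨p, q, hq, h⟩
  refine ⟨polyIncl A p, polyIncl A q, ?_, h⟩
  intro h0
  exact hq.2 _ hc (by rw [← residue_eval, show q.eval c = 0 from Subtype.ext (by rw [coe_eval]; exact h0), map_zero])

/-- `Lam A T` consists of the Gauss-integral functions regular on the discs over `T`. -/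
theorem mem_Lam_iff [IsAlgClosed L] {T : Set (Kappa A)} {f : RatFunc L} :
    f ∈ Lam A T ↔ f ∈ Og A ∧ ∀ c : A, residue A c ∈ T → f ∈ Loc (c : L) := by
  refine ⟨fun h => ⟨Lam_le_Og T h, fun c hc => Lam_le_Loc hc h⟩, fun ⟨hOg, hreg⟩ => ?_⟩
  obtain ⟨d, hd, q, hq, hq'⟩ := exists_scale (A := A) (RatFunc.denom_ne_zero f)
  have hqT : q ∈ diskPolys A T := by
    refine ⟨hq', fun t ht h0 => ?_⟩
    obtain ⟨c, hct, hc⟩ := exists_root_residue_eq hq' h0
    exact denom_eval_ne_zero (hreg c (hct ▸ ht)) (by rw [hq, eval_mul, hc, mul_zero])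
  have hinj := RatFunc.algebraMap_injective L
  -- numerator
  obtain ⟨a, b, hb, hab⟩ := mem_Og.mp hOg
  have key : f * ratIncl A q = algebraMap L[X] (RatFunc L) (C d⁻¹ * f.num) := by
    have : f * algebraMap L[X] (RatFunc L) f.denom = algebraMap L[X] (RatFunc L) f.num := by
      conv_lhs => arg 1; rw [← RatFunc.num_div_denom f]
      rw [div_mul_cancel₀ _ ((map_ne_zero_iff _ hinj).mpr (RatFunc.denom_ne_zero f))]
    rw [hq, map_mul] at this
    rw [map_mul, ← this]
    simp only [ratIncl, RingHom.comp_apply, RatFunc.algebraMap_C]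
    rw [← mul_assoc, mul_comm (RatFunc.C d⁻¹) f, mul_assoc f, ← mul_assoc (RatFunc.C d⁻¹),
      ← map_mul, inv_mul_cancel₀ hd, map_one, one_mul]
  rcases eq_or_ne f.num 0 with h0 | h0
  · exact ⟨0, q, hqT, by rw [key, h0]; simp⟩
  obtain ⟨e, he, p, hp, hp'⟩ := exists_scale (A := A) h0
  have he' : d⁻¹ * e ∈ A := by
    refine scalar_mem_of_bar_ne_zero (p := a * q) (p₀ := p * b) (hinj ?_)
      (by rw [map_mul]; exact mul_ne_zero hp' hb)
    show ratIncl A (a * q) = _
    rw [map_mul, ← hab, mul_right_comm, key, hp]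
    simp only [ratIncl, RingHom.comp_apply, map_mul]
    ring
  refine ⟨C (⟨_, he'⟩ : A) * p, q, hqT, ?_⟩
  rw [key, hp, ← mul_assoc, ← C_mul, ratIncl, RingHom.comp_apply, map_mul (polyIncl A)]
  simp [polyIncl]

end Fermat.Agent.EichlerShimura
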