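import Mathlib.RingTheory.Ideal.Quotient.Operations
import Mathlib.Tactic

/-!
# Subrings of fractions inside a field, with reduction maps

For `ι : R → M` injective and a monoid `Q` of denominators, `fracPart ι Q` is the ring of
`f : M` with `f * ι q = ι p`, `q ∈ Q`; a homomorphism `β` nonzero on `Q` extends to it.
-/

set_option autoImplicit false

noncomputable section

namespace Fermat.Agent.EichlerShimura

variable {R M M' : Type*} [CommRing R] [Field M] [Field M']

/-- The subring of `M` of fractions with numerator in `R` and denominator in `Q`. -/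
def fracPart (ι : R →+* M) (Q : Submonoid R) : Subring M where
  carrier := {f | ∃ p, ∃ q ∈ Q, f * ι q = ι p}
  zero_mem' := ⟨0, 1, Q.one_mem, by simp⟩
  one_mem' := ⟨1, 1, Q.one_mem, by simp⟩
  mul_mem' := by
    rintro f g ⟨p, q, hq, h⟩ ⟨p', q', hq', h'⟩
    exact ⟨p * p', q * q', Q.mul_mem hq hq', by rw [map_mul, map_mul, mul_mul_mul_comm, h, h']⟩
  add_mem' := by
    rintro f g ⟨p, q, hq, h⟩ ⟨p', q', hq', h'⟩
    refine ⟨p * q' + p' * q, q * q', Q.mul_mem hq hq', ?_⟩
    rw [map_add, map_mul, map_mul, map_mul, ← h, ← h']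
    ring
  neg_mem' := by
    rintro f ⟨p, q, hq, h⟩
    exact ⟨-p, q, hq, by rw [neg_mul, h, map_neg]⟩

variable {ι : R →+* M} {Q : Submonoid R}

theorem apply_mem_fracPart (p : R) : ι p ∈ fracPart ι Q := ⟨p, 1, Q.one_mem, by simp⟩

theorem fracPart_mono {Q' : Submonoid R} (h : Q ≤ Q') : fracPart ι Q ≤ fracPart ι Q' := by
  rintro f ⟨p, q, hq, hf⟩
  exact ⟨p, q, h hq, hf⟩

theorem inv_apply_mem_fracPart {q : R} (hq : q ∈ Q) (h0 : ι q ≠ 0) :
    (ι q)⁻¹ ∈ fracPart ι Q :=
  ⟨1, q, hq, by rw [inv_mul_cancel₀ h0, map_one]⟩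

variable (hι : Function.Injective ι) (β : R →+* M') (hβ : ∀ q ∈ Q, β q ≠ 0)
include hι hβ

theorem fracPart_eq_of_eq {f : M} {p q p' q' : R} (h : f * ι q = ι p) (hq : q ∈ Q)
    (h' : f * ι q' = ι p') (hq' : q' ∈ Q) : β p / β q = β p' / β q' := by
  have : p * q' = p' * q := hι (by rw [map_mul, map_mul, ← h, ← h']; ring)
  rw [div_eq_div_iff (hβ q hq) (hβ q' hq'), ← map_mul, ← map_mul, this]

/-- Evaluate a fraction through `β`. -/
def fracLiftFun (f : fracPart ι Q) : M' :=
  β (Classical.choose f.2) / β (Classical.choose (Classical.choose_spec f.2))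

theorem fracLiftFun_eq (f : fracPart ι Q) {p q : R} (hq : q ∈ Q) (h : (f : M) * ι q = ι p) :
    fracLiftFun β f = β p / β q :=
  have hs := Classical.choose_spec (Classical.choose_spec f.2)
  fracPart_eq_of_eq hι β hβ hs.2 hs.1 h hq

/-- The extension of `β` to the fractions with denominators in `Q`. -/
def fracLift : fracPart ι Q →+* M' where
  toFun := fracLiftFun β
  map_zero' := by rw [fracLiftFun_eq hι β hβ _ Q.one_mem (p := 0) (by simp)]; simp
  map_one' := by rw [fracLiftFun_eq hι β hβ _ Q.one_mem (p := 1) (by simp)]; simp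
  map_mul' := by
    intro f g
    obtain ⟨p, q, hq, h⟩ := f.2
    obtain ⟨p', q', hq', h'⟩ := g.2
    rw [fracLiftFun_eq hι β hβ f hq h, fracLiftFun_eq hι β hβ g hq' h',
      fracLiftFun_eq hι β hβ (f * g) (Q.mul_mem hq hq') (p := p * p')
        (by rw [Subring.coe_mul, map_mul, map_mul, mul_mul_mul_comm, h, h'])]
    rw [map_mul, map_mul, mul_div_mul_comm]
  map_add' := by
    intro f g
    obtain ⟨p, q, hq, h⟩ := f.2
    obtain ⟨p', q', hq', h'⟩ := g.2
    rw [fracLiftFun_eq hι β hβ f hq h, fracLiftFun_eq hι β hβ g hq' h',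
      fracLiftFun_eq hι β hβ (f + g) (Q.mul_mem hq hq') (p := p * q' + p' * q)
        (by rw [Subring.coe_add, map_add, map_mul, map_mul, map_mul, ← h, ← h']; ring)]
    rw [map_add, map_mul, map_mul, map_mul, div_add_div _ _ (hβ q hq) (hβ q' hq')]
    ring

theorem fracLift_eq (f : fracPart ι Q) {p q : R} (hq : q ∈ Q) (h : (f : M) * ι q = ι p) :
    fracLift hι β hβ f = β p / β q :=
  fracLiftFun_eq hι β hβ f hq h

@[simp] theorem fracLift_apply (p : R) :
    fracLift hι β hβ ⟨ι p, apply_mem_fracPart p⟩ = β p := by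
  rw [fracLift_eq hι β hβ _ Q.one_mem (p := p) (by simp), map_one, div_one]

end Fermat.Agent.EichlerShimura
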