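import Fermat.Agent.EichlerShimura.Frac
import Mathlib.RingTheory.Valuation.ValuationSubring
import Mathlib.FieldTheory.RatFunc.Basic
import Mathlib.FieldTheory.IsAlgClosed.Basic

/-!
# The Gauss valuation on `L(X)` and its semilocal subrings

`L` a field with valuation subring `A`, residue field `k`. `Og A` is the Gauss valuation ring of
`L(X)`, `redG : Og A → k(X)` its residue map, and `Lam A T` the localisation of `A[X]` away
from the residue discs over `T ⊆ k`.
-/

set_option autoImplicit false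

noncomputable section

open Polynomial IsLocalRing

namespace Fermat.Agent.EichlerShimura

variable {L : Type*} [Field L] (A : ValuationSubring L)

/-- The residue field. -/
abbrev Kappa : Type _ := ResidueField A

/-- Reduction of an element, zero off `A`. -/
def res (x : L) : Kappa A := open Classical in if h : x ∈ A then residue A ⟨x, h⟩ else 0

variable {A}

theorem res_of_mem {x : L} (h : x ∈ A) : res A x = residue A ⟨x, h⟩ := dif_pos h

@[simp] theorem res_coe (x : A) : res A (x : L) = residue A x := res_of_mem x.2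

theorem residue_eq_zero_iff_inv {x : A} (hx : (x : L) ≠ 0) :
    residue A x = 0 ↔ (x : L)⁻¹ ∉ A := by
  rw [IsLocalRing.residue_eq_zero_iff, IsLocalRing.mem_maximalIdeal, mem_nonunits_iff]
  constructor
  · intro h hi
    exact h (IsUnit.of_mul_eq_one ⟨_, hi⟩ (Subtype.ext (mul_inv_cancel₀ hx)))
  · intro h hu
    obtain ⟨y, hy⟩ := isUnit_iff_exists_inv.mp hu
    have : (x : L) * (y : L) = 1 := congrArg Subtype.val hy
    rw [← eq_inv_of_mul_eq_one_right this] at h
    exact h y.2

variable (A)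

/-- Coefficientwise inclusion `A[X] → L[X]`. -/
def polyIncl : A[X] →+* L[X] := mapRingHom A.subtype

/-- Coefficientwise inclusion `A[X] → L(X)`. -/
def ratIncl : A[X] →+* RatFunc L := (algebraMap L[X] (RatFunc L)).comp (polyIncl A)

/-- Reduction `A[X] → k[X]`. -/
def polyBar : A[X] →+* (Kappa A)[X] := mapRingHom (residue A)

/-- Reduction `A[X] → k(X)`. -/
def ratBar : A[X] →+* RatFunc (Kappa A) :=
  (algebraMap (Kappa A)[X] (RatFunc (Kappa A))).comp (polyBar A)

variable {A}

@[simp] theorem coeff_polyIncl (p : A[X]) (n : ℕ) : (polyIncl A p).coeff n = (p.coeff n : L) := by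
  simp [polyIncl]

@[simp] theorem coeff_polyBar (p : A[X]) (n : ℕ) :
    (polyBar A p).coeff n = residue A (p.coeff n) := by
  simp [polyBar]

theorem polyIncl_injective : Function.Injective (polyIncl A) :=
  map_injective _ Subtype.val_injective

theorem ratIncl_injective : Function.Injective (ratIncl A) :=
  (IsFractionRing.injective L[X] (RatFunc L)).comp polyIncl_injective

theorem ratBar_eq_zero_iff {p : A[X]} : ratBar A p = 0 ↔ polyBar A p = 0 := by
  simp [ratBar]

theorem exists_lift_coeffs {p : L[X]} (h : ∀ n, p.coeff n ∈ A) :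
    ∃ p₀ : A[X], polyIncl A p₀ = p :=
  (mem_lifts p).mp ((lifts_iff_coeff_lifts p).mpr fun n => ⟨⟨_, h n⟩, rfl⟩)

/-- Every nonzero polynomial is a scalar multiple of one with nonzero reduction. -/
theorem exists_scale {p : L[X]} (hp : p ≠ 0) :
    ∃ c : L, c ≠ 0 ∧ ∃ p₀ : A[X], p = C c * polyIncl A p₀ ∧ polyBar A p₀ ≠ 0 := by
  obtain ⟨i, hi, hmax⟩ := Finset.exists_max_image p.support (fun n => A.valuation (p.coeff n))
    (support_nonempty.mpr hp)
  have hc : p.coeff i ≠ 0 := mem_support_iff.mp hi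
  have hmem : ∀ n, (C (p.coeff i)⁻¹ * p).coeff n ∈ A := fun n => by
    rw [coeff_C_mul, ← A.valuation_le_one_iff, map_mul, map_inv₀, inv_mul_le_iff₀
      ((Valuation.pos_iff _).mpr hc), mul_one]
    by_cases hn : n ∈ p.support
    · exact hmax n hn
    · simp [notMem_support_iff.mp hn]
  obtain ⟨p₀, hp₀⟩ := exists_lift_coeffs hmem
  refine ⟨_, hc, p₀, by rw [hp₀, ← mul_assoc, ← C_mul, mul_inv_cancel₀ hc, C_1, one_mul], fun h => ?_⟩
  have h1 : residue A (p₀.coeff i) = 0 := by rw [← coeff_polyBar, h, coeff_zero]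
  have h2 : (p₀.coeff i : L) = 1 := by
    rw [← coeff_polyIncl, hp₀, coeff_C_mul, inv_mul_cancel₀ hc]
  rw [show p₀.coeff i = 1 from Subtype.ext h2, map_one] at h1
  exact one_ne_zero h1

theorem scalar_mem_of_bar_ne_zero {c : L} {p p₀ : A[X]} (h : polyIncl A p = C c * polyIncl A p₀)
    (hp₀ : polyBar A p₀ ≠ 0) : c ∈ A := by
  by_contra hc
  have hc0 : c ≠ 0 := fun h0 => hc (h0 ▸ A.zero_mem)
  have hci : c⁻¹ ∈ A := (A.mem_or_inv_mem c).resolve_left hc
  have hr : residue A ⟨c⁻¹, hci⟩ = 0 :=
    (residue_eq_zero_iff_inv (inv_ne_zero hc0)).mpr (by simpa using hc)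
  have hp : p₀ = C (⟨c⁻¹, hci⟩ : A) * p := polyIncl_injective (by
    rw [map_mul, h, polyIncl, coe_mapRingHom, map_C]
    rw [← mul_assoc, ← C_mul]
    show _ = C (c⁻¹ * c) * _
    rw [inv_mul_cancel₀ hc0, C_1, one_mul])
  exact hp₀ (by rw [hp, map_mul, polyBar, coe_mapRingHom, map_C, hr, C_0, zero_mul])

variable (A)

/-- Polynomials with nonzero reduction. -/
def unitPolys : Submonoid A[X] where
  carrier := {q | polyBar A q ≠ 0}
  one_mem' := by simp
  mul_mem' {a b} ha hb := by
    simp only [Set.mem_ofPred_eq] at ha hb ⊢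
    rw [map_mul]; exact mul_ne_zero ha hb

/-- The Gauss valuation ring of `L(X)`. -/
def Og : ValuationSubring (RatFunc L) :=
  { fracPart (ratIncl A) (unitPolys A) with
    mem_or_inv_mem' := fun f => by
      rcases eq_or_ne f 0 with rfl | hf
      · exact Or.inl ⟨0, 1, (unitPolys A).one_mem, by simp⟩
      obtain ⟨c, hc, p, hp, hp'⟩ := exists_scale (A := A) (RatFunc.num_ne_zero hf)
      obtain ⟨d, hd, q, hq, hq'⟩ := exists_scale (A := A) (RatFunc.denom_ne_zero f)
      have hinj := RatFunc.algebraMap_injective L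
      have key : f * (algebraMap L[X] (RatFunc L) (C d) * ratIncl A q) =
          algebraMap L[X] (RatFunc L) (C c) * ratIncl A p := by
        simp only [ratIncl, RingHom.comp_apply, ← map_mul, ← hp, ← hq]
        conv_lhs => arg 1; rw [← RatFunc.num_div_denom f]
        rw [div_mul_cancel₀ _ ((map_ne_zero_iff _ hinj).mpr (RatFunc.denom_ne_zero f))]
      have hd' : algebraMap L[X] (RatFunc L) (C d) ≠ 0 := (map_ne_zero_iff _ hinj).mpr (by simpa)
      rcases A.mem_or_inv_mem (c / d) with h | h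
      · refine Or.inl ⟨C (⟨c / d, h⟩ : A) * p, q, hq', ?_⟩
        refine mul_left_cancel₀ hd' ?_
        rw [mul_left_comm, key, map_mul, ← mul_assoc]
        congr 1
        simp only [ratIncl, RingHom.comp_apply, polyIncl, coe_mapRingHom, map_C, ← map_mul]
        exact congrArg (fun z => algebraMap L[X] (RatFunc L) (C z)) (mul_div_cancel₀ c hd).symm
      · refine Or.inr ⟨C (⟨(c / d)⁻¹, h⟩ : A) * q, p, hp', ?_⟩
        have hc' : algebraMap L[X] (RatFunc L) (C c) ≠ 0 := (map_ne_zero_iff _ hinj).mpr (by simpa)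
        refine mul_left_cancel₀ hc' ?_
        rw [mul_left_comm, ← key, inv_mul_cancel_left₀ hf, map_mul, ← mul_assoc]
        congr 1
        simp only [ratIncl, RingHom.comp_apply, polyIncl, coe_mapRingHom, map_C, ← map_mul]
        refine congrArg (fun z => algebraMap L[X] (RatFunc L) (C z)) ?_
        show d = c * (c / d)⁻¹
        rw [inv_div, mul_div_cancel₀ d hc] }

/-- Denominators of `Lam A T`. -/
def diskPolys (T : Set (Kappa A)) : Submonoid A[X] where
  carrier := {q | polyBar A q ≠ 0 ∧ ∀ t ∈ T, (polyBar A q).eval t ≠ 0}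
  one_mem' := by simp
  mul_mem' {a b} ha hb := by
    simp only [Set.mem_ofPred_eq] at ha hb ⊢
    rw [map_mul]
    exact ⟨mul_ne_zero ha.1 hb.1, fun t ht => by
      rw [eval_mul]; exact mul_ne_zero (ha.2 t ht) (hb.2 t ht)⟩

/-- The localisation of `A[X]` at the residue discs over `T`. -/
def Lam (T : Set (Kappa A)) : Subring (RatFunc L) := fracPart (ratIncl A) (diskPolys A T)

variable {A}

theorem mem_Og {f : RatFunc L} :
    f ∈ Og A ↔ ∃ p q, polyBar A q ≠ 0 ∧ f * ratIncl A q = ratIncl A p := Iff.rfl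

theorem mem_Lam {T : Set (Kappa A)} {f : RatFunc L} :
    f ∈ Lam A T ↔ ∃ p, ∃ q ∈ diskPolys A T, f * ratIncl A q = ratIncl A p := Iff.rfl

theorem diskPolys_le (T : Set (Kappa A)) : diskPolys A T ≤ unitPolys A := fun _ h => h.1

theorem Lam_le_Og (T : Set (Kappa A)) : Lam A T ≤ (Og A).toSubring :=
  fracPart_mono (diskPolys_le T)

theorem ratBar_ne_zero_of_mem {q : A[X]} (hq : q ∈ unitPolys A) : ratBar A q ≠ 0 :=
  fun h => hq (ratBar_eq_zero_iff.mp h)

variable (A)

/-- The residue map of the Gauss valuation. -/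
def redG : Og A →+* RatFunc (Kappa A) :=
  fracLift (ι := ratIncl A) (Q := unitPolys A) ratIncl_injective (ratBar A)
    fun _ hq => ratBar_ne_zero_of_mem hq

variable {A}

theorem redG_eq (f : Og A) {p q : A[X]} (hq : polyBar A q ≠ 0)
    (h : (f : RatFunc L) * ratIncl A q = ratIncl A p) : redG A f = ratBar A p / ratBar A q :=
  fracLift_eq (ι := ratIncl A) (Q := unitPolys A) ratIncl_injective (ratBar A)
    (fun _ hq => ratBar_ne_zero_of_mem hq) f hq h

theorem redG_mul_bar {f : RatFunc L} (hf : f ∈ Og A) {p q : A[X]} (hq : polyBar A q ≠ 0)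
    (h : f * ratIncl A q = ratIncl A p) : redG A ⟨f, hf⟩ * ratBar A q = ratBar A p := by
  rw [redG_eq ⟨f, hf⟩ hq h, div_mul_cancel₀ _ (ratBar_ne_zero_of_mem hq)]

end Fermat.Agent.EichlerShimura
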