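import Fermat.Agent.EichlerShimura.Charts
import Fermat.Agent.ModFun.Ramification
import Fermat.Agent.RedTorsion.SeriesModel
import Fermat.Prelude.Def_ModularCurve_ReductionModL

/-!
# Existence of the reduction of places of `X₀(N)` at a prime of good reduction
-/

set_option autoImplicit false
set_option maxHeartbeats 1000000
set_option synthInstance.maxHeartbeats 400000

noncomputable section

open Polynomial IsLocalRing AlgebraicCurve ModularCurve
open scoped Classical

namespace Fermat.Agent.EichlerShimura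

open Fermat.Agent.FF Fermat.Agent.RedTorsion

theorem isScalarTower_ratAlgebra {K F : Type*} [Field K] [Field F] [Algebra K F] {x : F}
    (hx : Transcendental K x) :
    letI := ratAlgebra hx
    IsScalarTower K (RatFunc K) F :=
  letI := ratAlgebra hx
  IsScalarTower.of_algebraMap_eq fun c => by
    show algebraMap K F c = ratLine hx (algebraMap K (RatFunc K) c)
    rw [RatFunc.algebraMap_eq_C, ratLine_C]

/-- Elements of the lattice have a common primitive denominator. -/
theorem Model.exists_common_den {L : Type*} [Field L] {A : ValuationSubring L} {ι : Type*} [Fintype ι]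
    {E : Type*} [CommRing E] [Algebra (RatFunc L) E] {Eb : Type*} [CommRing Eb]
    [Algebra (RatFunc (Kappa A)) Eb] (M : Model A ι E Eb) (z : M.S) :
    ∃ (d : A[X]) (p : ι → A[X]), polyBar A d ≠ 0 ∧
      (z : E) * algebraMap (RatFunc L) E (ratIncl A d) =
        ∑ i, algebraMap (RatFunc L) E (ratIncl A (p i)) * M.b i := by
  choose p q hq h using fun i => mem_Og.mp (z.2 i)
  refine ⟨∏ i, q i, fun i => p i * ∏ l ∈ Finset.univ.erase i, q l, ?_, ?_⟩
  · rw [map_prod]
    exact Finset.prod_ne_zero_iff.mpr fun i _ => hq i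
  · conv_lhs => rw [← M.b.sum_repr (z : E)]
    rw [Finset.sum_mul]
    refine Finset.sum_congr rfl fun i hi => ?_
    rw [← Finset.mul_prod_erase _ _ hi, Algebra.smul_def, map_mul, map_mul, map_mul (ratIncl A),
      map_mul (algebraMap (RatFunc L) E), mul_comm (algebraMap _ E (M.b.repr _ i)) (M.b i), mul_assoc,
      ← mul_assoc (algebraMap _ E (M.b.repr _ i)), ← map_mul (algebraMap (RatFunc L) E), h i,
      mul_comm (M.b i)]

section

local notation "Qb" => AlgebraicClosure ℚ

-- the searches for `Algebra (Kappa A) Fk` are slow otherwise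
attribute [local instance 2000] SubalgebraClass.toAlgebra
attribute [-instance] IsLocalRing.ResidueField.algebraOfIsIntegral

variable {N : ℕ} [NeZero N] {A : ValuationSubring Qb}

local notation "Fb" => modularFunctionFieldBar N
local notation "Fk" => modularFunctionFieldFullC (Kappa A) N

omit [NeZero N] in
theorem hFb : modularFunctionFieldBar N = modularFunctionFieldFullC Qb N :=
  ModFun.laurentBaseChange_eq_fullC N Qb

theorem isFunctionField_bar : FF.IsFunctionField Qb Fb :=
  isFunctionField_full hFb (Nat.cast_ne_zero.mpr (NeZero.ne N))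

/-- The reduction of places over the residue disc of a finite `t`, on series. -/
theorem exists_red_fin [IsAlgClosed (Kappa A)] (hNA : (N : Kappa A) ≠ 0) (t : Kappa A) :
    ∃ r : Place Qb Fb → Option (Place (Kappa A) Fk),
      (∀ P, (∃ c : A, residue A c = t ∧ jF hFb - algebraMap Qb Fb (c : Qb) ∈ ordGe P 1) →
        ∃ Q, r P = some Q ∧ jk - algebraMap (Kappa A) Fk t ∈ ordGe Q 1) ∧
      (∀ P Q, r P = some Q →
        ∃ c : A, residue A c = t ∧ jF hFb - algebraMap Qb Fb (c : Qb) ∈ ordGe P 1) ∧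
      ∀ (y : sint A Fb), redF hFb hNA y ≠ 0 → ∀ Q : Place (Kappa A) Fk,
        jk - algebraMap (Kappa A) Fk t ∈ ordGe Q 1 →
          ∀ S : Finset (Place Qb Fb), (∀ P, P.ord (y : Fb) ≠ 0 → P ∈ S) →
            Q.ord (redF hFb hNA y) = ∑ P ∈ S.filter (fun P => r P = some Q), P.ord (y : Fb) := by
  have hN : (N : Qb) ≠ 0 := Nat.cast_ne_zero.mpr (NeZero.ne N)
  let _ := ratAlgebra (transcendental_jF (F := Fb) hFb)
  let _ := ratAlgebra (transcendental_jF (K := Kappa A) (N := N) (F := Fk) rfl)
  have := isScalarTower_ratAlgebra (transcendental_jF (F := Fb) hFb)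
  have := isScalarTower_ratAlgebra (transcendental_jF (K := Kappa A) (N := N) (F := Fk) rfl)
  have := finiteDimensional_jF (F := Fb) hFb hN
  have := finiteDimensional_jF (K := Kappa A) (N := N) (F := Fk) rfl hNA
  have := finite_ratAlgebra (transcendental_jF (F := Fb) hFb)
  have := finite_ratAlgebra (transcendental_jF (K := Kappa A) (N := N) (F := Fk) rfl)
  have := isFunctionField_bar (N := N)
  have := isFunctionField_full (K := Kappa A) (N := N) (F := Fk) rfl hNA
  have hd : ∀ (a : Qb) (P : Place Qb Fb), 0 < P.ord (jF hFb - algebraMap Qb Fb a) →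
      P.ord (jF hFb - algebraMap Qb Fb a) ∣
        ((if a = 0 then 3 else if a = 1728 then 2 else 1 : ℕ) : ℤ) := fun a P =>
    ModFun.ord_jBase_sub_dvd P a
  obtain ⟨r, h1, h2, h3⟩ := (model hFb hNA).exists_chartRed_fin
    (ratLine_X (transcendental_jF (F := Fb) hFb))
    (ratLine_X (transcendental_jF (K := Kappa A) (N := N) (F := Fk) rfl))
    (fun P hP => by simpa using hd 0 P (by simpa using hP))
    (fun P hP => by simpa using hd 1728 P hP)
    (fun a h0 h1 P hP => by simpa [h0, h1] using hd a P hP) t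
  refine ⟨r, h1, h2, fun y hy Q hQ S hS => ?_⟩
  have h := h3 ⟨_, mem_model_S hFb hNA y⟩ (by rw [model_red]; exact hy) Q hQ
  rw [model_red] at h
  rw [h]
  exact sum_filter_suppFin (fun P => r P = some Q) fun P hP =>
    hS P fun h => absurd hP (notMem_suppFin.mpr h)

/-- The reduction of places over the residue disc of infinity, on series. -/
theorem exists_red_inv [IsAlgClosed (Kappa A)] (hNA : (N : Kappa A) ≠ 0) :
    ∃ r : Place Qb Fb → Option (Place (Kappa A) Fk),
      (∀ P, (∃ c : A, residue A c = 0 ∧ (jF hFb)⁻¹ - algebraMap Qb Fb (c : Qb) ∈ ordGe P 1) →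
        ∃ Q, r P = some Q ∧ (jk : Fk)⁻¹ ∈ ordGe Q 1) ∧
      (∀ P Q, r P = some Q →
        ∃ c : A, residue A c = 0 ∧ (jF hFb)⁻¹ - algebraMap Qb Fb (c : Qb) ∈ ordGe P 1) ∧
      ∀ (y : sint A Fb), redF hFb hNA y ≠ 0 → ∀ Q : Place (Kappa A) Fk,
        (jk : Fk)⁻¹ ∈ ordGe Q 1 →
          ∀ S : Finset (Place Qb Fb), (∀ P, P.ord (y : Fb) ≠ 0 → P ∈ S) →
            Q.ord (redF hFb hNA y) = ∑ P ∈ S.filter (fun P => r P = some Q), P.ord (y : Fb) := by
  have hN : (N : Qb) ≠ 0 := Nat.cast_ne_zero.mpr (NeZero.ne N)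
  let _ := ratAlgebra (transcendental_jF (F := Fb) hFb)
  let _ := ratAlgebra (transcendental_jF (K := Kappa A) (N := N) (F := Fk) rfl)
  have := isScalarTower_ratAlgebra (transcendental_jF (F := Fb) hFb)
  have := isScalarTower_ratAlgebra (transcendental_jF (K := Kappa A) (N := N) (F := Fk) rfl)
  have := finiteDimensional_jF (F := Fb) hFb hN
  have := finiteDimensional_jF (K := Kappa A) (N := N) (F := Fk) rfl hNA
  have := finite_ratAlgebra (transcendental_jF (F := Fb) hFb)
  have := finite_ratAlgebra (transcendental_jF (K := Kappa A) (N := N) (F := Fk) rfl)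
  have := isFunctionField_bar (N := N)
  have := isFunctionField_full (K := Kappa A) (N := N) (F := Fk) rfl hNA
  obtain ⟨r, h1, h2, h3⟩ := (model hFb hNA).exists_chartRed_inv
    (ratLine_X (transcendental_jF (F := Fb) hFb))
    (ratLine_X (transcendental_jF (K := Kappa A) (N := N) (F := Fk) rfl))
    (NeZero.ne N) (fun P hP => ModFun.ord_jBase_dvd P hP)
    (fun a h0 h1 P hP => by
      have := ModFun.ord_jBase_sub_dvd P a hP
      rw [if_neg h0, if_neg h1] at this
      exact this)
  refine ⟨r, h1, h2, fun y hy Q hQ S hS => ?_⟩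
  have h := h3 ⟨_, mem_model_S hFb hNA y⟩ (by rw [model_red]; exact hy) Q hQ
  rw [model_red] at h
  rw [h]
  exact sum_filter_suppFin (fun P => r P = some Q) fun P hP =>
    hS P fun h => absurd hP (notMem_suppFin.mpr h)

/-- A place reduction exists. -/
theorem exists_isPlaceReductionModL [IsAlgClosed (Kappa A)] (hNA : (N : Kappa A) ≠ 0) :
    ∃ r, IsPlaceReductionModL A N r := by
  have := isFunctionField_bar (N := N)
  have := isFunctionField_full (K := Kappa A) (N := N) (F := Fk) rfl hNA
  choose rf hf1 hf2 hf3 using exists_red_fin hNA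
  obtain ⟨ri, hi1, hi2, hi3⟩ := exists_red_inv hNA
  set x : Fb := jF hFb with hx
  set xb : Fk := jk with hxb
  have hx0 : x ≠ 0 := fun h => by
    refine transcendental_jF (F := Fb) hFb ?_
    rw [← hx, h]
    exact isAlgebraic_zero
  have hxb0 : xb ≠ 0 := fun h => by
    refine transcendental_jF (K := Kappa A) (N := N) (F := Fk) rfl ?_
    show IsAlgebraic (Kappa A) xb
    rw [h]
    exact isAlgebraic_zero
  let Spec : Place Qb Fb → Place (Kappa A) Fk → Prop := fun P Q =>
    (∃ t, rf t P = some Q) ∨ ri P = some Q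
  have hQfin : ∀ t P Q, rf t P = some Q → xb - algebraMap (Kappa A) Fk t ∈ ordGe Q 1 :=
    fun t P Q h => by
      obtain ⟨Q', hQ', hQ''⟩ := hf1 t P (hf2 t P Q h)
      exact (Option.some.inj (h.symm.trans hQ')) ▸ hQ''
  have hQinf : ∀ P Q, ri P = some Q → xb⁻¹ ∈ ordGe Q 1 := fun P Q h => by
    obtain ⟨Q', hQ', hQ''⟩ := hi1 P (hi2 P Q h)
    exact (Option.some.inj (h.symm.trans hQ')) ▸ hQ''
  have hexcl : ∀ t P Q Q', rf t P = some Q → ri P = some Q' → False := fun t P Q Q' h h' => by
    obtain ⟨c, -, hc⟩ := hf2 t P Q h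
    obtain ⟨d, hd, hd'⟩ := hi2 P Q' h'
    exact not_disc_and_inv hx0 hd hc hd'
  have hex : ∀ P, ∃ Q, Spec P Q := fun P => by
    rcases exists_disc_or_inv (A := A) P x with ⟨c, hc⟩ | hc
    · obtain ⟨Q, hQ, -⟩ := hf1 (residue A c) P ⟨c, rfl, hc⟩
      exact ⟨Q, Or.inl ⟨_, hQ⟩⟩
    · obtain ⟨Q, hQ, -⟩ := hi1 P hc
      exact ⟨Q, Or.inr hQ⟩
  choose r hr using hex
  have huniq : ∀ P Q, Spec P Q → r P = Q := fun P Q hQ => by
    rcases hr P with ⟨t, ht⟩ | ht <;> rcases hQ with ⟨t', ht'⟩ | ht'
    · obtain ⟨c, hc, hc'⟩ := hf2 t P _ ht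
      obtain ⟨c', hct, hc''⟩ := hf2 t' P _ ht'
      obtain rfl : c = c' := Subtype.ext (disc_center_unique hc' hc'')
      obtain rfl : t = t' := hc.symm.trans hct
      exact Option.some.inj (ht.symm.trans ht')
    · exact (hexcl t P _ _ ht ht').elim
    · exact (hexcl t' P _ _ ht' ht).elim
    · exact Option.some.inj (ht.symm.trans ht')
  refine ⟨r, fun P => by rw [deg_eq_one, deg_eq_one], fun y hy hyk hne D hD Q => ?_⟩
  let ys : sint A Fb := ⟨⟨coeffMap A.subtype y, hy⟩, ⟨y, rfl⟩⟩
  have hred : redF hFb hNA ys = ⟨coeffMap (residue A) y, hyk⟩ :=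
    Subtype.ext (serRed_coeffMap y _)
  have hys : redF hFb hNA ys ≠ 0 := by
    rw [hred]; exact fun h => hne (congrArg Subtype.val h)
  have hD' : ∀ P, P.ord (ys : Fb) ≠ 0 → P ∈ D.support := fun P hP =>
    Finsupp.mem_support_iff.mpr ((hD P).trans_ne hP)
  have hlhs : Finsupp.mapDomain r D Q = ∑ P ∈ D.support.filter (fun P => r P = Q), P.ord (ys : Fb) := by
    rw [Finsupp.mapDomain, Finsupp.sum_apply, Finsupp.sum, Finset.sum_filter]
    refine Finset.sum_congr rfl fun P _ => ?_
    rw [Finsupp.single_apply, hD P]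
  rw [hlhs, ← hred]
  rcases exists_disc_or_inv (A := (⊤ : ValuationSubring (Kappa A))) Q xb with ⟨t, ht⟩ | ⟨t, ht0, ht⟩
  · rw [hf3 (t : Kappa A) ys hys Q ht _ hD']
    refine Finset.sum_congr (Finset.filter_congr fun P _ => ⟨fun h => ?_, fun h => ?_⟩) fun _ _ => rfl
    · rcases hr P with ⟨t', ht'⟩ | ht'
      · obtain rfl : t' = (t : Kappa A) := disc_center_unique (h ▸ hQfin t' P _ ht') ht
        exact ht'.trans (congrArg some h)
      · refine (not_disc_and_inv (A := (⊤ : ValuationSubring (Kappa A))) (d := 0) hxb0 (map_zero _) ht ?_).elim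
        simpa using h ▸ hQinf P _ ht'
    · exact huniq P Q (Or.inl ⟨_, h⟩)
  · obtain rfl : t = 0 := by
      by_contra h
      have hu : IsUnit t := by
        have h' : (t : Kappa A) ≠ 0 := fun h' => h (Subtype.ext h')
        exact IsUnit.of_mul_eq_one ⟨(t : Kappa A)⁻¹, trivial⟩ (Subtype.ext (mul_inv_cancel₀ h'))
      exact (residue_ne_zero_iff_isUnit _).mpr hu ht0
    rw [ZeroMemClass.coe_zero, map_zero, sub_zero] at ht
    rw [hi3 ys hys Q ht _ hD']
    refine Finset.sum_congr (Finset.filter_congr fun P _ => ⟨fun h => ?_, fun h => ?_⟩) fun _ _ => rfl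
    · rcases hr P with ⟨t', ht'⟩ | ht'
      · refine (not_disc_and_inv (A := (⊤ : ValuationSubring (Kappa A))) (c := ⟨t', trivial⟩) (d := 0)
          hxb0 (map_zero _) (h ▸ hQfin t' P _ ht') ?_).elim
        simpa using ht
      · exact ht'.trans (congrArg some h)
    · exact huniq P Q (Or.inr h)

/-- Principal divisors are generated by those of integral functions with nonzero reduction. -/
theorem principalGeneratedByIntegral [IsAlgClosed (Kappa A)] (hNA : (N : Kappa A) ≠ 0) :
    PrincipalGeneratedByIntegral A (residue A) N := by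
  have hN : (N : Qb) ≠ 0 := Nat.cast_ne_zero.mpr (NeZero.ne N)
  let _ := ratAlgebra (transcendental_jF (F := Fb) hFb)
  let _ := ratAlgebra (transcendental_jF (K := Kappa A) (N := N) (F := Fk) rfl)
  have := isScalarTower_ratAlgebra (transcendental_jF (F := Fb) hFb)
  have := isFunctionField_bar (N := N)
  intro D hD
  obtain ⟨f, hf, hDf⟩ := hD
  have key : ∀ u : sint A Fb, redF hFb hNA u ≠ 0 →
      FF.div Qb (u : Fb) ∈ integralPrincipalDivisors A (residue A) N := fun u hu => by
    obtain ⟨y, hy⟩ := u.2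
    have hy' : coeffMap A.subtype y = ((u : Fb) : LaurentSeries Qb) := hy
    have hr : coeffMap (residue A) y = (redF hFb hNA u : LaurentSeries (Kappa A)) := by
      rw [coe_redF, ← serRed_coeffMap y ⟨y, rfl⟩]
      exact congrArg (serRed A) (Subtype.ext hy')
    refine ⟨y, hy' ▸ (u : Fb).2, hr ▸ (redF hFb hNA u).2,
      fun h => hu (Subtype.ext (hr.symm.trans h)), fun P => ?_⟩
    exact congrArg P.ord (Subtype.ext hy'.symm)
  obtain ⟨c, hc, z, hfz, hz⟩ := (model hFb hNA).exists_scale' hf
  obtain ⟨d, p, hd, hzd⟩ := (model hFb hNA).exists_common_den z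
  have he : ∀ q : A[X], algebraMap (RatFunc Qb) Fb (ratIncl A q) = ((evalS (F := Fb) hFb q : sint A Fb) : Fb) := fun q => by
    rw [coe_evalS]
    exact ratLine_algebraMap (transcendental_jF (F := Fb) hFb) _
  set w : sint A Fb := evalS hFb d with hw
  let u : sint A Fb := ∑ i, evalS hFb (p i) * ⟨_, basisInt_mem hFb hNA i⟩
  have hu : (u : Fb) = (z : Fb) * (w : Fb) := by
    rw [hw, ← he, hzd, AddSubmonoidClass.coe_finsetSum]
    refine Finset.sum_congr rfl fun i _ => ?_
    rw [he]
    rfl
  have hwr : redF hFb hNA w ≠ 0 := fun h => by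
    have h' := congrArg Subtype.val h
    rw [coe_redF, hw, sred_evalS, ZeroMemClass.coe_zero] at h'
    exact hd ((transcendental_iff_injective.mp (transcendental_jqModC (Kappa A)))
      (h'.trans (map_zero _).symm))
  have hur : redF hFb hNA u ≠ 0 := by
    have h : (⟨_, mem_model_S hFb hNA u⟩ : (model hFb hNA).S) =
        z * ⟨_, mem_model_S hFb hNA w⟩ := Subtype.ext hu
    have h' := congrArg (model hFb hNA).red h
    rw [map_mul, model_red, model_red] at h'
    rw [h']
    exact mul_ne_zero hz hwr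
  have hz0 : (z : Fb) ≠ 0 := fun h => hz (by rw [show z = 0 from Subtype.ext h, map_zero])
  have hw0 : (w : Fb) ≠ 0 := fun h => hwr (by rw [show w = 0 from Subtype.ext h, map_zero])
  have hDeq : D = FF.div Qb (u : Fb) - FF.div Qb (w : Fb) := by
    rw [hu, FF.div_mul hz0 hw0, add_sub_cancel_right]
    ext P
    rw [hDf P, hfz, ← RatFunc.algebraMap_eq_C, ← IsScalarTower.algebraMap_apply, FF.div_apply,
      P.ord_mul ((_root_.map_ne_zero _).mpr hc) hz0, ord_algebraMap, zero_add]
  rw [hDeq]
  exact sub_mem (AddSubgroup.subset_closure (key u hur)) (AddSubgroup.subset_closure (key w hwr))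

theorem reductionInputsModL [IsAlgClosed (Kappa A)] (hNA : (N : Kappa A) ≠ 0) :
    ReductionInputsModL A N :=
  let ⟨r, hr⟩ := exists_isPlaceReductionModL hNA
  ⟨r, hr, principalGeneratedByIntegral hNA⟩

end

end Fermat.Agent.EichlerShimura
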