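import Fermat.Agent.EichlerShimura.Regular

/-!
# Purity: smoothness of the special fibre over an unramified residue disc

If the generic algebra is unramified at every point of the residue discs over `T`, every element of
the reduced algebra which is integral at all `t ∈ T` is the reduction of an element integral over
`Lam A T`.  The proof takes an `n`-tuple of integral elements whose reduced discriminant vanishes
to minimal order at `t`.
-/

set_option autoImplicit false

noncomputable section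

open Polynomial IsLocalRing

namespace Fermat.Agent.EichlerShimura

variable {L : Type*} [Field L] {A : ValuationSubring L}
variable {ι : Type*} [Fintype ι] [DecidableEq ι]
variable {E : Type*} [CommRing E] [Algebra (RatFunc L) E]
variable {Eb : Type*} [CommRing Eb] [Algebra (RatFunc (Kappa A)) Eb]

variable (ι E) in
/-- An integral system with invertible discriminant at `c`. -/
def UnramAt (c : L) : Prop :=
  ∃ z : ι → E, (∀ i, IsIntegral (Loc c).toSubring (z i)) ∧
    Algebra.discr (RatFunc L) z ≠ 0 ∧ (Algebra.discr (RatFunc L) z)⁻¹ ∈ Loc c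

namespace Model

variable (M : Model A ι E Eb)

theorem exists_independent_tuple [IsAlgClosed L] (T : Set (Kappa A)) :
    ∃ y : ι → Rint E T,
      Algebra.discr (RatFunc (Kappa A)) (fun i => M.redT T (y i)) ≠ 0 := by
  choose q hq hmem using fun i => M.exists_mul_mem_Rint T ⟨M.b i, M.basis_mem i⟩
  refine ⟨fun i => ⟨_, hmem i⟩, ?_⟩
  have h : ∀ i, M.redT T ⟨_, hmem i⟩ =
      algebraMap (RatFunc (Kappa A)) Eb (ratBar A (q i)) * M.bb i := fun i => by
    have := M.red_algebraMap_mul (f := ratIncl A (q i)) (apply_mem_fracPart _)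
      ⟨M.b i, M.basis_mem i⟩
    rw [M.red_basis, redG_ratIncl] at this
    exact this
  have hv : (fun i => M.redT T ⟨_, hmem i⟩) =
      Matrix.vecMul (⇑M.bb) ((Matrix.diagonal fun i => ratBar A (q i)).map
        (algebraMap (RatFunc (Kappa A)) Eb)) := by
    funext i
    rw [h, Matrix.diagonal_map (map_zero _), Matrix.vecMul_diagonal, mul_comm]
  rw [hv, Algebra.discr_of_matrix_vecMul, Matrix.det_diagonal]
  refine mul_ne_zero (pow_ne_zero _ (Finset.prod_ne_zero_iff.mpr fun i _ => ?_)) M.disc_ne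
  exact fun h0 => hq i (ratBar_eq_zero_iff.mp h0)

variable [IsAlgClosed L] {T : Set (Kappa A)}

/-- The improvement step. -/
theorem exists_improvement {y : ι → Rint E T}
    (_hne : Algebra.discr (RatFunc (Kappa A)) (fun i => M.redT T (y i)) ≠ 0)
    {c : A} (hc : residue A c ∈ T) (hU : UnramAt ι E (c : L))
    (hD : evalLoc (c : L) ⟨_, Lam_le_Loc hc (M.discr_mem_Lam y)⟩ = 0) :
    ∃ y' : ι → Rint E T,
      Algebra.discr (RatFunc (Kappa A)) (fun i => M.redT T (y i)) =
        algebraMap (Kappa A)[X] (RatFunc (Kappa A)) ((X - C (residue A c)) ^ 2) *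
          Algebra.discr (RatFunc (Kappa A)) (fun i => M.redT T (y' i)) := by
  have := M.finite
  obtain ⟨z, hz, hdz, hdzi⟩ := hU
  choose Cf hCf hy using fun i => exists_coords_mem (ValuationSubring.intClosedIn (Loc (c : L)))
    M.b hz hdz hdzi (isIntegral_mono (Lam_le_Loc hc) (mem_Rint.mp (y i).2))
  let C₁ : Matrix ι ι (Loc (c : L)) := fun i j => ⟨Cf i j, hCf i j⟩
  have hdet : (C₁.map (evalLoc (c : L))).det = 0 := by
    have hvec : (fun i => (y i : E)) =
        Matrix.vecMul z (((C₁.map (Loc (c : L)).subtype).transpose).map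
          (algebraMap (RatFunc L) E)) := by
      funext i
      rw [hy i]
      exact Finset.sum_congr rfl fun j _ => by
        rw [Algebra.smul_def, mul_comm]; rfl
    have hz' : Algebra.discr (RatFunc L) z ∈ Loc (c : L) := by
      rw [Algebra.discr_def]
      let D : Matrix ι ι (Loc (c : L)) := fun i j =>
        ⟨_, trace_mem (ValuationSubring.intClosedIn (Loc (c : L))) ((hz i).mul (hz j))⟩
      rw [show Algebra.traceMatrix (RatFunc L) z = D.map (Loc (c : L)).subtype from rfl,
        ← RingHom.mapMatrix_apply, ← RingHom.map_det]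
      exact D.det.2
    have heq : (⟨_, Lam_le_Loc hc (M.discr_mem_Lam y)⟩ : Loc (c : L)) =
        C₁.det ^ 2 * ⟨_, hz'⟩ := by
      refine Subtype.ext ?_
      show Algebra.discr (RatFunc L) (fun i => (y i : E)) = _
      rw [hvec, Algebra.discr_of_matrix_vecMul, Matrix.det_transpose, ← RingHom.mapMatrix_apply,
        ← RingHom.map_det]
      rfl
    rw [heq, map_mul, map_pow, mul_eq_zero] at hD
    rcases hD with h | h
    · rw [← RingHom.mapMatrix_apply, ← RingHom.map_det]
      exact (pow_eq_zero_iff two_ne_zero).mp h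
    · have h1 : evalLoc (c : L) (⟨_, hz'⟩ * ⟨_, hdzi⟩) = 1 := by
        rw [← map_one (evalLoc (c : L))]
        exact congrArg _ (Subtype.ext (mul_inv_cancel₀ hdz))
      rw [map_mul, h, zero_mul] at h1
      exact absurd h1 zero_ne_one
  obtain ⟨μ, hμ, hμ0⟩ := Matrix.exists_vecMul_eq_zero_iff.mpr hdet
  -- scale the relation
  obtain ⟨i₀, -, hmax⟩ := Finset.exists_max_image (Finset.univ : Finset ι)
    (fun i => A.valuation (μ i)) (by
      by_contra h
      exact hμ (funext fun i => absurd ⟨i, Finset.mem_univ i⟩ h))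
  have hμi₀ : μ i₀ ≠ 0 := fun h => hμ (funext fun i => by
    have := hmax i (Finset.mem_univ i)
    rw [h, map_zero, le_zero_iff, map_eq_zero] at this
    exact this)
  have hνA : ∀ i, μ i / μ i₀ ∈ A := fun i => by
    rw [← A.valuation_le_one_iff, map_div₀, div_le_one₀ ((Valuation.pos_iff _).mpr hμi₀)]
    exact hmax i (Finset.mem_univ i)
  set ν : ι → L := fun i => μ i / μ i₀ with hν
  have hrel : ∀ j, ∑ i, ν i * evalLoc (c : L) (C₁ i j) = 0 := fun j => by
    have h := congrFun hμ0 j
    simp only [Matrix.vecMul, dotProduct, Matrix.map_apply, Pi.zero_apply] at h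
    simp only [hν, div_mul_eq_mul_div, ← Finset.sum_div, h, zero_div]
  set u : RatFunc L := (algebraMap L[X] (RatFunc L) (X - C (c : L)))⁻¹ with hu
  set Xc : A[X] := X - C c with hXc
  have hXcι : ratIncl A Xc = algebraMap L[X] (RatFunc L) (X - C (c : L)) := by
    simp [hXc, ratIncl, polyIncl]
  have hXcbar : polyBar A Xc = X - C (residue A c) := by simp [hXc, polyBar]
  have huOg : u ∈ Og A := by
    rw [hu, ← hXcι]
    exact inv_apply_mem_fracPart (show polyBar A Xc ≠ 0 by rw [hXcbar]; exact X_sub_C_ne_zero _)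
      ((map_ne_zero_iff _ ratIncl_injective).mpr (X_sub_C_ne_zero c))
  set w : E := algebraMap (RatFunc L) E u * ∑ i, algebraMap (RatFunc L) E (RatFunc.C (ν i)) * (y i : E)
    with hw
  have hwc : IsIntegral (Loc (c : L)).toSubring w := by
    have h0 : ∑ i, algebraMap (RatFunc L) E (RatFunc.C (ν i)) * (y i : E) =
        ∑ j, algebraMap (RatFunc L) E (∑ i, RatFunc.C (ν i) * Cf i j) * z j := by
      calc _ = ∑ i, ∑ j, algebraMap (RatFunc L) E (RatFunc.C (ν i) * Cf i j) * z j :=
            Finset.sum_congr rfl fun i _ => by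
              rw [hy i, Finset.mul_sum]
              exact Finset.sum_congr rfl fun j _ => by
                rw [Algebra.smul_def, map_mul, mul_assoc]
        _ = _ := by
              rw [Finset.sum_comm]
              exact Finset.sum_congr rfl fun j _ => by rw [map_sum, Finset.sum_mul]
    rw [hw, h0, Finset.mul_sum]
    refine IsIntegral.sum _ fun j _ => ?_
    rw [← mul_assoc, ← map_mul]
    refine (isIntegral_algebraMap_of_mem ?_).mul (hz j)
    have hg : (∑ i, RatFunc.C (ν i) * Cf i j) ∈ Loc (c : L) :=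
      sum_mem fun i _ => mul_mem (C_mem_Loc _ _) (hCf i j)
    refine div_X_sub_C_mem_Loc hg ?_
    rw [show (⟨_, hg⟩ : Loc (c : L)) = ∑ i, ⟨_, C_mem_Loc _ (ν i)⟩ * C₁ i j from
      Subtype.ext (by simp [C₁]), map_sum]
    refine Eq.trans (Finset.sum_congr rfl fun i _ => ?_) (hrel j)
    rw [map_mul, evalLoc_eq (p := C (ν i)) (q := 1) ⟨_, C_mem_Loc _ (ν i)⟩ (by simp)
      (by simp [RatFunc.algebraMap_C]), eval_C, eval_one, div_one]
  have hsum : (∑ i, algebraMap (RatFunc L) E (RatFunc.C (ν i)) * (y i : E)) ∈ Rint E T :=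
    sum_mem fun i _ => mul_mem (algebraMap_mem_Rint (C_mem_Lam (hνA i) T)) (y i).2
  have hwT : w ∈ Rint E T := by
    refine mem_Rint.mpr (isIntegral_Lam_iff.mpr ⟨?_, fun d hd => ?_⟩)
    · exact (isIntegral_algebraMap_of_mem huOg).mul
        (isIntegral_mono (R := Lam A T) (Lam_le_Og T) hsum)
    · rcases eq_or_ne (d : L) (c : L) with h | h
      · rw [h]; exact hwc
      · exact (isIntegral_algebraMap_of_mem (inv_X_sub_C_mem_Loc h)).mul
          (isIntegral_mono (Lam_le_Loc hd) hsum)
  refine ⟨Function.update y i₀ ⟨w, hwT⟩, ?_⟩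
  -- the reduced relation
  set xt : RatFunc (Kappa A) := algebraMap (Kappa A)[X] (RatFunc (Kappa A)) (X - C (residue A c))
    with hxt
  have hxt0 : xt ≠ 0 :=
    (map_ne_zero_iff _ (RatFunc.algebraMap_injective (Kappa A))).mpr (X_sub_C_ne_zero _)
  set v : ι → RatFunc (Kappa A) := fun i => xt⁻¹ * RatFunc.C (residue A ⟨ν i, hνA i⟩) with hv
  have hred : M.redT T ⟨w, hwT⟩ =
      ∑ i, M.redT T (y i) * algebraMap (RatFunc (Kappa A)) Eb (v i) := by
    have hu' : redG A ⟨u, huOg⟩ = xt⁻¹ := by
      rw [redG_eq ⟨u, huOg⟩ (p := 1) (q := Xc) (by rw [hXcbar]; exact X_sub_C_ne_zero _)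
        (by
          rw [map_one, hXcι]
          exact inv_mul_cancel₀
            ((map_ne_zero_iff _ (RatFunc.algebraMap_injective L)).mpr (X_sub_C_ne_zero _))),
        map_one, one_div, ratBar, RingHom.comp_apply, hXcbar]
    have e : M.redT T ⟨w, hwT⟩ = algebraMap (RatFunc (Kappa A)) Eb xt⁻¹ *
        M.red ⟨_, M.rint_le_S T hsum⟩ := by
      rw [← hu']
      exact M.red_algebraMap_mul huOg ⟨_, M.rint_le_S T hsum⟩
    rw [e, show (⟨_, M.rint_le_S T hsum⟩ : M.S) = ∑ i, ⟨_, M.algebraMap_mem (C_mem_Og (hνA i))⟩ *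
      M.incl T (y i) from Subtype.ext (by push_cast; rfl), map_sum, Finset.mul_sum]
    refine Finset.sum_congr rfl fun i _ => ?_
    rw [map_mul, M.red_algebraMap (C_mem_Og (hνA i)), redG_C (hνA i), hv]
    simp only [map_mul]
    show _ = M.red (M.incl T (y i)) * _
    ring
  have hvec : (fun i => M.redT T (Function.update y i₀ ⟨w, hwT⟩ i)) =
      Matrix.vecMul (fun i => M.redT T (y i))
        (((1 : Matrix ι ι (RatFunc (Kappa A))).updateCol i₀ v).map
          (algebraMap (RatFunc (Kappa A)) Eb)) := by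
    funext i
    by_cases h : i = i₀
    · subst h
      rw [Function.update_self, hred]
      simp [Matrix.vecMul, dotProduct]
    · rw [Function.update_of_ne h]
      simp [Matrix.vecMul, dotProduct, Matrix.updateCol_ne h, Matrix.one_apply, apply_ite]
  rw [hvec, Algebra.discr_of_matrix_vecMul, ← Matrix.cramer_apply, Matrix.cramer_one]
  have hv0 : v i₀ = xt⁻¹ := by
    rw [hv]
    simp only [hν, div_self hμi₀]
    rw [show (⟨1, _⟩ : A) = 1 from rfl, map_one, map_one, mul_one]
  simp only [Module.End.one_apply, hv0]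
  rw [map_pow, ← mul_assoc, ← mul_pow, mul_inv_cancel₀ hxt0, one_pow, one_mul]

/-- Some integral tuple has reduced discriminant invertible at `t`. -/
theorem exists_good_tuple {t : Kappa A} (ht : t ∈ T)
    (hU : ∀ c : A, residue A c = t → UnramAt ι E (c : L)) :
    ∃ y : ι → Rint E T, Algebra.discr (RatFunc (Kappa A)) (fun i => M.redT T (y i)) ≠ 0 ∧
      (Algebra.discr (RatFunc (Kappa A)) (fun i => M.redT T (y i)))⁻¹ ∈ Loc t := by
  classical
  let d : (ι → Rint E T) → RatFunc (Kappa A) := fun y =>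
    Algebra.discr (RatFunc (Kappa A)) fun i => M.redT T (y i)
  have hex : ∃ n, ∃ y, d y ≠ 0 ∧ (d y).num.rootMultiplicity t = n := by
    obtain ⟨y, hy⟩ := M.exists_independent_tuple T
    exact ⟨_, y, hy, rfl⟩
  obtain ⟨y, hy0, hyn⟩ := Nat.find_spec hex
  have hdeq : ∀ y : ι → Rint E T, d y = redG A ⟨_, Lam_le_Og T (M.discr_mem_Lam y)⟩ := fun y =>
    (M.discr_red (fun i => M.incl T (y i))).2.symm
  have hdLoc : ∀ y : ι → Rint E T, d y ∈ Loc t := fun y => by
    rw [hdeq]; exact redG_mem_Loc ht (M.discr_mem_Lam y)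
  refine ⟨y, hy0, inv_mem_Loc (hdLoc y) fun hzero => ?_⟩
  obtain ⟨p, q, hq, hpq⟩ := mem_Lam.mp (M.discr_mem_Lam y)
  have hD := redG_mul_bar (Lam_le_Og T (M.discr_mem_Lam y)) hq.1 hpq
  rw [← hdeq] at hD
  have hp : polyBar A p ≠ 0 := fun h => by
    rw [ratBar_eq_zero_iff.mpr h, mul_eq_zero] at hD
    exact hD.elim hy0 (ratBar_ne_zero_of_mem hq.1)
  have hpt : (polyBar A p).eval t = 0 := by
    rw [evalLoc_eq ⟨d y, hdLoc y⟩ (hq.2 t ht) hD, div_eq_zero_iff] at hzero
    exact hzero.resolve_right (hq.2 t ht)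
  obtain ⟨c, hct, hc⟩ := exists_root_residue_eq hp hpt
  have hcT : residue A c ∈ T := hct ▸ ht
  have hD0 : evalLoc (c : L) ⟨_, Lam_le_Loc hcT (M.discr_mem_Lam y)⟩ = 0 := by
    refine (evalLoc_eq (p := polyIncl A p) (q := polyIncl A q) _ ?_ hpq).trans (by rw [hc, zero_div])
    intro h0
    refine hq.2 _ hcT ?_
    rw [← residue_eval, show q.eval c = 0 from Subtype.ext (by rw [coe_eval]; exact h0), map_zero]
  obtain ⟨y', hy'⟩ := M.exists_improvement hy0 hcT (hU c hct) hD0
  rw [hct] at hy'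
  have hy'0 : d y' ≠ 0 := fun h => hy0 (by
    show Algebra.discr _ _ = 0
    rw [hy', show Algebra.discr (RatFunc (Kappa A)) (fun i => M.redT T (y' i)) = 0 from h, mul_zero])
  have hlt : (d y').num.rootMultiplicity t < Nat.find hex := by
    rw [← hyn]
    obtain ⟨a, b, hb, hab⟩ := mem_Loc.mp (hdLoc y')
    have ha : a ≠ 0 := fun h => by
      rw [h, map_zero, mul_eq_zero] at hab
      rcases hab with h1 | h1
      · exact hy'0 h1
      · exact hb (by rw [(map_eq_zero_iff _ (RatFunc.algebraMap_injective _)).mp h1, eval_zero])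
    have hX : (X - C t) ^ 2 * a ≠ 0 := mul_ne_zero (pow_ne_zero _ (X_sub_C_ne_zero t)) ha
    rw [num_rootMultiplicity_eq (hdLoc y') hb ha hab,
      num_rootMultiplicity_eq (hdLoc y) hb hX (by
        rw [map_mul, ← hab, ← mul_assoc]
        exact congrArg (· * _) hy'),
      rootMultiplicity_mul hX, rootMultiplicity_X_sub_C_pow]
    omega
  exact Nat.find_min hex hlt ⟨y', hy'0, rfl⟩

/-- Purity: elements integral over every `t ∈ T` lift to integral elements. -/
theorem exists_lift [Infinite (Kappa A)] (hT : T.Finite) (hT' : T.Nonempty)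
    (hU : ∀ c : A, residue A c ∈ T → UnramAt ι E (c : L)) {h : Eb}
    (hh : ∀ t ∈ T, IsIntegral (Loc t).toSubring h) : ∃ Y : Rint E T, M.redT T Y = h := by
  classical
  have := M.finite'
  let good : (Kappa A)[X] → Prop := fun q =>
    ∃ Y : Rint E T, M.redT T Y =
      algebraMap (RatFunc (Kappa A)) Eb (algebraMap (Kappa A)[X] (RatFunc (Kappa A)) q) * h
  have hpoly : ∀ q : (Kappa A)[X], ∀ Y : Rint E T, ∃ Y' : Rint E T, M.redT T Y' =
      algebraMap (RatFunc (Kappa A)) Eb (algebraMap (Kappa A)[X] (RatFunc (Kappa A)) q) *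
        M.redT T Y := fun q Y => by
    obtain ⟨Q, rfl⟩ := map_surjective _ residue_surjective q
    refine ⟨⟨_, mul_mem (algebraMap_mem_Rint (apply_mem_fracPart Q)) Y.2⟩, ?_⟩
    have := M.red_algebraMap_mul (f := ratIncl A Q) (apply_mem_fracPart Q) (M.incl T Y)
    rw [redG_ratIncl] at this
    exact this
  have hlocal : ∀ t ∈ T, ∃ q : (Kappa A)[X], q.eval t ≠ 0 ∧ good q := fun t ht => by
    obtain ⟨y, hy0, hyi⟩ := M.exists_good_tuple ht fun c hc => hU c (hc ▸ ht)
    obtain ⟨c, hc, hhc⟩ := exists_coords_mem (ValuationSubring.intClosedIn (Loc t)) M.bb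
      (fun i => M.redT_isIntegral (y i) ht) hy0 hyi (hh t ht)
    choose p q hq hpq using fun i => mem_Loc.mp (hc i)
    refine ⟨∏ i, q i, by rw [eval_prod]; exact Finset.prod_ne_zero_iff.mpr fun i _ => hq i, ?_⟩
    choose Y hY using fun i => hpoly (p i * ∏ j ∈ Finset.univ.erase i, q j) (y i)
    refine ⟨∑ i, Y i, ?_⟩
    rw [map_sum, hhc, Finset.mul_sum]
    refine Finset.sum_congr rfl fun i _ => ?_
    rw [hY i, Algebra.smul_def, ← mul_assoc, ← map_mul,
      ← Finset.mul_prod_erase _ q (Finset.mem_univ i), map_mul, map_mul, ← hpq i]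
    simp only [map_mul]
    ring
  have hcomb : ∀ S : Finset (Kappa A), (↑S ⊆ T) →
      ∃ q : (Kappa A)[X], (∀ t ∈ S, q.eval t ≠ 0) ∧ good q := by
    intro S
    induction S using Finset.induction_on with
    | empty => exact fun _ => ⟨0, by simp, 0, by simp⟩
    | @insert s S hs ih =>
      intro hS
      rw [Finset.coe_insert, Set.insert_subset_iff] at hS
      obtain ⟨q, hq, Y, hY⟩ := ih hS.2
      obtain ⟨q', hq', Y', hY'⟩ := hlocal s hS.1
      obtain ⟨a, ha⟩ := ((insert s S).image fun t => -(q.eval t) / q'.eval t).exists_notMem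
      refine ⟨q + C a * q', fun t ht h0 => ?_, ?_⟩
      · rw [eval_add, eval_mul, eval_C] at h0
        by_cases hz : q'.eval t = 0
        · rw [hz, mul_zero, add_zero] at h0
          rcases Finset.mem_insert.mp ht with rfl | h1
          · exact hq' hz
          · exact hq t h1 h0
        · refine ha (Finset.mem_image.mpr ⟨t, ht, ?_⟩)
          rw [div_eq_iff hz]
          linear_combination -h0
      · obtain ⟨Y'', hY''⟩ := hpoly (C a) Y'
        exact ⟨Y + Y'', by rw [map_add, hY, hY'', hY', map_add, map_add, map_mul, map_mul]; ring⟩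
  obtain ⟨q, hq, Y, hY⟩ := hcomb hT.toFinset (by simp)
  obtain ⟨Q, rfl⟩ := map_surjective _ residue_surjective q
  obtain ⟨t₀, ht₀⟩ := hT'
  have hQ0 : polyBar A Q ≠ 0 := fun h0 => hq t₀ (hT.mem_toFinset.mpr ht₀) (by
    rw [show Q.map (residue A) = 0 from h0, eval_zero])
  have hQ : Q ∈ diskPolys A T := ⟨hQ0, fun t ht => hq t (hT.mem_toFinset.mpr ht)⟩
  have hQι : ratIncl A Q ≠ 0 :=
    (map_ne_zero_iff _ ratIncl_injective).mpr fun h0 => hQ0 (by rw [h0, map_zero])
  have hmem : (ratIncl A Q)⁻¹ ∈ Lam A T := inv_apply_mem_fracPart hQ hQι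
  refine ⟨⟨_, mul_mem (algebraMap_mem_Rint hmem) Y.2⟩, ?_⟩
  have e : redG A ⟨_, Lam_le_Og T hmem⟩ = (ratBar A Q)⁻¹ := by
    rw [redG_eq (p := 1) (q := Q) _ hQ0 (by rw [inv_mul_cancel₀ hQι, map_one]), map_one, one_div]
  refine (M.red_algebraMap_mul (Lam_le_Og T hmem) (M.incl T Y)).trans ?_
  rw [e, show M.red (M.incl T Y) = _ from hY, ← mul_assoc, ← map_mul,
    show algebraMap (Kappa A)[X] (RatFunc (Kappa A)) (Q.map (residue A)) = ratBar A Q from rfl,
    inv_mul_cancel₀ (ratBar_ne_zero_of_mem hQ0), map_one, one_mul]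

end Model

end Fermat.Agent.EichlerShimura
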