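import Fermat.Agent.Genus.Bounds

/-!
# The ramification indices of `X₀(N)` over `j = 0` divide three
-/

set_option autoImplicit false

noncomputable section

open UpperHalfPlane hiding I
open MatrixGroups CongruenceSubgroup AlgebraicCurve ModularCurve
open scoped WithZero IntermediateField

namespace Fermat.Agent.EichlerShimura

open Fermat.Agent.Genus

local notation "Qb" => AlgebraicClosure ℚ

variable (N : ℕ) [NeZero N]

/-- Ramification indices over `j = 0` divide `3`. -/
theorem ord_jB_dvd_three (v : Place Qb (Fbar N)) (hv : 0 < v.ord (jB N)) :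
    v.ord (jB N) ∣ 3 := by
  have e : jB N - algebraMap Qb (Fbar N) 0 = jB N := by rw [map_zero, sub_zero]
  have := ord_jB_sub_dvd N 0 UpperHalfPlane.ρ Gamma0.ST ST_smul_ρ 3 3 three_ne_zero ?_ ?_ ?_ v
    (e.symm ▸ hv)
  · rwa [e] at this
  · simp only [map_zero, sub_zero]; exact analyticOrderAt_jH_zero E₄_ρ
  · intro k hk
    have hd : denom Gamma0.ST (UpperHalfPlane.ρ : ℂ) = (UpperHalfPlane.ρ : ℂ) + 1 := by
      rw [Gamma0.ST, ModularGroup.denom_apply]
      simp [Matrix.SpecialLinearGroup.coe_mul, ModularGroup.coe_S, ModularGroup.coe_T]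
    rw [hd, show ((UpperHalfPlane.ρ : ℂ) + 1) ^ 2 = UpperHalfPlane.ρ by
      linear_combination UpperHalfPlane.ρ_sq] at hk
    have hs := UpperHalfPlane.ρ_sq
    have h3 : (UpperHalfPlane.ρ : ℂ) ^ 3 = 1 := by
      linear_combination ((UpperHalfPlane.ρ : ℂ) - 1) * hs
    have hne : (UpperHalfPlane.ρ : ℂ) ≠ 1 := by
      intro h; rw [h] at hs; norm_num at hs
    have hρ : IsPrimitiveRoot (UpperHalfPlane.ρ : ℂ) 3 :=
      (orderOf_eq_prime h3 hne) ▸ IsPrimitiveRoot.orderOf _
    exact (hρ.zpow_eq_one_iff_dvd k).mp hk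
  · intro c
    exact pm_one_smul N (Or.inr Gamma0.ST_pow_three) c

end Fermat.Agent.EichlerShimura
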