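import Fermat.Agent.EichlerShimura.LinePlace
import Fermat.Agent.EichlerShimura.NormLift
import Fermat.Agent.RedTorsion.TraceVal
import Fermat.Agent.FF.LocalBasis

/-!
# A cover absorbing the ramification makes the algebra unramified

If every place of `E` over `x = c` has ramification index dividing the multiplicity of the point
`d` in the fibre of the cover over `c`, the base change is unramified at `d`.
-/

set_option autoImplicit false

noncomputable section

open Polynomial AlgebraicCurve

namespace Fermat.Agent.EichlerShimura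

open Fermat.Agent.FF

variable {L : Type*} [Field L]

theorem exists_den_factor (C₀ : RatCover L) {d : L} (hd : C₀.den.eval d ≠ 0) :
    ∃ w ∈ Loc d,
      unifAt d ^ (C₀.num - C (C₀.num.eval d / C₀.den.eval d) * C₀.den).rootMultiplicity d =
        C₀.hom (unifAt (C₀.num.eval d / C₀.den.eval d)) * w ∧
      evalLoc d ⟨C₀.hom (unifAt (C₀.num.eval d / C₀.den.eval d)),
        C₀.exists_mul_eq_of_mem_Loc hd (unifAt_mem _)⟩ = 0 ∧
      ∀ hw : w ∈ Loc d, evalLoc d ⟨w, hw⟩ ≠ 0 := by
  set c := C₀.num.eval d / C₀.den.eval d with hc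
  set P := C₀.num - C c * C₀.den with hP
  have hP0 : P ≠ 0 := by
    intro h
    have := congrArg degree (sub_eq_zero.mp h)
    refine absurd this.symm (ne_of_lt (lt_of_le_of_lt ?_ C₀.deg_lt))
    calc _ ≤ 0 + _ := (degree_mul_le _ _).trans (add_le_add degree_C_le le_rfl)
      _ = _ := zero_add _
  obtain ⟨r, hr, hr'⟩ := exists_eq_pow_rootMultiplicity_mul_and_not_dvd P hP0 d
  rw [dvd_iff_isRoot, IsRoot] at hr'
  have hi := RatFunc.algebraMap_injective L
  have hr0 : algebraMap L[X] (RatFunc L) r ≠ 0 :=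
    (map_ne_zero_iff _ hi).mpr fun h => hr' (by rw [h, eval_zero])
  have hden : algebraMap L[X] (RatFunc L) C₀.den ≠ 0 := C₀.algebraMap_den_ne_zero
  have hphi : C₀.hom (unifAt c) * algebraMap L[X] (RatFunc L) C₀.den =
      algebraMap L[X] (RatFunc L) P := by
    rw [unifAt_eq, map_sub, RatCover.hom_X, RatCover.hom_C, sub_mul, C₀.phi_mul_den, hP,
      map_sub, map_mul, RatFunc.algebraMap_C]
  refine ⟨algebraMap L[X] (RatFunc L) C₀.den / algebraMap L[X] (RatFunc L) r,
    ⟨C₀.den, r, hr', div_mul_cancel₀ _ hr0⟩, ?_, ?_, fun hw => ?_⟩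
  · rw [mul_div, hphi, eq_div_iff hr0, unifAt, ← map_pow, ← map_mul, ← hr]
  · rw [evalLoc_eq _ hd hphi, hP, eval_sub, eval_mul, eval_C, hc, div_mul_cancel₀ _ hd, sub_self,
      zero_div]
  · rw [evalLoc_eq _ hr' (div_mul_cancel₀ _ hr0)]
    exact div_ne_zero hd hr'

variable {E : Type*} [Field E] [Algebra (RatFunc L) E] [Algebra L E] [IsScalarTower L (RatFunc L) E]
  [FiniteDimensional (RatFunc L) E] [IsFunctionField L E]

omit [IsFunctionField L E] in
theorem restrict_eq_placeAtPt_iff {c : L} (P : Place L E) (h : ∀ f ∈ Loc c,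
    algebraMap (RatFunc L) E f ∈ P.toValuationSubring) : P.restrict (RatFunc L) = placeAtPt c :=
  eq_placeAtPt _ fun f hf => by
    rw [Place.restrict_toValuationSubring, ValuationSubring.mem_comap]
    exact h f hf

theorem isIntegral_Loc_of_places {c : L} {f : E}
    (h : ∀ P ∈ (placeAtPt c).fiber E, f ∈ P.toValuationSubring) :
    IsIntegral (Loc c).toSubring f := by
  let R : Subalgebra L E :=
    { (Loc c).toSubring.map (algebraMap (RatFunc L) E) with
      algebraMap_mem' := fun a => ⟨_, C_mem_Loc c a, by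
        rw [IsScalarTower.algebraMap_apply L (RatFunc L) E]; rfl⟩ }
  have hR : IsIntegral R f := isIntegral_of_forall_mem R fun v hv =>
    h v (Place.mem_fiber.mpr (restrict_eq_placeAtPt_iff v fun g hg => hv _ ⟨g, hg, rfl⟩))
  obtain ⟨p, hp, hpf⟩ := hR
  have hlift : p.map (algebraMap R E) ∈
      lifts (algebraMap (Loc c).toSubring E) := by
    refine (lifts_iff_coeff_lifts _).mpr fun n => ?_
    obtain ⟨g, hg, hge⟩ := (p.coeff n).2
    exact ⟨⟨g, hg⟩, by rw [coeff_map]; exact hge⟩
  obtain ⟨q, hq, -, hqm⟩ := lifts_and_natDegree_eq_and_monic hlift (hp.map _)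
  exact ⟨q, hqm, by rw [← eval_map, hq, eval_map, hpf]⟩

variable [IsAlgClosed L] [CharZero L]

variable {ι : Type*} [Fintype ι] [DecidableEq ι]

/-- The base change along a cover absorbing the ramification is unramified. -/
theorem unramAt_baseChange (C₀ : RatCover L) (b : Module.Basis ι (RatFunc L) E) {d : L}
    (hd : C₀.den.eval d ≠ 0)
    (hram : ∀ P : Place L E,
      algebraMap (RatFunc L) E (unifAt (C₀.num.eval d / C₀.den.eval d)) ∈ ordGe P 1 →
      (P.ord (algebraMap (RatFunc L) E (unifAt (C₀.num.eval d / C₀.den.eval d)))) ∣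
        ((C₀.num - C (C₀.num.eval d / C₀.den.eval d) * C₀.den).rootMultiplicity d : ℤ)) :
    UnramAt ι (C₀.BC E) d := by
  classical
  obtain ⟨w, hw, hpow, hphi0, hw0⟩ := exists_den_factor C₀ hd
  set c := C₀.num.eval d / C₀.den.eval d with hc
  set M := (C₀.num - C c * C₀.den).rootMultiplicity d with hM
  set Q := placeAtPt c with hQ
  set g : E := algebraMap (RatFunc L) E (unifAt c) with hg
  have hg0 : g ≠ 0 := (_root_.map_ne_zero _).mpr (unifAt_ne_zero c)
  set S := Q.fiber E with hS
  let e : Place L E → ℕ := fun P => P.ramificationIndex (RatFunc L)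
  have hord : ∀ P ∈ S, P.ord g = (e P : ℤ) := fun P hP => by
    rw [hg, P.ord_restrict, Place.mem_fiber.mp hP, hQ, ord_unifAt, mul_one]
  have hepos : ∀ P : Place L E, 0 < e P := fun P => P.ramificationIndex_pos
  have hdvd : ∀ P ∈ S, e P ∣ M := fun P hP => by
    have h1 := hram P (mem_ordGe_of_le P (by rw [hord P hP]; exact_mod_cast hepos P))
    rw [hord P hP] at h1
    exact_mod_cast h1
  have hn : ∑ P ∈ S, e P = Fintype.card ι :=
    (ramification_sum Q).trans (Module.finrank_eq_card_basis b)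
  -- local elements
  set N : ℕ := 2 * Fintype.card ι + 2 with hN
  choose t ht ht' using fun (P : Place L E) (i : ℕ) => exists_ord_eq P (-(i : ℤ))
  let tg : Place L E → ℕ → E := fun P i => if i = 0 then 1 else t P i
  have htg : ∀ P i, tg P i ≠ 0 ∧ P.ord (tg P i) = -(i : ℤ) := fun P i => by
    simp only [tg]
    split_ifs with h
    · subst h; exact ⟨one_ne_zero, by simp [Place.ord_one]⟩
    · exact ⟨ht P i, ht' P i⟩
  choose u hu using fun (P : Place L E) (i : ℕ) => exists_approx S
    (fun P' => if P' = P then tg P i else 0) (fun P' => if P' = P then 1 - (i : ℤ) else N)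
  have huP : ∀ P ∈ S, ∀ i : ℕ, u P i - tg P i ∈ ordGe P (1 - (i : ℤ)) := fun P hP i => by
    simpa using hu P i P hP
  have huO : ∀ P' ∈ S, ∀ P (i : ℕ), P' ≠ P → u P i ∈ ordGe P' N := fun P' hP' P i hne => by
    simpa [hne] using hu P i P' hP'
  have huP' : ∀ P ∈ S, ∀ i : ℕ, u P i ∈ ordGe P (-(i : ℤ)) := fun P hP i => by
    have h1 := ordGe_anti P (by omega : -(i : ℤ) ≤ 1 - (i : ℤ)) (huP P hP i)
    have h2 := add_mem h1 (mem_ordGe_of_le P (le_of_eq (htg P i).2.symm))
    rwa [sub_add_cancel] at h2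
  have heN : ∀ P ∈ S, e P ≤ Fintype.card ι := fun P hP => by
    rw [← hn]; exact Finset.single_le_sum (f := e) (fun _ _ => Nat.zero_le _) hP
  -- the index
  let σT := Σ P : S, Fin (e P)
  have hcard : Fintype.card σT = Fintype.card ι := by
    simp only [σT, Fintype.card_sigma, Fintype.card_fin]
    rw [← hn]
    exact Finset.sum_coe_sort S e
  let eqv : ι ≃ σT := (Fintype.equivOfCardEq hcard).symm
  set s : RatFunc L := unifAt d with hs
  let zz : σT → C₀.BC E := fun v =>
    algebraMap E (C₀.BC E) (u v.1 v.2) * C₀.toBC E (s ^ ((v.2 : ℕ) * (M / e v.1)))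
  have hwi : ∀ i : ℕ, w ^ i ∈ Loc d := fun i => pow_mem hw i
  -- integrality
  have hint : ∀ v, IsIntegral (Loc d).toSubring (zz v) := by
    rintro ⟨⟨P, hP⟩, i⟩
    refine IsIntegral.of_pow (hepos P) ?_
    have hexp : ((i : ℕ) * (M / e P)) * e P = M * i := by
      rw [mul_assoc, Nat.div_mul_cancel (hdvd P hP), mul_comm]
    have key : zz ⟨⟨P, hP⟩, i⟩ ^ e P =
        algebraMap E (C₀.BC E) (u P i ^ e P * g ^ (i : ℕ)) * C₀.toBC E (w ^ (i : ℕ)) := by
      simp only [zz, mul_pow, ← map_pow, ← pow_mul]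
      rw [hexp, pow_mul, hs, hpow, mul_pow, map_mul, ← mul_assoc, map_mul]
      congr 1
      congr 1
      · rw [map_pow, C₀.toBC_hom, C₀.algebraMap_BC, ← map_pow, ← map_pow]
    rw [key]
    refine IsIntegral.mul ?_ (isIntegral_algebraMap_of_mem (hwi _))
    have h1 : IsIntegral (Loc c).toSubring (u P i ^ e P * g ^ (i : ℕ)) :=
      isIntegral_Loc_of_places fun P' hP' => by
        rw [← mem_ordGe_zero]
        rcases eq_or_ne P' P with rfl | hne
        · refine ordGe_anti P' ?_ (mul_mem_ordGe P' (pow_mem_ordGe P' (huP' P' hP i) (e P'))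
            (mem_ordGe_of_le P' (le_refl (P'.ord (g ^ (i : ℕ))))))
          rw [ord_pow, hord P' hP]
          ring_nf
          exact le_rfl
        · refine ordGe_anti P' ?_ (mul_mem_ordGe P' (pow_mem_ordGe P' (huO P' hP' P i hne) (e P))
            (mem_ordGe_of_le P' (le_refl (P'.ord (g ^ (i : ℕ))))))
          rw [ord_pow, hord P' hP']
          positivity
    obtain ⟨p, hp, hpe⟩ := h1
    refine ⟨p.map ((C₀.hom.comp (Loc c).toSubring.subtype).codRestrict (Loc d).toSubring
      fun f => C₀.exists_mul_eq_of_mem_Loc hd f.2), hp.map _, ?_⟩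
    rw [eval₂_map]
    have h2 := congrArg (algebraMap E (C₀.BC E)) hpe
    rw [hom_eval₂, map_zero] at h2
    exact Eq.trans (congrArg (fun τ => p.eval₂ τ _) (RingHom.ext fun f => C₀.toBC_hom E _)) h2
  -- the trace matrix modulo `d`
  have hhom0 : ∀ {T : RatFunc L}, T ∈ ordGe Q 1 →
      ∃ hT : C₀.hom T ∈ Loc d, evalLoc d ⟨C₀.hom T, hT⟩ = 0 := by
    intro T hT
    obtain ⟨T', hT', hTe⟩ := exists_of_mem_ordGe_one hT
    have h1 := C₀.exists_mul_eq_of_mem_Loc hd hT'
    have h2 := C₀.exists_mul_eq_of_mem_Loc hd (unifAt_mem c)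
    have he : C₀.hom T = C₀.hom (unifAt c) * C₀.hom T' := by rw [hTe, map_mul]
    refine ⟨he ▸ mul_mem h2 h1, ?_⟩
    rw [show (⟨C₀.hom T, he ▸ mul_mem h2 h1⟩ : Loc d) = ⟨_, h2⟩ * ⟨_, h1⟩ from Subtype.ext he,
      map_mul, hphi0, zero_mul]
  have htr : ∀ (y : E) (f : RatFunc L),
      Algebra.trace (RatFunc L) (C₀.BC E) (algebraMap E (C₀.BC E) y * C₀.toBC E f) =
        f * C₀.hom (Algebra.trace (RatFunc L) E y) := fun y f => by
    rw [mul_comm, show C₀.toBC E f * algebraMap E (C₀.BC E) y = f • algebraMap E (C₀.BC E) y from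
      (Algebra.smul_def _ _).symm, map_smul, C₀.trace_algebraMap_BC E b, smul_eq_mul]
  have hzz : ∀ v v' : σT, zz v * zz v' = algebraMap E (C₀.BC E) (u v.1 v.2 * u v'.1 v'.2) *
      C₀.toBC E (s ^ ((v.2 : ℕ) * (M / e v.1) + (v'.2 : ℕ) * (M / e v'.1))) := fun v v' => by
    simp only [zz, map_mul, pow_add]
    ring
  have hne : ∃ P : Place L E, P.restrict (RatFunc L) = Q := exists_restrict_eq Q
  -- the value of each entry
  have hentry : ∀ v v' : σT, ∃ hT : Algebra.trace (RatFunc L) (C₀.BC E) (zz v * zz v') ∈ Loc d,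
      (evalLoc d ⟨_, hT⟩ = 0 ↔
        ¬((v.1 : Place L E) = v'.1 ∧ ((v.2 : ℕ) + v'.2) % e v.1 = 0)) := by
    rintro ⟨⟨P, hP⟩, i⟩ ⟨⟨P', hP'⟩, j⟩
    simp only
    rw [hzz, htr]
    simp only
    have hsi : ∀ k : ℕ, s ^ k ∈ Loc d := fun k => pow_mem (unifAt_mem d) k
    by_cases hPP : P = P'
    · subst hPP
      set q := M / e P with hq
      set sidx := ((i : ℕ) + j) / e P with hsidx
      set k := ((i : ℕ) + j) % e P with hk
      have hsplit : (i : ℕ) + j = k + e P * sidx := (Nat.mod_add_div _ _).symm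
      have hs1 : sidx ≤ 1 := by
        rw [hsidx]
        have hi : (i : ℕ) < e P := i.2
        have hj : (j : ℕ) < e P := j.2
        exact Nat.le_of_lt_succ ((Nat.div_lt_iff_lt_mul (hepos P)).mpr (by omega))
      have hMq : e P * q = M := Nat.mul_div_cancel' (hdvd P hP)
      set y := u P i * u P j * g ^ sidx with hy
      set T := Algebra.trace (RatFunc L) E y with hT
      have hval : s ^ ((i : ℕ) * q + (j : ℕ) * q) *
          C₀.hom (Algebra.trace (RatFunc L) E (u P i * u P j)) =
          C₀.hom T * w ^ sidx * s ^ (k * q) := by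
        rw [hT, hy, hg, ← map_pow, mul_comm (u P i * u P j), ← Algebra.smul_def, map_smul,
          smul_eq_mul, RingHom.map_mul, RingHom.map_pow, ← add_mul, hsplit, add_mul, pow_add,
          show e P * sidx * q = M * sidx by rw [← hMq]; ring, pow_mul (s) M, hs, hpow, mul_pow]
        ring
      rw [hval]
      have hyP : y ∈ ordGe P (-(k : ℤ)) := by
        refine ordGe_anti P ?_ (mul_mem_ordGe P (mul_mem_ordGe P (huP' P hP i) (huP' P hP j))
          (mem_ordGe_of_le P (le_refl (P.ord (g ^ sidx)))))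
        rw [ord_pow, hord P hP]
        have : ((i : ℕ) : ℤ) + (j : ℕ) = (k : ℤ) + (e P : ℤ) * sidx := by exact_mod_cast hsplit
        linarith
      have hyO : ∀ P'' ∈ S, P'' ≠ P → y ∈ ordGe P'' N := by
        intro P'' hP'' hne''
        refine ordGe_anti P'' ?_ (mul_mem_ordGe P'' (mul_mem_ordGe P'' (huO P'' hP'' P i hne'')
          (huO P'' hP'' P j hne'')) (mem_ordGe_of_le P'' (le_refl (P''.ord (g ^ sidx)))))
        rw [ord_pow, hord P'' hP'']
        have : (0 : ℤ) ≤ (sidx : ℤ) * (e P'' : ℤ) := by positivity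
        linarith [Int.natCast_nonneg N]
      by_cases hk0 : k = 0
      · rw [hk0, zero_mul, pow_zero, mul_one]
        -- nonzero value at `P`
        have hy0 : ∃ a : L, a ≠ 0 ∧ y - algebraMap L E a ∈ ordGe P 1 := by
          obtain ⟨a, ha⟩ := RedTorsion.exists_sub_mem_ordGe_one P (f := y)
            (ordGe_anti P (by omega) hyP)
          refine ⟨a, fun h0 => ?_, ha⟩
          rw [h0, map_zero, sub_zero] at ha
          have hu1 : ∀ m : ℕ, u P m ≠ 0 ∧ P.ord (u P m) = -(m : ℤ) := fun m => by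
            have h1 := (mem_ordGe P).mp (huP P hP m)
            obtain ⟨h2, h3⟩ := ord_add_eq_left P (htg P m).1 (g := u P m - tg P m)
              (h1.imp_right fun h => by rw [(htg P m).2]; omega)
            rw [add_sub_cancel] at h2 h3
            exact ⟨h2, h3.trans (htg P m).2⟩
          have hy' : y ≠ 0 ∧ P.ord y = 0 := by
            refine ⟨mul_ne_zero (mul_ne_zero (hu1 i).1 (hu1 j).1) (pow_ne_zero _ hg0), ?_⟩
            rw [hy, P.ord_mul (mul_ne_zero (hu1 i).1 (hu1 j).1) (pow_ne_zero _ hg0),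
              P.ord_mul (hu1 i).1 (hu1 j).1, (hu1 i).2, (hu1 j).2, ord_pow, hord P hP]
            have : ((i : ℕ) : ℤ) + (j : ℕ) = (e P : ℤ) * sidx := by
              rw [← Nat.cast_add, hsplit, hk0, zero_add, Nat.cast_mul]
            linarith
          have := le_ord_of_mem_ordGe P hy'.1 ha
          omega
        obtain ⟨a, ha0, ha⟩ := hy0
        obtain ⟨r, hr0, hr⟩ := RedTorsion.trace_sub_mem_ordGe_one Q P (Place.mem_fiber.mp hP) ha
          fun P'' hP'' hne'' => ordGe_anti P'' (by omega) (hyO P'' (Place.mem_fiber.mpr hP'') hne'')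
        obtain ⟨h1, h1'⟩ := hhom0 hr
        have hTm : C₀.hom T ∈ Loc d := by
          rw [map_sub] at h1
          have := add_mem h1 (show C₀.hom (algebraMap L (RatFunc L) ((r : L) * a)) ∈ Loc d by
            rw [show algebraMap L (RatFunc L) ((r : L) * a) = RatFunc.C ((r : L) * a) from rfl,
              RatCover.hom_C]
            exact C_mem_Loc _ _)
          rwa [sub_add_cancel] at this
        refine ⟨mul_mem hTm (hwi sidx), ?_⟩
        have hTv : evalLoc d ⟨C₀.hom T, hTm⟩ = r * a := by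
          have h2 : (⟨C₀.hom T, hTm⟩ : Loc d) = ⟨_, h1⟩ + ⟨_, C_mem_Loc d ((r : L) * a)⟩ := by
            refine Subtype.ext ?_
            show C₀.hom T = C₀.hom (T - algebraMap L (RatFunc L) ((r : L) * a)) + RatFunc.C _
            rw [map_sub, show algebraMap L (RatFunc L) ((r : L) * a) = RatFunc.C ((r : L) * a)
              from rfl, RatCover.hom_C, sub_add_cancel]
          rw [h2, map_add, h1', zero_add]
          exact (evalLoc_eq (p := C ((r : L) * a)) (q := 1) _ (by simp)
            (by simp [RatFunc.algebraMap_C])).trans (by simp)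
        rw [show (⟨C₀.hom T * w ^ sidx, mul_mem hTm (hwi sidx)⟩ : Loc d) =
          ⟨_, hTm⟩ * (⟨w, hw⟩ : Loc d) ^ sidx from Subtype.ext (by simp), map_mul, map_pow, hTv]
        refine iff_of_false ?_ (fun h => h ⟨rfl, rfl⟩)
        exact mul_ne_zero (mul_ne_zero (Nat.cast_ne_zero.mpr hr0.ne') ha0)
          (pow_ne_zero _ (hw0 hw))
      · have hkpos : 0 < k * q := Nat.mul_pos (Nat.pos_of_ne_zero hk0) (by
          rcases Nat.eq_zero_or_pos q with h | h
          · exfalso
            rw [h, mul_zero] at hMq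
            have := hpow
            rw [← hMq, pow_zero] at this
            have h2 : evalLoc d (⟨C₀.hom (unifAt c), C₀.exists_mul_eq_of_mem_Loc hd (unifAt_mem c)⟩ *
                ⟨w, hw⟩) = 1 := by
              rw [← map_one (evalLoc d)]
              exact congrArg _ (Subtype.ext this.symm)
            rw [map_mul, hphi0, zero_mul] at h2
            exact zero_ne_one h2
          · exact h)
        have hTm : C₀.hom T ∈ Loc d := by
          refine C₀.exists_mul_eq_of_mem_Loc hd (mem_ordGe_zero_placeAtPt.mp ?_)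
          have := RedTorsion.trace_mem_ordGe Q 0 (y := y) (fun P'' hP'' => by
            rcases eq_or_ne P'' P with rfl | hne''
            · refine ordGe_anti P'' ?_ hyP
              have h1 : k < e P'' := Nat.mod_lt _ (hepos P'')
              simp only [e] at h1 ⊢
              omega
            · refine ordGe_anti P'' ?_ (hyO P'' (Place.mem_fiber.mpr hP'') hne'')
              have : 1 ≤ P''.ramificationIndex (RatFunc L) := P''.ramificationIndex_pos
              omega) hne
          simpa using this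
        refine ⟨mul_mem (mul_mem hTm (hwi sidx)) (hsi _), iff_of_true ?_ fun h => hk0 h.2⟩
        rw [show (⟨C₀.hom T * w ^ sidx * s ^ (k * q), mul_mem (mul_mem hTm (hwi sidx)) (hsi _)⟩ :
          Loc d) = ⟨_, mul_mem hTm (hwi sidx)⟩ * (⟨s, unifAt_mem d⟩ : Loc d) ^ (k * q) from
            Subtype.ext (by simp), map_mul, map_pow,
          show evalLoc d ⟨s, unifAt_mem d⟩ = 0 from (evalLoc_algebraMap d _).trans (by simp),
          zero_pow (by omega), mul_zero]
    · have hT : Algebra.trace (RatFunc L) E (u P i * u P' j) ∈ ordGe Q 1 :=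
        RedTorsion.trace_mem_ordGe_one Q (fun P'' hP'' => by
          have hS'' : P'' ∈ S := Place.mem_fiber.mpr hP''
          rcases eq_or_ne P'' P with rfl | h1
          · refine ordGe_anti P'' ?_ (mul_mem_ordGe P'' (huP' P'' hS'' i) (huO P'' hS'' P' j hPP))
            have : (i : ℕ) < e P'' := i.2
            have := heN P'' hS''
            omega
          · rcases eq_or_ne P'' P' with rfl | h2
            · refine ordGe_anti P'' ?_ (mul_mem_ordGe P'' (huO P'' hS'' P i h1) (huP' P'' hS'' j))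
              have : (j : ℕ) < e P'' := j.2
              have := heN P'' hS''
              omega
            · refine ordGe_anti P'' ?_ (mul_mem_ordGe P'' (huO P'' hS'' P i h1) (huO P'' hS'' P' j h2))
              omega) hne
      obtain ⟨h1, h1'⟩ := hhom0 hT
      refine ⟨mul_mem (hsi _) h1, iff_of_true ?_ fun h => hPP h.1⟩
      rw [show (⟨_, mul_mem (hsi _) h1⟩ : Loc d) = ⟨_, hsi _⟩ * ⟨_, h1⟩ from rfl, map_mul, h1',
        mul_zero]
  choose hmem hiff using fun a a' : ι => hentry (eqv a) (eqv a')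
  let D : Matrix ι ι (Loc d) := fun a a' => ⟨_, hmem a a'⟩
  have hdiscr : Algebra.discr (RatFunc L) (fun a => zz (eqv a)) = (D.det : RatFunc L) := by
    rw [Algebra.discr_def]
    exact (congrArg Matrix.det (show Algebra.traceMatrix (RatFunc L) (fun a => zz (eqv a)) =
      D.map (Loc d).subtype from rfl)).trans (RingHom.map_det (Loc d).subtype D).symm
  have hDdet : evalLoc d D.det ≠ 0 := by
    rw [RingHom.map_det]
    intro h
    obtain ⟨x, hx, hx0⟩ := Matrix.exists_mulVec_eq_zero_iff.mpr h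
    refine hx (funext fun a' => ?_)
    -- the partner of `a'`
    obtain ⟨⟨⟨P, hP⟩, j⟩, hv⟩ : ∃ v, eqv a' = v := ⟨_, rfl⟩
    set a := eqv.symm ⟨⟨P, hP⟩, ⟨(e P - j) % e P, Nat.mod_lt _ (hepos P)⟩⟩ with ha
    have hea : eqv a = ⟨⟨P, hP⟩, ⟨(e P - j) % e P, Nat.mod_lt _ (hepos P)⟩⟩ :=
      eqv.apply_symm_apply _
    have hzero : ∀ b' : ι, b' ≠ a' → evalLoc d (D a b') = 0 := by
      intro b' hb'
      rw [hiff a b']
      rintro ⟨h1, h2⟩
      refine hb' (eqv.injective ?_)
      rw [hv]
      rw [hea] at h1 h2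
      obtain ⟨⟨⟨P₁, hP₁⟩, k⟩, hb⟩ : ∃ v, eqv b' = v := ⟨_, rfl⟩
      rw [hb] at h1 h2 ⊢
      simp only at h1 h2
      subst h1
      refine Sigma.ext rfl (heq_of_eq (Fin.ext ?_))
      show (k : ℕ) = j
      have hj := j.2
      have hk := k.2
      simp only at hj hk
      rcases Nat.eq_zero_or_pos (j : ℕ) with hj0 | hj0
      · rw [hj0, Nat.sub_zero, Nat.mod_self, zero_add, Nat.mod_eq_of_lt hk] at h2
        omega
      · rw [Nat.mod_eq_of_lt (by omega : e P - j < e P)] at h2
        obtain ⟨m, hm⟩ := Nat.dvd_of_mod_eq_zero h2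
        rcases m with _ | _ | m
        · omega
        · omega
        · have : e P * 2 ≤ e P * (m + 1 + 1) := Nat.mul_le_mul_left _ (by omega)
          omega
    have hne' : evalLoc d (D a a') ≠ 0 := by
      rw [Ne, hiff a a', not_not, hea, hv]
      refine ⟨rfl, ?_⟩
      simp only
      rw [Nat.mod_add_mod, Nat.sub_add_cancel j.2.le, Nat.mod_self]
    have hrow := congrFun hx0 a
    simp only [Matrix.mulVec, dotProduct, RingHom.mapMatrix_apply, Matrix.map_apply,
      Pi.zero_apply] at hrow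
    rw [Finset.sum_eq_single a' (fun b' _ hb' => by rw [hzero b' hb', zero_mul])
      (fun h => absurd (Finset.mem_univ a') h), mul_eq_zero] at hrow
    exact hrow.resolve_left hne'
  have hmemD : Algebra.discr (RatFunc L) (fun a => zz (eqv a)) ∈ Loc d := hdiscr ▸ D.det.2
  refine ⟨fun a => zz (eqv a), fun a => hint _, fun h0 => hDdet ?_, inv_mem_Loc hmemD ?_⟩
  · rw [show D.det = 0 from Subtype.ext (by rw [← hdiscr, h0]; rfl), map_zero]
  · rw [show (⟨_, hmemD⟩ : Loc d) = D.det from Subtype.ext hdiscr]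
    exact hDdet

end Fermat.Agent.EichlerShimura
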