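import Fermat.Agent.EichlerShimura.RedPoint

/-!
# Divisors of reduced functions

The divisor of the reduction of a function is the image of its divisor under the reduction of
points.
-/

set_option autoImplicit false

noncomputable section

open scoped Classical
open Polynomial IsLocalRing AlgebraicCurve

namespace Fermat.Agent.EichlerShimura

open Fermat.Agent.FF

-- Keep instance searches short: drop instances behind long failing searches, prefer the used ones.
attribute [-instance] IsLocalRing.ResidueField.algebraOfIsIntegral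
attribute [-instance] GradedMonoid.GradeZero.smul
attribute [-instance] RCLike.charZero_rclike
attribute [local instance high] Algebra.toModule
attribute [local instance high] RingHomClass.toAddMonoidHomClass RingHom.instRingHomClass
  AddMonoidHomClass.toAddHomClass

theorem inertiaDeg_eq_one {K F G : Type*} [Field K] [Field F] [Field G] [Algebra K F] [Algebra K G]
    [Algebra G F] [IsScalarTower K G F] [FiniteDimensional G F] [IsAlgClosed K]
    [IsFunctionField K G] [IsFunctionField K F] (P : Place K F) : P.inertiaDeg G = 1 := by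
  have := P.deg_restrict_mul_inertiaDeg (F := G)
  rw [deg_eq_one, deg_eq_one, one_mul] at this
  exact this

theorem ord_norm_eq {K F G : Type*} [Field K] [Field F] [Field G] [Algebra K F] [Algebra K G]
    [Algebra G F] [IsScalarTower K G F] [FiniteDimensional G F] [IsAlgClosed K]
    [IsFunctionField K G] [IsFunctionField K F] (v : Place K G) {f : F} (hf : f ≠ 0) :
    v.ord (Algebra.norm G f) = ∑ w ∈ v.fiber F, w.ord f := by
  rw [ord_norm v hf]
  exact Finset.sum_congr rfl fun w _ => by rw [inertiaDeg_eq_one]; simp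

theorem placeAtPt_injective {K₀ : Type*} [Field K₀] :
    Function.Injective (placeAtPt : K₀ → Place K₀ (RatFunc K₀)) := fun c d h => by
  by_contra hne
  have h1 := ord_placeAtPt_algebraMap d (X_sub_C_ne_zero c)
  rw [rootMultiplicity_X_sub_C, if_neg (Ne.symm hne), ← h,
    ord_placeAtPt_algebraMap c (X_sub_C_ne_zero c), rootMultiplicity_X_sub_C_self] at h1
  norm_num at h1

variable {L : Type*} [Field L] [IsAlgClosed L] {A : ValuationSubring L}
variable {ι : Type*} [Fintype ι] [DecidableEq ι]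
variable {E : Type*} [Field E] [Algebra (RatFunc L) E] [Algebra L E] [IsScalarTower L (RatFunc L) E]
  [FiniteDimensional (RatFunc L) E] [IsFunctionField L E]
variable {Eb : Type*} [Field Eb] [Algebra (RatFunc (Kappa A)) Eb] [Algebra (Kappa A) Eb]
  [IsScalarTower (Kappa A) (RatFunc (Kappa A)) Eb] [FiniteDimensional (RatFunc (Kappa A)) Eb]
  [IsFunctionField (Kappa A) Eb] [IsAlgClosed (Kappa A)]

/-- The support of a function as a finset. -/
def suppFin (y : E) : Finset (Place L E) := (finite_support (K := L) y).toFinset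

omit [IsAlgClosed L] [Algebra (RatFunc L) E] [IsScalarTower L (RatFunc L) E]
  [FiniteDimensional (RatFunc L) E] in
theorem notMem_suppFin {y : E} {P : Place L E} : P ∉ suppFin y ↔ P.ord y = 0 := by
  simp [suppFin]

omit [IsAlgClosed L] [Algebra (RatFunc L) E] [IsScalarTower L (RatFunc L) E]
  [FiniteDimensional (RatFunc L) E] in
theorem sum_filter_suppFin (p : Place L E → Prop) [DecidablePred p] {y : E} {S : Finset (Place L E)}
    (hS : suppFin y ⊆ S) : ∑ P ∈ (suppFin y).filter p, P.ord y = ∑ P ∈ S.filter p, P.ord y :=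
  Finset.sum_subset (Finset.filter_subset_filter _ hS) fun P hP hP' => by
    simp only [Finset.mem_filter] at hP hP'
    exact notMem_suppFin.mp fun h => hP' ⟨h, hP.2⟩

omit [IsAlgClosed L] [Algebra (RatFunc L) E] [IsScalarTower L (RatFunc L) E]
  [FiniteDimensional (RatFunc L) E] in
theorem sum_filter_suppFin_mul (p : Place L E → Prop) [DecidablePred p] {y z : E} (hy : y ≠ 0) (hz : z ≠ 0) :
    ∑ P ∈ (suppFin (y * z)).filter p, P.ord (y * z) =
      ∑ P ∈ (suppFin y).filter p, P.ord y + ∑ P ∈ (suppFin z).filter p, P.ord z := by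
  set S : Finset (Place L E) := suppFin (y * z) ∪ suppFin y ∪ suppFin z
  rw [sum_filter_suppFin p (S := S) (by intro P hP; simp [S, hP]),
    sum_filter_suppFin p (y := y) (S := S) (by intro P hP; simp [S, hP]),
    sum_filter_suppFin p (y := z) (S := S) (by intro P hP; simp [S, hP]), ← Finset.sum_add_distrib]
  exact Finset.sum_congr rfl fun P _ => P.ord_mul hy hz

namespace Model

variable (M : Model A ι E Eb) {t : Kappa A}

/-- The total order of `y` at the points reducing to `Q`. -/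
def discSum (t : Kappa A) (Q : Place (Kappa A) Eb) (y : E) : ℤ :=
  ∑ P ∈ (suppFin y).filter (fun P : Place L E => OverDisc t P ∧ IsSpec M t P Q), P.ord y

omit [IsAlgClosed (Kappa A)] in
omit [IsAlgClosed L] [IsFunctionField L E] in
theorem ord_nonneg_of_Rint {P : Place L E} (hP : OverDisc t P)
    (Y : Rint E ({t} : Set (Kappa A))) : 0 ≤ P.ord (Y : E) := by
  obtain ⟨c, hc, hP⟩ := hP
  exact ord_nonneg P (mem_place_of_Rint hc hP Y.2)

omit [Algebra L E] [IsScalarTower L (RatFunc L) E] [FiniteDimensional (RatFunc L) E]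
    [IsFunctionField L E] in
omit [IsFunctionField (Kappa A) Eb] [IsAlgClosed (Kappa A)] in
theorem redT_mem_place {Q : Place (Kappa A) Eb}
    (hQ : Q.restrict (RatFunc (Kappa A)) = placeAtPt t) (Y : Rint E ({t} : Set (Kappa A))) :
    M.redT {t} Y ∈ Q.toValuationSubring :=
  mem_place_of_isIntegral hQ (M.redT_isIntegral Y (Set.mem_singleton t))

/-- Equality of the total orders over the residue disc and over its centre. -/
theorem sum_disc_eq {Y : Rint E ({t} : Set (Kappa A))} (hY : M.redT {t} Y ≠ 0) :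
    ∑ P ∈ (suppFin (Y : E)).filter (OverDisc t), P.ord (Y : E) =
      ∑ Q ∈ (placeAtPt t).fiber Eb, Q.ord (M.redT {t} Y) := by
  have := M.finite
  have := M.finite'
  have hY0 : (Y : E) ≠ 0 := fun h => hY (by rw [show Y = 0 from Subtype.ext h, map_zero])
  have hN : Algebra.norm (RatFunc L) (Y : E) ∈ Lam A {t} :=
    norm_mem (Lam_intClosedIn _) (mem_Rint.mp Y.2)
  obtain ⟨hNg, hNr⟩ := M.norm_red (M.incl {t} Y)
  have hNbar : redG A ⟨_, Lam_le_Og _ hN⟩ = Algebra.norm (RatFunc (Kappa A)) (M.redT {t} Y) := hNr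
  obtain ⟨p, q, hq, hpq⟩ := mem_Lam.mp hN
  have hqt := hq.2 t (Set.mem_singleton t)
  have hN0 : Algebra.norm (RatFunc L) (Y : E) ≠ 0 := Algebra.norm_ne_zero_iff.mpr hY0
  have hNb0 : Algebra.norm (RatFunc (Kappa A)) (M.redT {t} Y) ≠ 0 := Algebra.norm_ne_zero_iff.mpr hY
  have hbar := redG_mul_bar (Lam_le_Og _ hN) hq.1 hpq
  rw [hNbar] at hbar
  have hp : polyBar A p ≠ 0 := fun h => by
    rw [ratBar_eq_zero_iff.mpr h, mul_eq_zero] at hbar
    exact hbar.elim hNb0 (ratBar_ne_zero_of_mem hq.1)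
  have hordt : (placeAtPt t).ord (Algebra.norm (RatFunc (Kappa A)) (M.redT {t} Y)) =
      (polyBar A p).rootMultiplicity t := by
    have h1 := congrArg (placeAtPt t).ord hbar
    rw [(placeAtPt t).ord_mul hNb0 (ratBar_ne_zero_of_mem hq.1), ratBar, RingHom.comp_apply,
      RingHom.comp_apply, ord_placeAtPt_algebraMap t hq.1, ord_placeAtPt_algebraMap t hp,
      rootMultiplicity_eq_zero (p := polyBar A q) hqt, Nat.cast_zero, add_zero] at h1
    exact h1
  rw [← ord_norm_eq (placeAtPt t) hY, hordt, ← card_filter_roots_eq p hp t]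
  set R := (polyIncl A p).roots.filter fun r => r ∈ A ∧ res A r = t with hR
  have hp0 : polyIncl A p ≠ 0 := fun h => hp (by
    rw [show p = 0 from polyIncl_injective (by rw [h, map_zero]), map_zero])
  have hq0 : polyIncl A q ≠ 0 := fun h => hq.1 (by
    rw [show q = 0 from polyIncl_injective (by rw [h, map_zero]), map_zero])
  have hqc : ∀ c : A, residue A c = t → (polyIncl A q).eval (c : L) ≠ 0 := fun c hc h0 => by
    refine hqt ?_
    rw [← hc, ← residue_eval, show q.eval c = 0 from Subtype.ext (by rw [coe_eval]; exact h0),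
      map_zero]
  have hfib : ∀ c : A, residue A c = t →
      ∑ P ∈ (placeAtPt (c : L)).fiber E, P.ord (Y : E) =
        ((polyIncl A p).rootMultiplicity (c : L) : ℤ) := fun c hc => by
    rw [← ord_norm_eq (placeAtPt (c : L)) hY0]
    have h1 := congrArg (placeAtPt (c : L)).ord hpq
    rw [(placeAtPt (c : L)).ord_mul hN0
      ((map_ne_zero_iff _ ratIncl_injective).mpr (fun h => hq.1 (by rw [h, map_zero]))),
      ratIncl, RingHom.comp_apply, RingHom.comp_apply, ord_placeAtPt_algebraMap _ hp0,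
      ord_placeAtPt_algebraMap _ hq0, rootMultiplicity_eq_zero (hqc c hc), Nat.cast_zero,
      add_zero] at h1
    exact h1
  set U := R.toFinset.biUnion fun r => (placeAtPt r).fiber E with hU
  have hmemR : ∀ r ∈ R.toFinset, ∃ c : A, (c : L) = r ∧ residue A c = t := fun r hr => by
    rw [Multiset.mem_toFinset, hR, Multiset.mem_filter] at hr
    exact ⟨⟨r, hr.2.1⟩, rfl, by rw [← res_of_mem hr.2.1]; exact hr.2.2⟩
  have hsum : ∑ P ∈ U, P.ord (Y : E) = (Multiset.card R : ℤ) := by
    rw [hU, Finset.sum_biUnion, ← Multiset.toFinset_sum_count_eq, Nat.cast_sum]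
    · refine Finset.sum_congr rfl fun r hr => ?_
      obtain ⟨c, rfl, hc⟩ := hmemR r hr
      rw [hfib c hc, hR, Multiset.count_filter_of_pos ⟨c.2, (res_coe c).trans hc⟩, count_roots]
    · intro r _ s _ hrs
      refine Finset.disjoint_left.mpr fun P hP hP' => hrs (placeAtPt_injective ?_)
      rw [← Place.mem_fiber.mp hP, ← Place.mem_fiber.mp hP']
  rw [← hsum]
  refine Eq.trans ?_ (Finset.sum_subset (Finset.filter_subset (fun P => P.ord (Y : E) ≠ 0) U)
    fun P hP hP' => by simpa [hP] using hP')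
  refine Finset.sum_congr ?_ fun _ _ => rfl
  ext P
  simp only [Finset.mem_filter, suppFin, Set.Finite.mem_toFinset, Set.mem_ofPred_eq, hU,
    Finset.mem_biUnion, Place.mem_fiber]
  constructor
  · rintro ⟨hne, c, hc, hP⟩
    refine ⟨⟨c, ?_, hP⟩, hne⟩
    have hpos : 0 < P.ord (Y : E) := lt_of_le_of_ne (ord_nonneg_of_Rint ⟨c, hc, hP⟩ Y) (Ne.symm hne)
    have hge : P.ord (Y : E) ≤ ∑ P' ∈ (placeAtPt (c : L)).fiber E, P'.ord (Y : E) :=
      Finset.single_le_sum (f := fun P' : Place L E => P'.ord (Y : E))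
        (fun P' hP' => ord_nonneg_of_Rint ⟨c, hc, Place.mem_fiber.mp hP'⟩ Y) (Place.mem_fiber.mpr hP)
    rw [hfib c hc] at hge
    rw [Multiset.mem_toFinset, hR, Multiset.mem_filter]
    refine ⟨?_, c.2, (res_coe c).trans hc⟩
    rw [← Multiset.count_pos, count_roots]
    omega
  · rintro ⟨⟨r, hr, hP⟩, hne⟩
    obtain ⟨c, rfl, hc⟩ := hmemR r hr
    exact ⟨hne, c, hc, hP⟩

/-- The key inequality. -/
theorem discSum_le (hlift : HasPowLift M t) {Y : Rint E ({t} : Set (Kappa A))}
    (hY : M.redT {t} Y ≠ 0) {Q : Place (Kappa A) Eb}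
    (hQ : Q.restrict (RatFunc (Kappa A)) = placeAtPt t) :
    M.discSum t Q (Y : E) ≤ Q.ord (M.redT {t} Y) := by
  set ybar := M.redT {t} Y with hybar
  have hbn : 0 ≤ Q.ord ybar := ord_nonneg Q (M.redT_mem_place hQ Y)
  obtain ⟨b, hb⟩ := Int.eq_ofNat_of_zero_le hbn
  obtain ⟨h, hint, hhQ, hh'⟩ := exists_separating (t := t) Q 1
  obtain ⟨m, hm, hl⟩ := hlift
  obtain ⟨Z, hZ⟩ := hl h hint
  have hZQ : M.redT {t} Z ∈ ordGe Q 1 := by
    rw [hZ]
    exact ordGe_anti Q (show (1 : ℤ) ≤ (m : ℤ) * 1 by omega) (pow_mem_ordGe Q (hhQ hQ) m)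
  have hZ' : ∀ Q' : Place (Kappa A) Eb, Q'.restrict (RatFunc (Kappa A)) = placeAtPt t → Q' ≠ Q →
      M.redT {t} Z - 1 ∈ ordGe Q' 1 := fun Q' hQ' hne => by
    have hh0 : h ∈ Q'.toValuationSubring := by
      rw [← mem_ordGe_zero]
      simpa using add_mem (ordGe_anti Q' (zero_le_one' ℤ) (hh' Q' hQ' hne))
        (mem_ordGe_of_le Q' (le_of_eq (Place.ord_one Q').symm) : (1 : Eb) ∈ ordGe Q' 0)
    rw [hZ, ← geom_sum_mul]
    simpa using mul_mem_ordGe Q' ((mem_ordGe_zero Q').mpr
      (sum_mem fun i _ => pow_mem hh0 i : ∑ i ∈ Finset.range m, h ^ i ∈ Q'.toValuationSubring))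
      (hh' Q' hQ' hne)
  set S := (suppFin (Y : E)).filter (fun P : Place L E => OverDisc t P ∧ IsSpec M t P Q) with hS
  have hval : ∀ P ∈ S, ∃ a : A, (Z : E) - algebraMap L E (a : L) ∈ ordGe P 1 ∧ residue A a = 0 :=
    fun P hP => by
    obtain ⟨⟨c, hc, hPc⟩, hs⟩ := (Finset.mem_filter.mp hP).2
    obtain ⟨a, ha, -⟩ := M.chi_spec hc hPc Z
    refine ⟨a, ha, ?_⟩
    have := sub_mem hZQ (hs.2 Z a ha)
    rw [sub_sub_cancel, RedTorsion.algebraMap_mem_ordGe_one_iff] at this
    exact this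
  choose! aP haP haP0 using hval
  have hval' : ∀ Q' : Place (Kappa A) Eb, Q'.restrict (RatFunc (Kappa A)) = placeAtPt t →
      ∃ v : Kappa A, ybar - algebraMap (Kappa A) Eb v ∈ ordGe Q' 1 := fun Q' hQ' =>
    RedTorsion.exists_sub_mem_ordGe_one Q' ((mem_ordGe_zero Q').mpr (M.redT_mem_place hQ' Y))
  choose! vQ hvQ using hval'
  obtain ⟨γb, hγb⟩ := (((placeAtPt t).fiber Eb).image fun Q' => -vQ Q').exists_notMem
  obtain ⟨γ, hγ⟩ := residue_surjective γb
  let n : Place L E → ℕ := fun P => (P.ord (Y : E)).toNat + 1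
  set g : Rint E ({t} : Set (Kappa A)) := ⟨_, constMem γ⟩ * Z ^ (b + 1) *
    ∏ P ∈ S, (Z - ⟨_, constMem (aP P)⟩) ^ n P with hg
  have hgbar : M.redT {t} g = algebraMap (Kappa A) Eb γb *
      (M.redT {t} Z) ^ (b + 1 + ∑ P ∈ S, n P) := by
    rw [hg, map_mul, map_mul, M.redT_const, hγ, map_pow, map_prod,
      pow_add (M.redT {t} Z) (b + 1), ← Finset.prod_pow_eq_pow_sum, mul_assoc]
    congr 2
    exact Finset.prod_congr rfl fun P hP => by
      rw [map_pow, map_sub, M.redT_const, haP0 P hP, map_zero, sub_zero]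
  set f : Rint E ({t} : Set (Kappa A)) := Y + g with hf
  have hgQ : M.redT {t} g ∈ ordGe Q ((b : ℤ) + 1) := by
    rw [hgbar]
    refine ordGe_anti Q ?_ (mul_mem_ordGe Q
      (mem_ordGe_of_le Q (le_refl (Q.ord (algebraMap (Kappa A) Eb γb))))
      (pow_mem_ordGe Q hZQ _))
    rw [ord_algebraMap]
    push_cast
    have : (0 : ℤ) ≤ ∑ P ∈ S, (n P : ℤ) := Finset.sum_nonneg fun P _ => Int.natCast_nonneg _
    omega
  obtain ⟨hfb0, hfbQ⟩ := ord_add_eq_left Q hY (g := M.redT {t} g)
    (((mem_ordGe Q).mp hgQ).imp_right fun h => by rw [hb]; omega)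
  rw [← map_add] at hfb0 hfbQ
  have hfb' : ∀ Q' ∈ (placeAtPt t).fiber Eb, Q' ≠ Q → Q'.ord (M.redT {t} f) = 0 := by
    intro Q' hQ'm hne
    have hQ' := Place.mem_fiber.mp hQ'm
    have hne0 : vQ Q' + γb ≠ 0 := fun h0 =>
      hγb (Finset.mem_image.mpr ⟨Q', hQ'm, by linear_combination -h0⟩)
    have hk : (M.redT {t} Z) ^ (b + 1 + ∑ P ∈ S, n P) - 1 ∈ ordGe Q' 1 := by
      rw [← geom_sum_mul]
      simpa using mul_mem_ordGe Q' ((mem_ordGe_zero Q').mpr
        (sum_mem fun i _ => pow_mem (M.redT_mem_place hQ' Z) i :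
          ∑ i ∈ Finset.range (b + 1 + ∑ P ∈ S, n P), (M.redT {t} Z) ^ i ∈ Q'.toValuationSubring))
        (hZ' Q' hQ' hne)
    have h1 : M.redT {t} f - algebraMap (Kappa A) Eb (vQ Q' + γb) ∈ ordGe Q' 1 := by
      have h2 := mul_mem_ordGe Q'
        (mem_ordGe_of_le Q' (le_of_eq (ord_algebraMap Q' γb).symm)) hk
      rw [zero_add] at h2
      convert add_mem (hvQ Q' hQ') h2 using 1
      rw [hf, map_add, hgbar, map_add]
      ring
    obtain ⟨-, h3⟩ := ord_add_eq_left Q' ((_root_.map_ne_zero _).mpr hne0)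
      (g := M.redT {t} f - algebraMap (Kappa A) Eb (vQ Q' + γb))
      (((mem_ordGe Q').mp h1).imp_right fun h => by rw [ord_algebraMap]; omega)
    rw [add_sub_cancel] at h3
    rw [h3, ord_algebraMap]
  have htot := M.sum_disc_eq hfb0
  rw [Finset.sum_eq_single Q hfb' (fun h => absurd (Place.mem_fiber.mpr hQ) h), hfbQ] at htot
  rw [← htot]
  have hordS : ∀ P ∈ S, P.ord (f : E) = P.ord (Y : E) := by
    intro P hP
    have hYP : (Y : E) ≠ 0 := fun h => hY (by rw [hybar, show Y = 0 from Subtype.ext h, map_zero])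
    have hmem := (Finset.mem_filter.mp hP).2.1
    have hge : (g : E) ∈ ordGe P (P.ord (Y : E) + 1) := by
      rw [hg, ← Finset.mul_prod_erase S _ hP]
      push_cast
      have hZ0 : (Z : E) ∈ ordGe P 0 := mem_ordGe_of_le P (ord_nonneg_of_Rint hmem Z)
      have hc0 : (algebraMap L E (γ : L)) ∈ ordGe P 0 :=
        mem_ordGe_of_le P (le_of_eq (ord_algebraMap P _).symm)
      have hrest : ((∏ x ∈ S.erase P, (Z - ⟨_, constMem (aP x)⟩) ^ n x :
          Rint E ({t} : Set (Kappa A))) : E) ∈ ordGe P 0 :=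
        mem_ordGe_of_le P (ord_nonneg_of_Rint hmem _)
      have h4 := mul_mem_ordGe P (mul_mem_ordGe P hc0 (pow_mem_ordGe P hZ0 (b + 1)))
        (mul_mem_ordGe P (pow_mem_ordGe P (haP P hP) (n P)) hrest)
      push_cast at h4
      refine ordGe_anti P ?_ h4
      have hn : (n P : ℤ) = P.ord (Y : E) + 1 := by
        simp only [n]
        have := ord_nonneg_of_Rint hmem Y
        omega
      rw [← hn]
      simp
    rw [hf]
    exact (ord_add_eq_left P hYP (g := (g : E))
      (((mem_ordGe P).mp hge).imp_right fun h => by omega)).2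
  calc M.discSum t Q (Y : E) = ∑ P ∈ S, P.ord (f : E) :=
        Finset.sum_congr rfl fun P hP => (hordS P hP).symm
    _ ≤ ∑ P ∈ (suppFin (f : E)).filter (OverDisc t), P.ord (f : E) := by
        refine le_of_le_of_eq (Finset.sum_le_sum_of_subset_of_nonneg
          (t := (suppFin (f : E) ∪ S).filter (OverDisc t)) ?_ ?_) ?_
        · intro P hP
          exact Finset.mem_filter.mpr ⟨Finset.mem_union_right _ hP, (Finset.mem_filter.mp hP).2.1⟩
        · intro P hP _
          exact ord_nonneg_of_Rint (Finset.mem_filter.mp hP).2 f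
        · exact (sum_filter_suppFin _ Finset.subset_union_left).symm

theorem discSum_eq_of_Rint (hlift : HasPowLift M t) {Y : Rint E ({t} : Set (Kappa A))}
    (hY : M.redT {t} Y ≠ 0) {Q : Place (Kappa A) Eb}
    (hQ : Q.restrict (RatFunc (Kappa A)) = placeAtPt t) :
    M.discSum t Q (Y : E) = Q.ord (M.redT {t} Y) := by
  refine (Finset.sum_eq_sum_iff_of_le fun Q' hQ' => M.discSum_le hlift hY
    (Place.mem_fiber.mp hQ')).mp ?_ Q (Place.mem_fiber.mpr hQ)
  rw [← M.sum_disc_eq hY]
  simp only [discSum]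
  rw [← Finset.sum_biUnion]
  · refine Finset.sum_congr ?_ fun _ _ => rfl
    ext P
    simp only [Finset.mem_biUnion, Finset.mem_filter, Place.mem_fiber]
    constructor
    · rintro ⟨_, -, h1, h2, -⟩; exact ⟨h1, h2⟩
    · rintro ⟨h1, h2⟩
      obtain ⟨Q', hQ'⟩ := M.exists_isSpec h2
      exact ⟨Q', hQ'.1, h1, h2, hQ'⟩
  · intro Q₁ _ Q₂ _ hne
    refine Finset.disjoint_left.mpr fun P h1 h2 => hne ?_
    exact M.isSpec_unique hlift (Finset.mem_filter.mp h1).2.1 (Finset.mem_filter.mp h1).2.2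
      (Finset.mem_filter.mp h2).2.2

/-- The divisor of the reduction of `y` over `t` is the image of the divisor of `y`. -/
theorem discSum_eq (hlift : HasPowLift M t) {y : M.S} (hy : M.red y ≠ 0) {Q : Place (Kappa A) Eb}
    (hQ : Q.restrict (RatFunc (Kappa A)) = placeAtPt t) :
    M.discSum t Q (y : E) = Q.ord (M.red y) := by
  obtain ⟨q, hq, hmem⟩ := M.exists_mul_mem_Rint {t} y
  set u : Rint E ({t} : Set (Kappa A)) := ⟨_, algebraMap_mem_Rint (apply_mem_fracPart q)⟩ with hu
  have hu1 : M.redT {t} u = algebraMap (RatFunc (Kappa A)) Eb (ratBar A q) := M.redT_ratIncl q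
  have hu0 : M.redT {t} u ≠ 0 := by
    rw [hu1]; exact (_root_.map_ne_zero _).mpr (ratBar_ne_zero_of_mem hq)
  have huy : M.redT {t} ⟨_, hmem⟩ = M.redT {t} u * M.red y := by
    show M.red _ = M.red _ * M.red y
    rw [← map_mul]
    rfl
  have hw0 : M.redT {t} ⟨_, hmem⟩ ≠ 0 := by rw [huy]; exact mul_ne_zero hu0 hy
  have h1 := M.discSum_eq_of_Rint hlift hw0 hQ
  have h2 := M.discSum_eq_of_Rint hlift hu0 hQ
  have hE0 : (u : E) ≠ 0 := fun h => hu0 (by rw [show u = 0 from Subtype.ext h, map_zero])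
  have hy0 : (y : E) ≠ 0 := fun h => hy (by rw [show y = 0 from Subtype.ext h, map_zero])
  rw [huy, Q.ord_mul hu0 hy, discSum, show ((⟨_, hmem⟩ : Rint E ({t} : Set (Kappa A))) : E) =
    (u : E) * (y : E) from rfl, sum_filter_suppFin_mul _ hE0 hy0] at h1
  rw [discSum] at h2
  rw [h2] at h1
  exact add_left_cancel h1

end Model

end Fermat.Agent.EichlerShimura
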